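/-
Fermat/Agent/Jac/LineOps39/Basic.lean  (helper39)

Brick A3 (LineOps) of the S25 programme, part 0: the elementary calculus of morphisms and
isomorphisms of two-chart modules (`QC2.Hom`, `QC2.Iso` from `Jac/Core.lean`):
identity / composition / inverse, action on the Čech complex, on `H⁰` and on `H¹`,
and transport of `IsLine` / `IsVB` along isomorphisms.
-/
import Fermat.Agent.Jac.Core

set_option autoImplicit false
set_option linter.unusedSectionVars false

universe u

open TensorProduct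

namespace Fermat.Agent.Jac.LineOps39

variable {A R0 R1 R01 : Type u} [CommRing A] [CommRing R0] [CommRing R1] [CommRing R01]
  [Algebra A R0] [Algebra A R1] [Algebra A R01] [Algebra R0 R01] [Algebra R1 R01]
  [IsScalarTower A R0 R01] [IsScalarTower A R1 R01]

/-! ### Morphisms -/

/-- The identity morphism. -/
def homId (L : QC2 A R0 R1 R01) : QC2.Hom L L where
  f0 := LinearMap.id
  f1 := LinearMap.id
  f01 := LinearMap.id
  comm0 _ := rfl
  comm1 _ := rfl

/-- Composition of morphisms (`g` after `f`). -/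
def homComp {L M N : QC2 A R0 R1 R01} (g : QC2.Hom M N) (f : QC2.Hom L M) : QC2.Hom L N where
  f0 := g.f0.comp f.f0
  f1 := g.f1.comp f.f1
  f01 := g.f01.comp f.f01
  comm0 x := by simp [f.comm0, g.comm0]
  comm1 x := by simp [f.comm1, g.comm1]

/-- Extensionality for morphisms of two-chart modules. -/
lemma hom_ext {L M : QC2 A R0 R1 R01} {f g : QC2.Hom L M} (h0 : f.f0 = g.f0) (h1 : f.f1 = g.f1)
    (h01 : f.f01 = g.f01) : f = g := by
  cases f; cases g; simp_all

/-- A morphism is determined by its chart components (the overlap component is forced by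
base change). -/
lemma hom_ext' {L M : QC2 A R0 R1 R01} {f g : QC2.Hom L M} (h0 : f.f0 = g.f0)
    (h1 : f.f1 = g.f1) : f = g := by
  refine hom_ext h0 h1 ?_
  refine L.bc0.algHom_ext' _ _ ?_
  ext x
  simp [f.comm0, g.comm0, h0]

/-- The zero morphism. -/
def homZero (L M : QC2 A R0 R1 R01) : QC2.Hom L M where
  f0 := 0
  f1 := 0
  f01 := 0
  comm0 _ := by simp
  comm1 _ := by simp

/-- The `A`-linear map induced by a morphism on the degree-zero term `N0 × N1` of the Čech
complex. -/
def homC0 {L M : QC2 A R0 R1 R01} (f : QC2.Hom L M) : (L.N0 × L.N1) →ₗ[A] (M.N0 × M.N1) :=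
  LinearMap.prodMap (f.f0.restrictScalars A) (f.f1.restrictScalars A)

/-- The `A`-linear map induced by a morphism on the degree-one term `N01`. -/
def homC1 {L M : QC2 A R0 R1 R01} (f : QC2.Hom L M) : L.N01 →ₗ[A] M.N01 :=
  f.f01.restrictScalars A

@[simp] lemma homC0_apply {L M : QC2 A R0 R1 R01} (f : QC2.Hom L M) (x : L.N0 × L.N1) :
    homC0 f x = (f.f0 x.1, f.f1 x.2) := rfl

@[simp] lemma homC1_apply {L M : QC2 A R0 R1 R01} (f : QC2.Hom L M) (x : L.N01) :
    homC1 f x = f.f01 x := rfl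

lemma d_apply (L : QC2 A R0 R1 R01) (x : L.N0 × L.N1) : L.d x = L.r0 x.1 - L.r1 x.2 := by
  simp [QC2.d, LinearMap.coprod_apply, sub_eq_add_neg]

/-- A morphism commutes with the Čech differential. -/
lemma homC1_d {L M : QC2 A R0 R1 R01} (f : QC2.Hom L M) (x : L.N0 × L.N1) :
    homC1 f (L.d x) = M.d (homC0 f x) := by
  simp [d_apply, f.comm0, f.comm1]

lemma homC1_comp_d {L M : QC2 A R0 R1 R01} (f : QC2.Hom L M) :
    (homC1 f).comp L.d = M.d.comp (homC0 f) :=
  LinearMap.ext (homC1_d f)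

/-- The map induced on `H⁰`. -/
def homH0 {L M : QC2 A R0 R1 R01} (f : QC2.Hom L M) : L.H0 →ₗ[A] M.H0 :=
  (homC0 f).restrict (fun x hx => by
    have hx' : L.d x = 0 := hx
    show M.d (homC0 f x) = 0
    rw [← homC1_d, hx', map_zero])

@[simp] lemma homH0_coe {L M : QC2 A R0 R1 R01} (f : QC2.Hom L M) (x : L.H0) :
    ((homH0 f x : M.H0) : M.N0 × M.N1) = homC0 f x := rfl

/-- The map induced on `H¹`. -/
def homH1 {L M : QC2 A R0 R1 R01} (f : QC2.Hom L M) : L.H1 →ₗ[A] M.H1 :=
  Submodule.mapQ _ _ (homC1 f) (by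
    rintro _ ⟨x, rfl⟩
    exact ⟨homC0 f x, (homC1_d f x).symm⟩)

@[simp] lemma homH1_mk {L M : QC2 A R0 R1 R01} (f : QC2.Hom L M) (x : L.N01) :
    homH1 f (Submodule.Quotient.mk x) = Submodule.Quotient.mk (f.f01 x) := rfl

@[simp] lemma homC0_id (L : QC2 A R0 R1 R01) : homC0 (homId L) = LinearMap.id := by
  ext <;> rfl

@[simp] lemma homC1_id (L : QC2 A R0 R1 R01) : homC1 (homId L) = LinearMap.id := rfl

lemma homC0_comp {L M N : QC2 A R0 R1 R01} (g : QC2.Hom M N) (f : QC2.Hom L M) :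
    homC0 (homComp g f) = (homC0 g).comp (homC0 f) := by
  ext <;> rfl

lemma homC1_comp {L M N : QC2 A R0 R1 R01} (g : QC2.Hom M N) (f : QC2.Hom L M) :
    homC1 (homComp g f) = (homC1 g).comp (homC1 f) := rfl

@[simp] lemma homH0_id (L : QC2 A R0 R1 R01) : homH0 (homId L) = LinearMap.id := by
  ext x <;> rfl

lemma homH0_comp {L M N : QC2 A R0 R1 R01} (g : QC2.Hom M N) (f : QC2.Hom L M) :
    homH0 (homComp g f) = (homH0 g).comp (homH0 f) := by
  ext x <;> rfl

@[simp] lemma homH1_id (L : QC2 A R0 R1 R01) : homH1 (homId L) = LinearMap.id := by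
  ext x
  rfl

lemma homH1_comp {L M N : QC2 A R0 R1 R01} (g : QC2.Hom M N) (f : QC2.Hom L M) :
    homH1 (homComp g f) = (homH1 g).comp (homH1 f) := by
  ext x
  rfl

/-! ### Isomorphisms -/

/-- The identity isomorphism. -/
def isoRefl (L : QC2 A R0 R1 R01) : QC2.Iso L L where
  e0 := LinearEquiv.refl _ _
  e1 := LinearEquiv.refl _ _
  e01 := LinearEquiv.refl _ _
  comm0 _ := rfl
  comm1 _ := rfl

/-- The inverse isomorphism. -/
def isoSymm {L M : QC2 A R0 R1 R01} (e : QC2.Iso L M) : QC2.Iso M L where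
  e0 := e.e0.symm
  e1 := e.e1.symm
  e01 := e.e01.symm
  comm0 x := by
    rw [LinearEquiv.symm_apply_eq, e.comm0, LinearEquiv.apply_symm_apply]
  comm1 x := by
    rw [LinearEquiv.symm_apply_eq, e.comm1, LinearEquiv.apply_symm_apply]

/-- Composition of isomorphisms (`e` first, then `f`). -/
def isoTrans {L M N : QC2 A R0 R1 R01} (e : QC2.Iso L M) (f : QC2.Iso M N) : QC2.Iso L N where
  e0 := e.e0.trans f.e0
  e1 := e.e1.trans f.e1
  e01 := e.e01.trans f.e01
  comm0 x := by simp [e.comm0, f.comm0]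
  comm1 x := by simp [e.comm1, f.comm1]

/-- The morphism underlying an isomorphism. -/
def isoHom {L M : QC2 A R0 R1 R01} (e : QC2.Iso L M) : QC2.Hom L M where
  f0 := e.e0.toLinearMap
  f1 := e.e1.toLinearMap
  f01 := e.e01.toLinearMap
  comm0 := e.comm0
  comm1 := e.comm1

lemma homComp_isoHom_symm {L M : QC2 A R0 R1 R01} (e : QC2.Iso L M) :
    homComp (isoHom (isoSymm e)) (isoHom e) = homId L := by
  refine hom_ext ?_ ?_ ?_ <;> ext x <;> simp [homComp, isoHom, isoSymm, homId]

lemma homComp_isoHom_symm' {L M : QC2 A R0 R1 R01} (e : QC2.Iso L M) :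
    homComp (isoHom e) (isoHom (isoSymm e)) = homId M := by
  refine hom_ext ?_ ?_ ?_ <;> ext x <;> simp [homComp, isoHom, isoSymm, homId]

/-- An isomorphism from two chart isomorphisms which are compatible on the overlap: the overlap
component is then forced. -/
noncomputable def isoOfCharts {L M : QC2 A R0 R1 R01} (e0 : L.N0 ≃ₗ[R0] M.N0)
    (e1 : L.N1 ≃ₗ[R1] M.N1)
    (h : ∀ x : L.N1, (L.bc0.equiv.symm.trans
      ((TensorProduct.AlgebraTensorModule.congr (LinearEquiv.refl R01 R01) e0).trans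
        M.bc0.equiv)) (L.r1 x) = M.r1 (e1 x)) : QC2.Iso L M where
  e0 := e0
  e1 := e1
  e01 := L.bc0.equiv.symm.trans
      ((TensorProduct.AlgebraTensorModule.congr (LinearEquiv.refl R01 R01) e0).trans M.bc0.equiv)
  comm0 x := by
    simp [IsBaseChange.equiv_symm_apply, IsBaseChange.equiv_tmul]
  comm1 := h

/-- An isomorphism induces an `A`-linear equivalence on `H⁰`. -/
def isoH0 {L M : QC2 A R0 R1 R01} (e : QC2.Iso L M) : L.H0 ≃ₗ[A] M.H0 :=
  LinearEquiv.ofLinearMap (homH0 (isoHom e)) (homH0 (isoHom (isoSymm e)))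
    (by rw [← homH0_comp, homComp_isoHom_symm', homH0_id])
    (by rw [← homH0_comp, homComp_isoHom_symm, homH0_id])

/-- An isomorphism induces an `A`-linear equivalence on `H¹`. -/
def isoH1 {L M : QC2 A R0 R1 R01} (e : QC2.Iso L M) : L.H1 ≃ₗ[A] M.H1 :=
  LinearEquiv.ofLinearMap (homH1 (isoHom e)) (homH1 (isoHom (isoSymm e)))
    (by rw [← homH1_comp, homComp_isoHom_symm', homH1_id])
    (by rw [← homH1_comp, homComp_isoHom_symm, homH1_id])

@[simp] lemma isoH0_coe {L M : QC2 A R0 R1 R01} (e : QC2.Iso L M) (x : L.H0) :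
    ((isoH0 e x : M.H0) : M.N0 × M.N1) = (e.e0 x.1.1, e.e1 x.1.2) := rfl

@[simp] lemma isoH1_mk {L M : QC2 A R0 R1 R01} (e : QC2.Iso L M) (x : L.N01) :
    isoH1 e (Submodule.Quotient.mk x) = Submodule.Quotient.mk (e.e01 x) := rfl

/-- Being a line bundle is invariant under isomorphism. -/
lemma isLine_of_iso {L M : QC2 A R0 R1 R01} (e : QC2.Iso L M) (hL : L.IsLine) : M.IsLine :=
  have := hL.inv0
  have := hL.inv1
  ⟨Module.Invertible.congr e.e0, Module.Invertible.congr e.e1⟩

/-- Being a vector bundle is invariant under isomorphism. -/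
lemma isVB_of_iso {L M : QC2 A R0 R1 R01} (e : QC2.Iso L M) (hL : L.IsVB) : M.IsVB :=
  have := hL.fin0
  have := hL.fin1
  have := hL.proj0
  have := hL.proj1
  ⟨Module.Finite.equiv e.e0, Module.Projective.of_equiv e.e0, Module.Finite.equiv e.e1,
    Module.Projective.of_equiv e.e1⟩

/-- A line bundle is a vector bundle. -/
lemma isVB_of_isLine {L : QC2 A R0 R1 R01} (hL : L.IsLine) : L.IsVB :=
  have := hL.inv0
  have := hL.inv1
  ⟨inferInstance, inferInstance, inferInstance, inferInstance⟩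

/-- The structure sheaf is a line bundle. -/
lemma isLine_unit : (QC2.unit : QC2 A R0 R1 R01).IsLine :=
  ⟨inferInstanceAs (Module.Invertible R0 R0), inferInstanceAs (Module.Invertible R1 R1)⟩

end Fermat.Agent.Jac.LineOps39
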