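/-
Fermat/Agent/Jac/LineOps39/Sub.lean  (helper39)

Brick A3 (LineOps) of the S25 programme, part 2: sub-objects and quotients of two-chart modules.
-/
import Fermat.Agent.Jac.LineOps39.Basic

set_option autoImplicit false
set_option linter.unusedSectionVars false

universe u

open TensorProduct

namespace Fermat.Agent.Jac.LineOps39

variable {A R0 R1 R01 : Type u} [CommRing A] [CommRing R0] [CommRing R1] [CommRing R01]
  [Algebra A R0] [Algebra A R1] [Algebra A R01] [Algebra R0 R01] [Algebra R1 R01]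
  [IsScalarTower A R0 R01] [IsScalarTower A R1 R01]

/-! ### The restriction maps are localizations -/

lemma isLocalizedModule_r0 (c : TwoChart A R0 R1 R01) (L : QC2 A R0 R1 R01) :
    IsLocalizedModule (Submonoid.powers c.t) L.r0 :=
  have := c.away0
  (isLocalizedModule_iff_isBaseChange (Submonoid.powers c.t) R01 L.r0).mpr L.bc0

lemma isLocalizedModule_r1 (c : TwoChart A R0 R1 R01) (L : QC2 A R0 R1 R01) :
    IsLocalizedModule (Submonoid.powers c.s) L.r1 :=
  have := c.away1
  (isLocalizedModule_iff_isBaseChange (Submonoid.powers c.s) R01 L.r1).mpr L.bc1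

/-- A pair of chart submodules of a two-chart module generating the same submodule on the
overlap: the datum of a (quasi-coherent) subsheaf. -/
structure SubPair (L : QC2 A R0 R1 R01) where
  S0 : Submodule R0 L.N0
  S1 : Submodule R1 L.N1
  compat : Submodule.span R01 (L.r0 '' S0) = Submodule.span R01 (L.r1 '' S1)

/-- The submodule of `N01` generated by a sub-pair. -/
def SubPair.S01 {L : QC2 A R0 R1 R01} (P : SubPair L) : Submodule R01 L.N01 :=
  Submodule.span R01 (L.r0 '' P.S0)

lemma SubPair.S01_eq' {L : QC2 A R0 R1 R01} (P : SubPair L) :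
    P.S01 = Submodule.span R01 (L.r1 '' P.S1) := P.compat

lemma SubPair.r0_mem {L : QC2 A R0 R1 R01} (P : SubPair L) {x : L.N0} (hx : x ∈ P.S0) :
    L.r0 x ∈ P.S01 := Submodule.subset_span ⟨x, hx, rfl⟩

lemma SubPair.r1_mem {L : QC2 A R0 R1 R01} (P : SubPair L) {x : L.N1} (hx : x ∈ P.S1) :
    L.r1 x ∈ P.S01 := P.S01_eq' ▸ Submodule.subset_span ⟨x, hx, rfl⟩

lemma SubPair.S01_eq_localized0 (c : TwoChart A R0 R1 R01) {L : QC2 A R0 R1 R01}
    (P : SubPair L) :
    have := c.away0
    have := isLocalizedModule_r0 c L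
    P.S01 = P.S0.localized' R01 (Submonoid.powers c.t) L.r0 := by
  intro _ _
  exact (Submodule.localized'_eq_span R01 (Submonoid.powers c.t) L.r0 P.S0).symm

lemma SubPair.S01_eq_localized1 (c : TwoChart A R0 R1 R01) {L : QC2 A R0 R1 R01}
    (P : SubPair L) :
    have := c.away1
    have := isLocalizedModule_r1 c L
    P.S01 = P.S1.localized' R01 (Submonoid.powers c.s) L.r1 := by
  intro _ _
  rw [P.S01_eq']
  exact (Submodule.localized'_eq_span R01 (Submonoid.powers c.s) L.r1 P.S1).symm

/-- The restriction map of the sub-object on chart 0. -/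
def SubPair.subR0 {L : QC2 A R0 R1 R01} (P : SubPair L) : P.S0 →ₗ[R0] P.S01 :=
  (L.r0.domRestrict P.S0).codRestrict (P.S01.restrictScalars R0) (fun x => P.r0_mem x.2)

/-- The restriction map of the sub-object on chart 1. -/
def SubPair.subR1 {L : QC2 A R0 R1 R01} (P : SubPair L) : P.S1 →ₗ[R1] P.S01 :=
  (L.r1.domRestrict P.S1).codRestrict (P.S01.restrictScalars R1) (fun x => P.r1_mem x.2)

lemma SubPair.isBaseChange_subR0 (c : TwoChart A R0 R1 R01) {L : QC2 A R0 R1 R01}
    (P : SubPair L) : IsBaseChange R01 P.subR0 := by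
  have := c.away0
  have := isLocalizedModule_r0 c L
  rw [← isLocalizedModule_iff_isBaseChange (Submonoid.powers c.t) R01]
  have h := P.S01_eq_localized0 c
  have key : IsLocalizedModule (Submonoid.powers c.t)
      (P.S0.toLocalized' R01 (Submonoid.powers c.t) L.r0) := inferInstance
  let e : (P.S0.localized' R01 (Submonoid.powers c.t) L.r0) ≃ₗ[R0] P.S01 :=
    (LinearEquiv.ofEq _ _ h.symm).restrictScalars R0
  have := IsLocalizedModule.of_linearEquiv (Submonoid.powers c.t)
    (P.S0.toLocalized' R01 (Submonoid.powers c.t) L.r0) e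
  convert this using 1
  ext x
  rfl

lemma SubPair.isBaseChange_subR1 (c : TwoChart A R0 R1 R01) {L : QC2 A R0 R1 R01}
    (P : SubPair L) : IsBaseChange R01 P.subR1 := by
  have := c.away1
  have := isLocalizedModule_r1 c L
  rw [← isLocalizedModule_iff_isBaseChange (Submonoid.powers c.s) R01]
  have h := P.S01_eq_localized1 c
  have key : IsLocalizedModule (Submonoid.powers c.s)
      (P.S1.toLocalized' R01 (Submonoid.powers c.s) L.r1) := inferInstance
  let e : (P.S1.localized' R01 (Submonoid.powers c.s) L.r1) ≃ₗ[R1] P.S01 :=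
    (LinearEquiv.ofEq _ _ h.symm).restrictScalars R1
  have := IsLocalizedModule.of_linearEquiv (Submonoid.powers c.s)
    (P.S1.toLocalized' R01 (Submonoid.powers c.s) L.r1) e
  convert this using 1
  ext x
  rfl

/-- The sub-object of `L` cut out by a sub-pair. -/
def sub (c : TwoChart A R0 R1 R01) (L : QC2 A R0 R1 R01) (P : SubPair L) :
    QC2 A R0 R1 R01 where
  N0 := P.S0
  N1 := P.S1
  N01 := P.S01
  r0 := P.subR0
  r1 := P.subR1
  bc0 := P.isBaseChange_subR0 c
  bc1 := P.isBaseChange_subR1 c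

/-- The inclusion of the sub-object. -/
def subHom (c : TwoChart A R0 R1 R01) (L : QC2 A R0 R1 R01) (P : SubPair L) :
    QC2.Hom (sub c L P) L where
  f0 := P.S0.subtype
  f1 := P.S1.subtype
  f01 := P.S01.subtype
  comm0 _ := rfl
  comm1 _ := rfl

/-! ### Quotients -/

/-- The restriction map of the quotient on chart 0. -/
def SubPair.quotR0 {L : QC2 A R0 R1 R01} (P : SubPair L) :
    (L.N0 ⧸ P.S0) →ₗ[R0] (L.N01 ⧸ P.S01) :=
  Submodule.mapQ P.S0 (P.S01.restrictScalars R0) L.r0 (fun _ hx => P.r0_mem hx)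

/-- The restriction map of the quotient on chart 1. -/
def SubPair.quotR1 {L : QC2 A R0 R1 R01} (P : SubPair L) :
    (L.N1 ⧸ P.S1) →ₗ[R1] (L.N01 ⧸ P.S01) :=
  Submodule.mapQ P.S1 (P.S01.restrictScalars R1) L.r1 (fun _ hx => P.r1_mem hx)

lemma SubPair.isBaseChange_quotR0 (c : TwoChart A R0 R1 R01) {L : QC2 A R0 R1 R01}
    (P : SubPair L) : IsBaseChange R01 P.quotR0 := by
  have := c.away0
  have := isLocalizedModule_r0 c L
  rw [← isLocalizedModule_iff_isBaseChange (Submonoid.powers c.t) R01]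
  have h := P.S01_eq_localized0 c
  have key : IsLocalizedModule (Submonoid.powers c.t)
      (P.S0.toLocalizedQuotient' R01 (Submonoid.powers c.t) L.r0) := inferInstance
  let e : (L.N01 ⧸ P.S0.localized' R01 (Submonoid.powers c.t) L.r0) ≃ₗ[R0] (L.N01 ⧸ P.S01) :=
    (Submodule.quotEquivOfEq _ _ h.symm).restrictScalars R0
  have := IsLocalizedModule.of_linearEquiv (Submonoid.powers c.t)
    (P.S0.toLocalizedQuotient' R01 (Submonoid.powers c.t) L.r0) e
  convert this using 1
  ext x
  rfl

lemma SubPair.isBaseChange_quotR1 (c : TwoChart A R0 R1 R01) {L : QC2 A R0 R1 R01}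
    (P : SubPair L) : IsBaseChange R01 P.quotR1 := by
  have := c.away1
  have := isLocalizedModule_r1 c L
  rw [← isLocalizedModule_iff_isBaseChange (Submonoid.powers c.s) R01]
  have h := P.S01_eq_localized1 c
  have key : IsLocalizedModule (Submonoid.powers c.s)
      (P.S1.toLocalizedQuotient' R01 (Submonoid.powers c.s) L.r1) := inferInstance
  let e : (L.N01 ⧸ P.S1.localized' R01 (Submonoid.powers c.s) L.r1) ≃ₗ[R1] (L.N01 ⧸ P.S01) :=
    (Submodule.quotEquivOfEq _ _ h.symm).restrictScalars R1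
  have := IsLocalizedModule.of_linearEquiv (Submonoid.powers c.s)
    (P.S1.toLocalizedQuotient' R01 (Submonoid.powers c.s) L.r1) e
  convert this using 1
  ext x
  rfl

/-- The quotient of `L` by the sub-object cut out by a sub-pair. -/
def quot (c : TwoChart A R0 R1 R01) (L : QC2 A R0 R1 R01) (P : SubPair L) :
    QC2 A R0 R1 R01 where
  N0 := L.N0 ⧸ P.S0
  N1 := L.N1 ⧸ P.S1
  N01 := L.N01 ⧸ P.S01
  r0 := P.quotR0
  r1 := P.quotR1
  bc0 := P.isBaseChange_quotR0 c
  bc1 := P.isBaseChange_quotR1 c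

/-- The projection onto the quotient. -/
def quotHom (c : TwoChart A R0 R1 R01) (L : QC2 A R0 R1 R01) (P : SubPair L) :
    QC2.Hom L (quot c L P) where
  f0 := P.S0.mkQ
  f1 := P.S1.mkQ
  f01 := P.S01.mkQ
  comm0 _ := rfl
  comm1 _ := rfl

/-! ### Chartwise exactness of `0 → sub → L → quot → 0` -/

section exact

variable (c : TwoChart A R0 R1 R01) (L : QC2 A R0 R1 R01) (P : SubPair L)

lemma subHom_f0_injective : Function.Injective (subHom c L P).f0 := Subtype.val_injective
lemma subHom_f1_injective : Function.Injective (subHom c L P).f1 := Subtype.val_injective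
lemma subHom_f01_injective : Function.Injective (subHom c L P).f01 := Subtype.val_injective

lemma quotHom_f0_surjective : Function.Surjective (quotHom c L P).f0 :=
  Submodule.mkQ_surjective P.S0
lemma quotHom_f1_surjective : Function.Surjective (quotHom c L P).f1 :=
  Submodule.mkQ_surjective P.S1
lemma quotHom_f01_surjective : Function.Surjective (quotHom c L P).f01 :=
  Submodule.mkQ_surjective P.S01

lemma exact_f0 : Function.Exact (subHom c L P).f0 (quotHom c L P).f0 :=
  LinearMap.exact_subtype_mkQ P.S0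
lemma exact_f1 : Function.Exact (subHom c L P).f1 (quotHom c L P).f1 :=
  LinearMap.exact_subtype_mkQ P.S1
lemma exact_f01 : Function.Exact (subHom c L P).f01 (quotHom c L P).f01 :=
  LinearMap.exact_subtype_mkQ P.S01

/-- `0 → C⁰(sub) → C⁰(L)` is injective. -/
lemma homC0_subHom_injective : Function.Injective (homC0 (subHom c L P)) := by
  intro x y h
  have h1 := congrArg Prod.fst h
  have h2 := congrArg Prod.snd h
  exact Prod.ext (Subtype.val_injective h1) (Subtype.val_injective h2)

lemma homC1_subHom_injective : Function.Injective (homC1 (subHom c L P)) :=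
  Subtype.val_injective

lemma homC0_quotHom_surjective : Function.Surjective (homC0 (quotHom c L P)) := by
  rintro ⟨x, y⟩
  obtain ⟨x, rfl⟩ := Submodule.mkQ_surjective _ x
  obtain ⟨y, rfl⟩ := Submodule.mkQ_surjective _ y
  exact ⟨(x, y), rfl⟩

lemma homC1_quotHom_surjective : Function.Surjective (homC1 (quotHom c L P)) := by
  intro y
  obtain ⟨x, rfl⟩ := Submodule.mkQ_surjective P.S01 y
  exact ⟨x, rfl⟩

lemma exact_homC0 : Function.Exact (homC0 (subHom c L P)) (homC0 (quotHom c L P)) := by
  intro z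
  constructor
  · intro h
    have h1 : P.S0.mkQ z.1 = 0 := congrArg Prod.fst h
    have h2 : P.S1.mkQ z.2 = 0 := congrArg Prod.snd h
    rw [Submodule.mkQ_apply, Submodule.Quotient.mk_eq_zero] at h1 h2
    exact ⟨((⟨z.1, h1⟩ : P.S0), (⟨z.2, h2⟩ : P.S1)), rfl⟩
  · rintro ⟨w, rfl⟩
    have h1 : P.S0.mkQ (w.1 : P.S0).1 = 0 := by
      rw [Submodule.mkQ_apply, Submodule.Quotient.mk_eq_zero]; exact (w.1 : P.S0).2
    have h2 : P.S1.mkQ (w.2 : P.S1).1 = 0 := by
      rw [Submodule.mkQ_apply, Submodule.Quotient.mk_eq_zero]; exact (w.2 : P.S1).2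
    exact Prod.ext h1 h2

lemma exact_homC1 : Function.Exact (homC1 (subHom c L P)) (homC1 (quotHom c L P)) :=
  LinearMap.exact_subtype_mkQ P.S01

end exact

/-! ### A two-chart module one of whose restriction maps is bijective -/

section bijective

variable (Q : QC2 A R0 R1 R01)

/-- If `r1` is bijective, then `H¹ = 0`. -/
lemma subsingleton_H1_of_bijective_r1 (h : Function.Bijective Q.r1) : Subsingleton Q.H1 := by
  refine Submodule.Quotient.subsingleton_iff.mpr (LinearMap.range_eq_top.mpr fun y => ?_)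
  obtain ⟨x, rfl⟩ := h.2 y
  exact ⟨(0, -x), by simp [d_apply]⟩

/-- If `r0` is bijective, then `H¹ = 0`. -/
lemma subsingleton_H1_of_bijective_r0 (h : Function.Bijective Q.r0) : Subsingleton Q.H1 := by
  refine Submodule.Quotient.subsingleton_iff.mpr (LinearMap.range_eq_top.mpr fun y => ?_)
  obtain ⟨x, rfl⟩ := h.2 y
  exact ⟨(x, 0), by simp [d_apply]⟩

/-- If `r1` is bijective, then `H⁰ ≃ N0` (first projection). -/
noncomputable def H0EquivOfBijectiveR1 (h : Function.Bijective Q.r1) : Q.H0 ≃ₗ[A] Q.N0 :=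
  LinearEquiv.ofBijective ((LinearMap.fst A Q.N0 Q.N1).comp Q.H0.subtype) (by
    constructor
    · intro x y hxy
      have hx : Q.r0 x.1.1 - Q.r1 x.1.2 = 0 := by rw [← d_apply]; exact x.2
      have hy : Q.r0 y.1.1 - Q.r1 y.1.2 = 0 := by rw [← d_apply]; exact y.2
      have h1 : x.1.1 = y.1.1 := hxy
      have h2 : x.1.2 = y.1.2 := by
        apply h.1
        rw [← sub_eq_zero.mp hx, ← sub_eq_zero.mp hy, h1]
      exact Subtype.ext (Prod.ext h1 h2)
    · intro x
      obtain ⟨y, hy⟩ := h.2 (Q.r0 x)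
      exact ⟨⟨(x, y), by show Q.d (x, y) = 0; simp [d_apply, hy]⟩, rfl⟩)

@[simp] lemma H0EquivOfBijectiveR1_apply (h : Function.Bijective Q.r1) (x : Q.H0) :
    H0EquivOfBijectiveR1 Q h x = x.1.1 := rfl

/-- If `r0` is bijective, then `H⁰ ≃ N1` (second projection). -/
noncomputable def H0EquivOfBijectiveR0 (h : Function.Bijective Q.r0) : Q.H0 ≃ₗ[A] Q.N1 :=
  LinearEquiv.ofBijective ((LinearMap.snd A Q.N0 Q.N1).comp Q.H0.subtype) (by
    constructor
    · intro x y hxy
      have hx : Q.r0 x.1.1 - Q.r1 x.1.2 = 0 := by rw [← d_apply]; exact x.2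
      have hy : Q.r0 y.1.1 - Q.r1 y.1.2 = 0 := by rw [← d_apply]; exact y.2
      have h2 : x.1.2 = y.1.2 := hxy
      have h1 : x.1.1 = y.1.1 := by
        apply h.1
        rw [sub_eq_zero.mp hx, sub_eq_zero.mp hy, h2]
      exact Subtype.ext (Prod.ext h1 h2)
    · intro y
      obtain ⟨x, hx⟩ := h.2 (Q.r1 y)
      exact ⟨⟨(x, y), by show Q.d (x, y) = 0; simp [d_apply, hx]⟩, rfl⟩)

@[simp] lemma H0EquivOfBijectiveR0_apply (h : Function.Bijective Q.r0) (x : Q.H0) :
    H0EquivOfBijectiveR0 Q h x = x.1.2 := rfl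

end bijective

end Fermat.Agent.Jac.LineOps39
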