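/-
Fermat/Agent/Jac/LineOps39/Twist.lean  (helper39)

Brick A3 (LineOps) of the S25 programme, part 3: ideal pairs (closed subschemes / effective
divisors), the down-twist `L(-D) = I_D • L ⊆ L`, and the quotient `L / L(-D)`.
-/
import Fermat.Agent.Jac.LineOps39.Sub

set_option autoImplicit false
set_option linter.unusedSectionVars false

universe u

open TensorProduct

namespace Fermat.Agent.Jac.LineOps39

variable {A R0 R1 R01 : Type u} [CommRing A] [CommRing R0] [CommRing R1] [CommRing R01]
  [Algebra A R0] [Algebra A R1] [Algebra A R01] [Algebra R0 R01] [Algebra R1 R01]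
  [IsScalarTower A R0 R01] [IsScalarTower A R1 R01]

/-- A pair of chart ideals generating the same ideal on the overlap: a closed subscheme of the
glued scheme (an effective Cartier divisor when both ideals are invertible). -/
structure IdealPair (R0 R1 R01 : Type u) [CommRing R0] [CommRing R1] [CommRing R01]
    [Algebra R0 R01] [Algebra R1 R01] where
  I0 : Ideal R0
  I1 : Ideal R1
  compat : I0.map (algebraMap R0 R01) = I1.map (algebraMap R1 R01)

/-- The ideal on the overlap. -/
def IdealPair.I01 (D : IdealPair R0 R1 R01) : Ideal R01 := D.I0.map (algebraMap R0 R01)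

lemma IdealPair.I01_eq' (D : IdealPair R0 R1 R01) : D.I01 = D.I1.map (algebraMap R1 R01) :=
  D.compat

/-- The ideal pair of the closure in the glued scheme of `V(I0) ⊆ Spec R0`: on chart 1 take the
contraction of the extension of `I0` to the overlap. -/
def IdealPair.ofChart0 (c : TwoChart A R0 R1 R01) (I0 : Ideal R0) : IdealPair R0 R1 R01 where
  I0 := I0
  I1 := (I0.map (algebraMap R0 R01)).comap (algebraMap R1 R01)
  compat :=
    have := c.away1
    (IsLocalization.map_under (Submonoid.powers c.s) R01 (I0.map (algebraMap R0 R01))).symm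

/-- The ideal pair of the closure in the glued scheme of `V(I1) ⊆ Spec R1`. -/
def IdealPair.ofChart1 (c : TwoChart A R0 R1 R01) (I1 : Ideal R1) : IdealPair R0 R1 R01 where
  I0 := (I1.map (algebraMap R1 R01)).comap (algebraMap R0 R01)
  I1 := I1
  compat :=
    have := c.away0
    IsLocalization.map_under (Submonoid.powers c.t) R01 (I1.map (algebraMap R1 R01))

/-- The unit ideal pair (empty subscheme). -/
def IdealPair.top : IdealPair R0 R1 R01 where
  I0 := ⊤
  I1 := ⊤
  compat := by rw [Ideal.map_top, Ideal.map_top]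

/-- Product of ideal pairs (sum of divisors). -/
def IdealPair.mul (D E : IdealPair R0 R1 R01) : IdealPair R0 R1 R01 where
  I0 := D.I0 * E.I0
  I1 := D.I1 * E.I1
  compat := by rw [Ideal.map_mul, Ideal.map_mul, D.compat, E.compat]

lemma span_r0_image_smul_top (c : TwoChart A R0 R1 R01) (L : QC2 A R0 R1 R01) (I : Ideal R0) :
    Submodule.span R01 (L.r0 '' ((I • (⊤ : Submodule R0 L.N0) : Submodule R0 L.N0) : Set L.N0)) =
      I.map (algebraMap R0 R01) • (⊤ : Submodule R01 L.N01) := by
  have := c.away0
  have := isLocalizedModule_r0 c L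
  rw [← Submodule.localized'_eq_span R01 (Submonoid.powers c.t) L.r0, Submodule.localized'_smul,
    Submodule.localized'_top, Submodule.localized'_eq_span]
  rfl

lemma span_r1_image_smul_top (c : TwoChart A R0 R1 R01) (L : QC2 A R0 R1 R01) (I : Ideal R1) :
    Submodule.span R01 (L.r1 '' ((I • (⊤ : Submodule R1 L.N1) : Submodule R1 L.N1) : Set L.N1)) =
      I.map (algebraMap R1 R01) • (⊤ : Submodule R01 L.N01) := by
  have := c.away1
  have := isLocalizedModule_r1 c L
  rw [← Submodule.localized'_eq_span R01 (Submonoid.powers c.s) L.r1, Submodule.localized'_smul,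
    Submodule.localized'_top, Submodule.localized'_eq_span]
  rfl

/-- The sub-pair `I_D • L` of a two-chart module `L`. -/
def IdealPair.subPair (c : TwoChart A R0 R1 R01) (D : IdealPair R0 R1 R01)
    (L : QC2 A R0 R1 R01) : SubPair L where
  S0 := D.I0 • ⊤
  S1 := D.I1 • ⊤
  compat := by
    rw [span_r0_image_smul_top c, span_r1_image_smul_top c, D.compat]

lemma IdealPair.subPair_S01 (c : TwoChart A R0 R1 R01) (D : IdealPair R0 R1 R01)
    (L : QC2 A R0 R1 R01) : (D.subPair c L).S01 = D.I01 • (⊤ : Submodule R01 L.N01) :=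
  span_r0_image_smul_top c L D.I0

/-- The down-twist `L(-D) := I_D • L ⊆ L`. -/
def downTwist (c : TwoChart A R0 R1 R01) (L : QC2 A R0 R1 R01) (D : IdealPair R0 R1 R01) :
    QC2 A R0 R1 R01 :=
  sub c L (D.subPair c L)

/-- The inclusion `L(-D) → L`. -/
def downTwistHom (c : TwoChart A R0 R1 R01) (L : QC2 A R0 R1 R01) (D : IdealPair R0 R1 R01) :
    QC2.Hom (downTwist c L D) L :=
  subHom c L (D.subPair c L)

/-- The restriction `L|_D := L / L(-D)` of `L` to the closed subscheme `D`, as a two-chart
module. -/
def restrictTo (c : TwoChart A R0 R1 R01) (L : QC2 A R0 R1 R01) (D : IdealPair R0 R1 R01) :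
    QC2 A R0 R1 R01 :=
  quot c L (D.subPair c L)

/-- The projection `L → L|_D`. -/
def restrictToHom (c : TwoChart A R0 R1 R01) (L : QC2 A R0 R1 R01) (D : IdealPair R0 R1 R01) :
    QC2.Hom L (restrictTo c L D) :=
  quotHom c L (D.subPair c L)

end Fermat.Agent.Jac.LineOps39
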