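/-
Fermat/Agent/Jac/LineOps39/Tensor.lean  (helper39)

Brick A3 (LineOps) of the S25 programme: tensor product of two-chart modules.
-/
import Fermat.Agent.Jac.LineOps39.Basic

set_option autoImplicit false
set_option linter.unusedSectionVars false

universe u

open TensorProduct

namespace Fermat.Agent.Jac.LineOps39

variable {A R0 R1 R01 : Type u} [CommRing A] [CommRing R0] [CommRing R1] [CommRing R01]
  [Algebra A R0] [Algebra A R1] [Algebra A R01] [Algebra R0 R01] [Algebra R1 R01]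
  [IsScalarTower A R0 R01] [IsScalarTower A R1 R01]

section semilinearTensor

/-! ### Tensor product of two base-change maps -/

variable {R S : Type u} [CommRing R] [CommRing S] [Algebra R S]
variable {M N M' N' : Type u} [AddCommGroup M] [AddCommGroup N] [AddCommGroup M'] [AddCommGroup N']
  [Module R M] [Module R N] [Module R M'] [Module R N'] [Module S M'] [Module S N']
  [IsScalarTower R S M'] [IsScalarTower R S N']

/-- For `f : M → M'`, `g : N → N'` `R`-linear into `S`-modules, the map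
`M ⊗[R] N → M' ⊗[S] N'`, `x ⊗ y ↦ f x ⊗ g y`. -/
noncomputable def tmap (f : M →ₗ[R] M') (g : N →ₗ[R] N') : M ⊗[R] N →ₗ[R] M' ⊗[S] N' :=
  (TensorProduct.mapOfCompatibleSMul S R R M' N').comp (TensorProduct.map f g)

@[simp] lemma tmap_tmul (f : M →ₗ[R] M') (g : N →ₗ[R] N') (x : M) (y : N) :
    tmap (S := S) f g (x ⊗ₜ y) = f x ⊗ₜ g y := by
  simp [tmap]

lemma isBaseChange_tmap {f : M →ₗ[R] M'} {g : N →ₗ[R] N'} (hf : IsBaseChange S f)
    (hg : IsBaseChange S g) : IsBaseChange S (tmap (S := S) f g) := by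
  let e : S ⊗[R] (M ⊗[R] N) ≃ₗ[S] M' ⊗[S] N' :=
    (AlgebraTensorModule.distribBaseChange R S M N).trans (TensorProduct.congr hf.equiv hg.equiv)
  refine IsBaseChange.of_equiv e (fun x => ?_)
  induction x with
  | zero => simp
  | tmul x y => simp [e, IsBaseChange.equiv_tmul]
  | add x y hx hy => simp [tmul_add, hx, hy]

section

variable {P Q P' Q' : Type u} [AddCommGroup P] [AddCommGroup Q] [AddCommGroup P']
  [AddCommGroup Q'] [Module R P] [Module R Q] [Module R P'] [Module R Q'] [Module S P']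
  [Module S Q'] [IsScalarTower R S P'] [IsScalarTower R S Q']

/-- Naturality of `tmap`. -/
lemma map_tmap {f : M →ₗ[R] M'} {g : N →ₗ[R] N'} {f2 : P →ₗ[R] P'} {g2 : Q →ₗ[R] Q'}
    (a : M →ₗ[R] P) (b : N →ₗ[R] Q) (a' : M' →ₗ[S] P') (b' : N' →ₗ[S] Q')
    (ha : ∀ x, a' (f x) = f2 (a x)) (hb : ∀ y, b' (g y) = g2 (b y)) (z : M ⊗[R] N) :
    TensorProduct.map a' b' (tmap (S := S) f g z) =
      tmap (S := S) f2 g2 (TensorProduct.map a b z) := by
  induction z with
  | zero => simp
  | tmul x y => simp [ha, hb]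
  | add x y hx hy => simp only [map_add, hx, hy]

end

/-- `tmap` and the left unitor. -/
lemma lid_tmap (g : N →ₗ[R] N') (z : R ⊗[R] N) :
    TensorProduct.lid S N' (tmap (S := S) (Algebra.linearMap R S) g z) =
      g (TensorProduct.lid R N z) := by
  induction z with
  | zero => simp
  | tmul a x => simp
  | add x y hx hy => simp only [map_add, hx, hy]

/-- `tmap` and the symmetry. -/
lemma comm_tmap (f : M →ₗ[R] M') (g : N →ₗ[R] N') (z : M ⊗[R] N) :
    TensorProduct.comm S M' N' (tmap (S := S) f g z) =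
      tmap (S := S) g f (TensorProduct.comm R M N z) := by
  induction z with
  | zero => simp
  | tmul x y => simp
  | add x y hx hy => simp only [map_add, hx, hy]

section

variable {P P' : Type u} [AddCommGroup P] [AddCommGroup P'] [Module R P] [Module R P']
  [Module S P'] [IsScalarTower R S P']

/-- `tmap` and the associator. -/
lemma assoc_tmap (f : M →ₗ[R] M') (g : N →ₗ[R] N') (h : P →ₗ[R] P') (z : (M ⊗[R] N) ⊗[R] P) :
    TensorProduct.assoc S M' N' P' (tmap (S := S) (tmap (S := S) f g) h z) =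
      tmap (S := S) f (tmap (S := S) g h) (TensorProduct.assoc R M N P z) := by
  induction z with
  | zero => simp
  | tmul x z =>
    induction x with
    | zero => simp
    | tmul x y => simp
    | add x y hx hy => simp only [add_tmul, map_add, hx, hy]
  | add x y hx hy => simp only [map_add, hx, hy]

end

end semilinearTensor

/-! ### The tensor product of two-chart modules -/

/-- Tensor product of two-chart modules, chart by chart. -/
noncomputable def tensor (L M : QC2 A R0 R1 R01) : QC2 A R0 R1 R01 where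
  N0 := L.N0 ⊗[R0] M.N0
  N1 := L.N1 ⊗[R1] M.N1
  N01 := L.N01 ⊗[R01] M.N01
  r0 := tmap (S := R01) L.r0 M.r0
  r1 := tmap (S := R01) L.r1 M.r1
  bc0 := isBaseChange_tmap L.bc0 M.bc0
  bc1 := isBaseChange_tmap L.bc1 M.bc1

@[simp] lemma tensor_r0_tmul (L M : QC2 A R0 R1 R01) (x : L.N0) (y : M.N0) :
    (tensor L M).r0 (x ⊗ₜ[R0] y) = (L.r0 x ⊗ₜ[R01] M.r0 y : L.N01 ⊗[R01] M.N01) :=
  tmap_tmul _ _ _ _

@[simp] lemma tensor_r1_tmul (L M : QC2 A R0 R1 R01) (x : L.N1) (y : M.N1) :
    (tensor L M).r1 (x ⊗ₜ[R1] y) = (L.r1 x ⊗ₜ[R01] M.r1 y : L.N01 ⊗[R01] M.N01) :=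
  tmap_tmul _ _ _ _

/-- The tensor product of two line bundles is a line bundle. -/
lemma isLine_tensor {L M : QC2 A R0 R1 R01} (hL : L.IsLine) (hM : M.IsLine) :
    (tensor L M).IsLine :=
  have := hL.inv0
  have := hL.inv1
  have := hM.inv0
  have := hM.inv1
  ⟨inferInstanceAs (Module.Invertible R0 (L.N0 ⊗[R0] M.N0)),
    inferInstanceAs (Module.Invertible R1 (L.N1 ⊗[R1] M.N1))⟩

/-- The tensor product of two vector bundles is a vector bundle. -/
lemma isVB_tensor {L M : QC2 A R0 R1 R01} (hL : L.IsVB) (hM : M.IsVB) :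
    (tensor L M).IsVB :=
  have := hL.fin0
  have := hL.fin1
  have := hM.fin0
  have := hM.fin1
  have := hL.proj0
  have := hL.proj1
  have := hM.proj0
  have := hM.proj1
  ⟨inferInstanceAs (Module.Finite R0 (L.N0 ⊗[R0] M.N0)),
    inferInstanceAs (Module.Projective R0 (L.N0 ⊗[R0] M.N0)),
    inferInstanceAs (Module.Finite R1 (L.N1 ⊗[R1] M.N1)),
    inferInstanceAs (Module.Projective R1 (L.N1 ⊗[R1] M.N1))⟩

/-- Tensor product of morphisms. -/
noncomputable def tensorHom {L L' M M' : QC2 A R0 R1 R01} (f : QC2.Hom L L') (g : QC2.Hom M M') :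
    QC2.Hom (tensor L M) (tensor L' M') where
  f0 := TensorProduct.map f.f0 g.f0
  f1 := TensorProduct.map f.f1 g.f1
  f01 := TensorProduct.map f.f01 g.f01
  comm0 := map_tmap (S := R01) f.f0 g.f0 f.f01 g.f01 f.comm0 g.comm0
  comm1 := map_tmap (S := R01) f.f1 g.f1 f.f01 g.f01 f.comm1 g.comm1

/-- Tensor product of isomorphisms. -/
noncomputable def tensorIso {L L' M M' : QC2 A R0 R1 R01} (e : QC2.Iso L L') (f : QC2.Iso M M') :
    QC2.Iso (tensor L M) (tensor L' M') where
  e0 := TensorProduct.congr e.e0 f.e0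
  e1 := TensorProduct.congr e.e1 f.e1
  e01 := TensorProduct.congr e.e01 f.e01
  comm0 := (tensorHom (isoHom e) (isoHom f)).comm0
  comm1 := (tensorHom (isoHom e) (isoHom f)).comm1

/-- `O ⊗ L ≅ L`. -/
noncomputable def tensorUnitLeft (L : QC2 A R0 R1 R01) : QC2.Iso (tensor QC2.unit L) L where
  e0 := TensorProduct.lid R0 L.N0
  e1 := TensorProduct.lid R1 L.N1
  e01 := TensorProduct.lid R01 L.N01
  comm0 := lid_tmap (S := R01) L.r0
  comm1 := lid_tmap (S := R01) L.r1

/-- `L ⊗ M ≅ M ⊗ L`. -/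
noncomputable def tensorComm (L M : QC2 A R0 R1 R01) : QC2.Iso (tensor L M) (tensor M L) where
  e0 := TensorProduct.comm R0 L.N0 M.N0
  e1 := TensorProduct.comm R1 L.N1 M.N1
  e01 := TensorProduct.comm R01 L.N01 M.N01
  comm0 := comm_tmap (S := R01) L.r0 M.r0
  comm1 := comm_tmap (S := R01) L.r1 M.r1

/-- `L ⊗ O ≅ L`. -/
noncomputable def tensorUnitRight (L : QC2 A R0 R1 R01) : QC2.Iso (tensor L QC2.unit) L :=
  isoTrans (tensorComm L QC2.unit) (tensorUnitLeft L)

/-- `(L ⊗ M) ⊗ N ≅ L ⊗ (M ⊗ N)`. -/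
noncomputable def tensorAssoc (L M N : QC2 A R0 R1 R01) :
    QC2.Iso (tensor (tensor L M) N) (tensor L (tensor M N)) where
  e0 := TensorProduct.assoc R0 L.N0 M.N0 N.N0
  e1 := TensorProduct.assoc R1 L.N1 M.N1 N.N1
  e01 := TensorProduct.assoc R01 L.N01 M.N01 N.N01
  comm0 := assoc_tmap (S := R01) L.r0 M.r0 N.r0
  comm1 := assoc_tmap (S := R01) L.r1 M.r1 N.r1

end Fermat.Agent.Jac.LineOps39
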