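/-
Fermat/Agent/Jac/LineOps39/Dual.lean  (helper39)

Brick A3 (LineOps) of the S25 programme, part 5: the dual of a two-chart vector bundle, the
evaluation pairing, and `L^∨ ⊗ L ≅ O` for line bundles.
-/
import Fermat.Agent.Jac.LineOps39.Tensor
import Fermat.Agent.Jac.LineOps39.Sub

set_option autoImplicit false
set_option linter.unusedSectionVars false

universe u

open TensorProduct

namespace Fermat.Agent.Jac.LineOps39

variable {A R0 R1 R01 : Type u} [CommRing A] [CommRing R0] [CommRing R1] [CommRing R01]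
  [Algebra A R0] [Algebra A R1] [Algebra A R01] [Algebra R0 R01] [Algebra R1 R01]
  [IsScalarTower A R0 R01] [IsScalarTower A R1 R01]

section transpose

/-! ### Transposing a base-change map -/

variable {R S : Type u} [CommRing R] [CommRing S] [Algebra R S]
variable {M M' : Type u} [AddCommGroup M] [AddCommGroup M'] [Module R M] [Module R M']
  [Module S M'] [IsScalarTower R S M']

/-- The `S`-linear identification `Hom_S(S ⊗ M, S ⊗ R) ≃ Hom_S(M', S)` for a base change
`f : M → M'`. -/
noncomputable def dualConj {f : M →ₗ[R] M'} (hf : IsBaseChange S f) :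
    ((S ⊗[R] M) →ₗ[S] (S ⊗[R] R)) ≃ₗ[S] (M' →ₗ[S] S) :=
  LinearEquiv.arrowCongr hf.equiv (AlgebraTensorModule.rid R S S)

/-- The transpose `Hom_R(M, R) → Hom_S(M', S)` of a base-change map `f : M → M'`. -/
noncomputable def transposeBC {f : M →ₗ[R] M'} (hf : IsBaseChange S f) :
    Module.Dual R M →ₗ[R] Module.Dual S M' :=
  ((dualConj hf).toLinearMap.restrictScalars R).comp (LinearMap.baseChangeHom R S M R)

lemma transposeBC_apply {f : M →ₗ[R] M'} (hf : IsBaseChange S f) (φ : Module.Dual R M) (x : M) :
    transposeBC hf φ (f x) = algebraMap R S (φ x) := by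
  simp [transposeBC, dualConj, IsBaseChange.equiv_symm_apply, Algebra.algebraMap_eq_smul_one]

lemma isBaseChange_transposeBC [Module.Flat R S] [Module.FinitePresentation R M]
    {f : M →ₗ[R] M'} (hf : IsBaseChange S f) : IsBaseChange S (transposeBC hf) := by
  have h := Module.FinitePresentation.isBaseChange_map R M R S
  refine (IsBaseChange.iff_of_equiv_comm (LinearEquiv.refl R (M →ₗ[R] R)) (dualConj hf) ?_).mp h
  ext φ : 1
  rfl

/-- The evaluation pairing is compatible with transposition. -/
lemma contractLeft_tmap {f : M →ₗ[R] M'} (hf : IsBaseChange S f) (z : Module.Dual R M ⊗[R] M) :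
    contractLeft S M' (tmap (S := S) (transposeBC hf) f z) = algebraMap R S (contractLeft R M z) := by
  induction z with
  | zero => simp
  | tmul φ x => simp [transposeBC_apply]
  | add x y hx hy => simp only [map_add, hx, hy]

section

variable {P P' : Type u} [AddCommGroup P] [AddCommGroup P'] [Module R P] [Module R P']
  [Module S P'] [IsScalarTower R S P']

/-- Naturality of transposition with respect to isomorphisms. -/
lemma dualMap_transposeBC {f : M →ₗ[R] M'} (hf : IsBaseChange S f) {g : P →ₗ[R] P'}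
    (hg : IsBaseChange S g) (e : M ≃ₗ[R] P) (e' : M' ≃ₗ[S] P') (h : ∀ x, e' (f x) = g (e x))
    (φ : Module.Dual R P) :
    e'.dualMap (transposeBC hg φ) = transposeBC hf (e.dualMap φ) := by
  refine hf.algHom_ext' _ _ ?_
  ext x
  simp [transposeBC_apply, h]

end

end transpose

/-! ### The dual two-chart module -/

lemma flat_R01_over_R0 (c : TwoChart A R0 R1 R01) : Module.Flat R0 R01 :=
  have := c.away0
  IsLocalization.flat R01 (Submonoid.powers c.t)

lemma flat_R01_over_R1 (c : TwoChart A R0 R1 R01) : Module.Flat R1 R01 :=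
  have := c.away1
  IsLocalization.flat R01 (Submonoid.powers c.s)

/-- The dual of a two-chart vector bundle. -/
noncomputable def dual (c : TwoChart A R0 R1 R01) (L : QC2 A R0 R1 R01) (hL : L.IsVB) :
    QC2 A R0 R1 R01 where
  N0 := Module.Dual R0 L.N0
  N1 := Module.Dual R1 L.N1
  N01 := Module.Dual R01 L.N01
  r0 := transposeBC L.bc0
  r1 := transposeBC L.bc1
  bc0 :=
    have := flat_R01_over_R0 c
    have := hL.fin0
    have := hL.proj0
    have : Module.FinitePresentation R0 L.N0 := Module.finitePresentation_of_projective _ _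
    isBaseChange_transposeBC L.bc0
  bc1 :=
    have := flat_R01_over_R1 c
    have := hL.fin1
    have := hL.proj1
    have : Module.FinitePresentation R1 L.N1 := Module.finitePresentation_of_projective _ _
    isBaseChange_transposeBC L.bc1

lemma dual_r0_apply (c : TwoChart A R0 R1 R01) (L : QC2 A R0 R1 R01) (hL : L.IsVB)
    (φ : Module.Dual R0 L.N0) (x : L.N0) :
    (show Module.Dual R01 L.N01 from (dual c L hL).r0 φ) (L.r0 x) = algebraMap R0 R01 (φ x) :=
  transposeBC_apply L.bc0 φ x

lemma dual_r1_apply (c : TwoChart A R0 R1 R01) (L : QC2 A R0 R1 R01) (hL : L.IsVB)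
    (φ : Module.Dual R1 L.N1) (x : L.N1) :
    (show Module.Dual R01 L.N01 from (dual c L hL).r1 φ) (L.r1 x) = algebraMap R1 R01 (φ x) :=
  transposeBC_apply L.bc1 φ x

/-- The evaluation pairing `L^∨ ⊗ L → O`. -/
noncomputable def evalHom (c : TwoChart A R0 R1 R01) (L : QC2 A R0 R1 R01) (hL : L.IsVB) :
    QC2.Hom (tensor (dual c L hL) L) QC2.unit where
  f0 := contractLeft R0 L.N0
  f1 := contractLeft R1 L.N1
  f01 := contractLeft R01 L.N01
  comm0 := contractLeft_tmap L.bc0
  comm1 := contractLeft_tmap L.bc1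

/-- `L^∨ ⊗ L ≅ O` for a line bundle `L`. -/
noncomputable def dualTensorIso (c : TwoChart A R0 R1 R01) (L : QC2 A R0 R1 R01)
    (hL : L.IsLine) : QC2.Iso (tensor (dual c L (isVB_of_isLine hL)) L) QC2.unit where
  e0 := have := hL.inv0; Module.Invertible.linearEquiv R0 L.N0
  e1 := have := hL.inv1; Module.Invertible.linearEquiv R1 L.N1
  e01 :=
    have := hL.inv0
    have : Module.Invertible R01 L.N01 := Module.Invertible.congr L.bc0.equiv
    Module.Invertible.linearEquiv R01 L.N01
  comm0 := contractLeft_tmap L.bc0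
  comm1 := contractLeft_tmap L.bc1

/-- `L ⊗ L^∨ ≅ O` for a line bundle `L`. -/
noncomputable def tensorDualIso (c : TwoChart A R0 R1 R01) (L : QC2 A R0 R1 R01)
    (hL : L.IsLine) : QC2.Iso (tensor L (dual c L (isVB_of_isLine hL))) QC2.unit :=
  isoTrans (tensorComm _ _) (dualTensorIso c L hL)

/-- The dual of a line bundle is a line bundle. -/
lemma isLine_dual (c : TwoChart A R0 R1 R01) {L : QC2 A R0 R1 R01} (hL : L.IsLine) :
    (dual c L (isVB_of_isLine hL)).IsLine :=
  have := hL.inv0
  have := hL.inv1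
  ⟨inferInstanceAs (Module.Invertible R0 (Module.Dual R0 L.N0)),
    inferInstanceAs (Module.Invertible R1 (Module.Dual R1 L.N1))⟩

/-- The dual of a vector bundle is a vector bundle. -/
lemma isVB_dual (c : TwoChart A R0 R1 R01) {L : QC2 A R0 R1 R01} (hL : L.IsVB) :
    (dual c L hL).IsVB :=
  have := hL.fin0
  have := hL.fin1
  have := hL.proj0
  have := hL.proj1
  ⟨inferInstanceAs (Module.Finite R0 (Module.Dual R0 L.N0)),
    inferInstanceAs (Module.Projective R0 (Module.Dual R0 L.N0)),
    inferInstanceAs (Module.Finite R1 (Module.Dual R1 L.N1)),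
    inferInstanceAs (Module.Projective R1 (Module.Dual R1 L.N1))⟩

/-- Duality is (contravariantly) functorial for isomorphisms. -/
noncomputable def dualIso (c : TwoChart A R0 R1 R01) {L M : QC2 A R0 R1 R01} (e : QC2.Iso L M)
    (hL : L.IsVB) (hM : M.IsVB) : QC2.Iso (dual c M hM) (dual c L hL) where
  e0 := e.e0.dualMap
  e1 := e.e1.dualMap
  e01 := e.e01.dualMap
  comm0 := dualMap_transposeBC L.bc0 M.bc0 e.e0 e.e01 e.comm0
  comm1 := dualMap_transposeBC L.bc1 M.bc1 e.e1 e.e01 e.comm1

/-- Uniqueness of inverses: if `L ⊗ M ≅ O` for a line bundle `L`, then `M ≅ L^∨`. -/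
noncomputable def isoDualOfTensorIso (c : TwoChart A R0 R1 R01) {L M : QC2 A R0 R1 R01}
    (hL : L.IsLine) (e : QC2.Iso (tensor L M) QC2.unit) :
    QC2.Iso M (dual c L (isVB_of_isLine hL)) :=
  isoTrans (isoSymm (tensorUnitLeft M))
    (isoTrans (tensorIso (isoSymm (dualTensorIso c L hL)) (isoRefl M))
      (isoTrans (tensorAssoc _ L M)
        (isoTrans (tensorIso (isoRefl _) e) (tensorUnitRight _))))

end Fermat.Agent.Jac.LineOps39
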