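/-
Fermat/Agent/Jac/LineOps39/Point.lean  (helper39)

Brick A3 (LineOps) of the S25 programme, part 4: twisting down at a rational point.
* `restrictTo c L D` (the "skyscraper" `L / L(-D)`) has `H¹ = 0` and `H⁰ ≃ N0 / I0 N0` when the
  coordinate `s` is invertible modulo `I1` -- in particular for `D = IdealPair.ofChart0 c I0`
  as soon as `t` is congruent to a constant modulo `I0` (an `A`-rational point of chart 0).
* `L(-D)` is again a line bundle when `L` is one and the ideals of `D` are invertible modules.
* the fibre `N0 / m N0` of a line bundle at a rational point of chart 0 is one-dimensional.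
-/
import Fermat.Agent.Jac.LineOps39.Twist

set_option autoImplicit false
set_option linter.unusedSectionVars false

universe u

open TensorProduct

namespace Fermat.Agent.Jac.LineOps39

variable {A R0 R1 R01 : Type u} [CommRing A] [CommRing R0] [CommRing R1] [CommRing R01]
  [Algebra A R0] [Algebra A R1] [Algebra A R01] [Algebra R0 R01] [Algebra R1 R01]
  [IsScalarTower A R0 R01] [IsScalarTower A R1 R01]

/-- A localization map at the powers of `s` is bijective as soon as `s` already acts invertibly
on the source. -/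
lemma bijective_of_isLocalizedModule_of_unit {R M M' : Type*} [CommRing R] [AddCommGroup M]
    [AddCommGroup M'] [Module R M] [Module R M'] (s u : R) (f : M →ₗ[R] M')
    [IsLocalizedModule (Submonoid.powers s) f] (h : ∀ x : M, (u * s) • x = x) :
    Function.Bijective f := by
  have hpow : ∀ (n : ℕ) (x : M), (u ^ n * s ^ n) • x = x := by
    intro n
    induction n with
    | zero => intro x; simp
    | succ n ih =>
      intro x
      have : u ^ (n + 1) * s ^ (n + 1) = (u ^ n * s ^ n) * (u * s) := by ring
      rw [this, mul_smul, h, ih]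
  constructor
  · rw [injective_iff_map_eq_zero]
    intro x hx
    obtain ⟨⟨_, n, rfl⟩, hc⟩ := IsLocalizedModule.exists_of_eq (S := Submonoid.powers s) (f := f)
      (hx.trans (map_zero f).symm)
    simp only [Submonoid.smul_def, smul_zero] at hc
    rw [← hpow n x, mul_smul, hc, smul_zero]
  · intro y
    obtain ⟨⟨x, ⟨_, n, rfl⟩⟩, hx⟩ := IsLocalizedModule.surj (Submonoid.powers s) f y
    simp only [Submonoid.smul_def] at hx
    refine ⟨u ^ n • x, ?_⟩
    have hinj := IsLocalizedModule.smul_injective f (⟨s ^ n, n, rfl⟩ : Submonoid.powers s)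
    apply hinj
    simp only [Submonoid.smul_def]
    rw [hx, ← map_smul, ← mul_smul, mul_comm, hpow]

section restrict

variable (c : TwoChart A R0 R1 R01) (L : QC2 A R0 R1 R01) (D : IdealPair R0 R1 R01)

/-- If `s` is invertible modulo `I1`, the restriction map `r1` of `L|_D` is bijective
(`D` does not meet the locus `s = 0`). -/
lemma restrictTo_bijective_r1 (u : R1) (hu : u * c.s - 1 ∈ D.I1) :
    Function.Bijective (restrictTo c L D).r1 := by
  have := isLocalizedModule_r1 c (restrictTo c L D)
  refine bijective_of_isLocalizedModule_of_unit c.s u _ ?_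
  show ∀ x : L.N1 ⧸ (D.subPair c L).S1, (u * c.s) • x = x
  intro x
  obtain ⟨y, rfl⟩ := Submodule.mkQ_surjective (D.subPair c L).S1 x
  rw [← sub_eq_zero, ← map_smul, ← map_sub, Submodule.mkQ_apply, Submodule.Quotient.mk_eq_zero]
  have : (u * c.s) • y - y = (u * c.s - 1) • y := by rw [sub_smul, one_smul]
  rw [this]
  exact Submodule.smul_mem_smul hu Submodule.mem_top

/-- If `t` is invertible modulo `I0`, the restriction map `r0` of `L|_D` is bijective
(`D` does not meet the locus `t = 0`). -/
lemma restrictTo_bijective_r0 (v : R0) (hv : v * c.t - 1 ∈ D.I0) :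
    Function.Bijective (restrictTo c L D).r0 := by
  have := isLocalizedModule_r0 c (restrictTo c L D)
  refine bijective_of_isLocalizedModule_of_unit c.t v _ ?_
  show ∀ x : L.N0 ⧸ (D.subPair c L).S0, (v * c.t) • x = x
  intro x
  obtain ⟨y, rfl⟩ := Submodule.mkQ_surjective (D.subPair c L).S0 x
  rw [← sub_eq_zero, ← map_smul, ← map_sub, Submodule.mkQ_apply, Submodule.Quotient.mk_eq_zero]
  have : (v * c.t) • y - y = (v * c.t - 1) • y := by rw [sub_smul, one_smul]
  rw [this]
  exact Submodule.smul_mem_smul hv Submodule.mem_top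

end restrict

section point

variable (c : TwoChart A R0 R1 R01) (L : QC2 A R0 R1 R01)

/-- For the closure of `V(I0)`, where `t ≡ a` modulo `I0` for a constant `a : A`,
the coordinate `s` is invertible modulo the chart-1 ideal. -/
lemma ofChart0_unit_mod (I0 : Ideal R0) (a : A) (ha : c.t - algebraMap A R0 a ∈ I0) :
    algebraMap A R1 a * c.s - 1 ∈ (IdealPair.ofChart0 c I0).I1 := by
  show algebraMap R1 R01 (algebraMap A R1 a * c.s - 1) ∈ I0.map (algebraMap R0 R01)
  have h1 : algebraMap R1 R01 (algebraMap A R1 a * c.s - 1) =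
      -(algebraMap R0 R01 (c.t - algebraMap A R0 a) * algebraMap R1 R01 c.s) := by
    rw [map_sub, map_mul, map_one, map_sub, ← IsScalarTower.algebraMap_apply A R1 R01,
      ← IsScalarTower.algebraMap_apply A R0 R01, sub_mul, c.ts]
    ring
  rw [h1]
  exact neg_mem (Ideal.mul_mem_right _ _ (Ideal.mem_map_of_mem _ ha))

/-- For the closure of `V(I1)`, where `s ≡ a` modulo `I1` for a constant `a : A`,
the coordinate `t` is invertible modulo the chart-0 ideal. -/
lemma ofChart1_unit_mod (I1 : Ideal R1) (a : A) (ha : c.s - algebraMap A R1 a ∈ I1) :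
    algebraMap A R0 a * c.t - 1 ∈ (IdealPair.ofChart1 c I1).I0 := by
  show algebraMap R0 R01 (algebraMap A R0 a * c.t - 1) ∈ I1.map (algebraMap R1 R01)
  have h1 : algebraMap R0 R01 (algebraMap A R0 a * c.t - 1) =
      -(algebraMap R1 R01 (c.s - algebraMap A R1 a) * algebraMap R0 R01 c.t) := by
    rw [map_sub, map_mul, map_one, map_sub, ← IsScalarTower.algebraMap_apply A R1 R01,
      ← IsScalarTower.algebraMap_apply A R0 R01, sub_mul, mul_comm (algebraMap R1 R01 c.s), c.ts]
    ring
  rw [h1]
  exact neg_mem (Ideal.mul_mem_right _ _ (Ideal.mem_map_of_mem _ ha))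

/-- The skyscraper `L / L(-P)` at (the closure of) an `A`-rational closed subscheme `V(I0)` of
chart 0 has bijective `r1`. -/
lemma restrictTo_ofChart0_bijective_r1 (I0 : Ideal R0) (a : A)
    (ha : c.t - algebraMap A R0 a ∈ I0) :
    Function.Bijective (restrictTo c L (IdealPair.ofChart0 c I0)).r1 :=
  restrictTo_bijective_r1 c L _ _ (ofChart0_unit_mod c I0 a ha)

lemma restrictTo_ofChart1_bijective_r0 (I1 : Ideal R1) (a : A)
    (ha : c.s - algebraMap A R1 a ∈ I1) :
    Function.Bijective (restrictTo c L (IdealPair.ofChart1 c I1)).r0 :=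
  restrictTo_bijective_r0 c L _ _ (ofChart1_unit_mod c I1 a ha)

/-- `H¹(L / L(-P)) = 0` at a rational point of chart 0. -/
lemma subsingleton_H1_restrictTo_ofChart0 (I0 : Ideal R0) (a : A)
    (ha : c.t - algebraMap A R0 a ∈ I0) :
    Subsingleton (restrictTo c L (IdealPair.ofChart0 c I0)).H1 :=
  subsingleton_H1_of_bijective_r1 _ (restrictTo_ofChart0_bijective_r1 c L I0 a ha)

/-- `H¹(L / L(-P)) = 0` at a rational point of chart 1. -/
lemma subsingleton_H1_restrictTo_ofChart1 (I1 : Ideal R1) (a : A)
    (ha : c.s - algebraMap A R1 a ∈ I1) :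
    Subsingleton (restrictTo c L (IdealPair.ofChart1 c I1)).H1 :=
  subsingleton_H1_of_bijective_r0 _ (restrictTo_ofChart1_bijective_r0 c L I1 a ha)

/-- `H⁰(L / L(-P)) ≃ N0 / I0 N0` at a rational point of chart 0. -/
noncomputable def H0RestrictToOfChart0 (I0 : Ideal R0) (a : A)
    (ha : c.t - algebraMap A R0 a ∈ I0) :
    (restrictTo c L (IdealPair.ofChart0 c I0)).H0 ≃ₗ[A]
      L.N0 ⧸ (I0 • ⊤ : Submodule R0 L.N0) :=
  H0EquivOfBijectiveR1 _ (restrictTo_ofChart0_bijective_r1 c L I0 a ha)

/-- `H⁰(L / L(-P)) ≃ N1 / I1 N1` at a rational point of chart 1. -/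
noncomputable def H0RestrictToOfChart1 (I1 : Ideal R1) (a : A)
    (ha : c.s - algebraMap A R1 a ∈ I1) :
    (restrictTo c L (IdealPair.ofChart1 c I1)).H0 ≃ₗ[A]
      L.N1 ⧸ (I1 • ⊤ : Submodule R1 L.N1) :=
  H0EquivOfBijectiveR0 _ (restrictTo_ofChart1_bijective_r0 c L I1 a ha)

/-- Under `H0RestrictToOfChart0`, the map `H⁰(L) → H⁰(L / L(-P))` is evaluation of the chart-0
component in the fibre `N0 / I0 N0`. -/
lemma H0RestrictToOfChart0_homH0 (I0 : Ideal R0) (a : A) (ha : c.t - algebraMap A R0 a ∈ I0)
    (σ : L.H0) :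
    H0RestrictToOfChart0 c L I0 a ha
        (homH0 (restrictToHom c L (IdealPair.ofChart0 c I0)) σ) =
      Submodule.Quotient.mk σ.1.1 := rfl

lemma H0RestrictToOfChart1_homH0 (I1 : Ideal R1) (a : A) (ha : c.s - algebraMap A R1 a ∈ I1)
    (σ : L.H0) :
    H0RestrictToOfChart1 c L I1 a ha
        (homH0 (restrictToHom c L (IdealPair.ofChart1 c I1)) σ) =
      Submodule.Quotient.mk σ.1.2 := rfl

end point

/-! ### Down-twists of line bundles are line bundles -/

/-- For a flat module `N`, `I ⊗ N ≃ I • N`. -/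
noncomputable def idealTensorEquivSMulTop {R N : Type*} [CommRing R] [AddCommGroup N]
    [Module R N] [Module.Flat R N] (I : Ideal R) :
    I ⊗[R] N ≃ₗ[R] (I • ⊤ : Submodule R N) := by
  let f : I ⊗[R] N →ₗ[R] N := (TensorProduct.lid R N).toLinearMap.comp (I.subtype.rTensor N)
  have hf : Function.Injective f :=
    (TensorProduct.lid R N).injective.comp
      (Module.Flat.rTensor_preserves_injective_linearMap I.subtype Subtype.val_injective)
  have hr : LinearMap.range f = I • ⊤ := by
    apply le_antisymm
    · rintro _ ⟨z, rfl⟩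
      induction z with
      | zero => simp
      | tmul a x =>
        have : f (a ⊗ₜ x) = (a : R) • x := by simp [f]
        rw [this]
        exact Submodule.smul_mem_smul a.2 Submodule.mem_top
      | add x y hx hy => rw [map_add]; exact add_mem hx hy
    · rw [Submodule.smul_le]
      intro a ha x _
      exact ⟨(⟨a, ha⟩ : I) ⊗ₜ x, by simp [f]⟩
  exact (LinearEquiv.ofInjective f hf).trans (LinearEquiv.ofEq _ _ hr)

lemma idealTensorEquivSMulTop_tmul {R N : Type*} [CommRing R] [AddCommGroup N] [Module R N]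
    [Module.Flat R N] (I : Ideal R) (a : I) (x : N) :
    ((idealTensorEquivSMulTop I (N := N) (a ⊗ₜ x) : (I • ⊤ : Submodule R N)) : N) =
      (a : R) • x := by
  simp [idealTensorEquivSMulTop]

/-- `L(-D)` is a line bundle if `L` is and the ideals of `D` are invertible modules. -/
lemma isLine_downTwist (c : TwoChart A R0 R1 R01) {L : QC2 A R0 R1 R01} (hL : L.IsLine)
    (D : IdealPair R0 R1 R01) (h0 : Module.Invertible R0 D.I0) (h1 : Module.Invertible R1 D.I1) :
    (downTwist c L D).IsLine := by
  have := hL.inv0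
  have := hL.inv1
  exact ⟨Module.Invertible.congr (idealTensorEquivSMulTop D.I0 (N := L.N0)),
    Module.Invertible.congr (idealTensorEquivSMulTop D.I1 (N := L.N1))⟩

/-- `L(-D)` is a vector bundle if `L` is and the ideals of `D` are invertible modules. -/
lemma isVB_downTwist (c : TwoChart A R0 R1 R01) {L : QC2 A R0 R1 R01} (hL : L.IsVB)
    (D : IdealPair R0 R1 R01) (h0 : Module.Invertible R0 D.I0) (h1 : Module.Invertible R1 D.I1) :
    (downTwist c L D).IsVB := by
  have := hL.fin0
  have := hL.fin1
  have := hL.proj0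
  have := hL.proj1
  exact ⟨Module.Finite.equiv (idealTensorEquivSMulTop D.I0 (N := L.N0)),
    Module.Projective.of_equiv (idealTensorEquivSMulTop D.I0 (N := L.N0)),
    Module.Finite.equiv (idealTensorEquivSMulTop D.I1 (N := L.N1)),
    Module.Projective.of_equiv (idealTensorEquivSMulTop D.I1 (N := L.N1))⟩

/-! ### The fibre of a line bundle at a rational point is one-dimensional -/

/-- Let `K` be a field, `R` a `K`-algebra, `m` a maximal ideal of `R` with residue field `K`
(i.e. `K → R ⧸ m` is surjective) and `N` an invertible `R`-module.  Then the fibre `N ⧸ m N` is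
a one-dimensional `K`-vector space. -/
lemma finrank_quot_smul_top_eq_one {K R N : Type*} [Field K] [CommRing R] [Algebra K R]
    [AddCommGroup N] [Module R N] [Module K N] [IsScalarTower K R N] [Module.Invertible R N]
    (m : Ideal R) [hm : m.IsMaximal] (hK : Function.Surjective (algebraMap K (R ⧸ m))) :
    Module.finrank K (N ⧸ (m • ⊤ : Submodule R N)) = 1 := by
  let _ : Field (R ⧸ m) := Ideal.Quotient.field m
  -- the fibre as a tensor product
  let e : ((R ⧸ m) ⊗[R] N) ≃ₗ[R] (N ⧸ (m • ⊤ : Submodule R N)) :=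
    TensorProduct.quotTensorEquivQuotSMul N m
  have e' : ((R ⧸ m) ⊗[R] N) ≃ₗ[K] (N ⧸ (m • ⊤ : Submodule R N)) := e.restrictScalars K
  rw [← e'.finrank_eq]
  have h1 : Module.finrank (R ⧸ m) ((R ⧸ m) ⊗[R] N) = 1 := Module.Invertible.finrank_eq_one _ _
  have hbij : Function.Bijective (Algebra.linearMap K (R ⧸ m)) :=
    ⟨(algebraMap K (R ⧸ m)).injective, hK⟩
  have h2 : Module.finrank K (R ⧸ m) = 1 := by
    rw [← (LinearEquiv.ofBijective _ hbij).finrank_eq, Module.finrank_self]
  have h3 := Module.finrank_mul_finrank K (R ⧸ m) ((R ⧸ m) ⊗[R] N)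
  rw [h1, h2, mul_one] at h3
  exact h3.symm

end Fermat.Agent.Jac.LineOps39
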