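/-
Fermat/Agent/Jac/LineOps39/IdealSheaf.lean  (helper39)

Brick A3 (LineOps) of the S25 programme, part 7: the ideal sheaf `O(-D)` of an ideal pair,
`L(-D) ≅ O(-D) ⊗ L` for flat `L`, the line bundle `O(D) := O(-D)^∨` and its canonical section.
-/
import Fermat.Agent.Jac.LineOps39.Dual
import Fermat.Agent.Jac.LineOps39.Point

set_option autoImplicit false
set_option linter.unusedSectionVars false

universe u

open TensorProduct

namespace Fermat.Agent.Jac.LineOps39

variable {A R0 R1 R01 : Type u} [CommRing A] [CommRing R0] [CommRing R1] [CommRing R01]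
  [Algebra A R0] [Algebra A R1] [Algebra A R01] [Algebra R0 R01] [Algebra R1 R01]
  [IsScalarTower A R0 R01] [IsScalarTower A R1 R01]

/-- The sub-pair of the structure sheaf given by an ideal pair. -/
def IdealPair.unitSubPair (D : IdealPair R0 R1 R01) :
    SubPair (QC2.unit : QC2 A R0 R1 R01) where
  S0 := D.I0
  S1 := D.I1
  compat := D.compat

/-- The ideal sheaf `O(-D) ⊆ O` of an ideal pair: `N0 = I0`, `N1 = I1`, `N01 = I01`. -/
def ofIdeals (c : TwoChart A R0 R1 R01) (D : IdealPair R0 R1 R01) : QC2 A R0 R1 R01 :=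
  sub c QC2.unit D.unitSubPair

/-- The inclusion `O(-D) → O`. -/
def ofIdealsHom (c : TwoChart A R0 R1 R01) (D : IdealPair R0 R1 R01) :
    QC2.Hom (ofIdeals c D) QC2.unit :=
  subHom c QC2.unit D.unitSubPair

lemma ofIdeals_r0_eq (c : TwoChart A R0 R1 R01) (D : IdealPair R0 R1 R01) :
    (ofIdeals c D).r0 = (D.unitSubPair (A := A)).subR0 := rfl

lemma ofIdeals_r1_eq (c : TwoChart A R0 R1 R01) (D : IdealPair R0 R1 R01) :
    (ofIdeals c D).r1 = (D.unitSubPair (A := A)).subR1 := rfl

lemma unitSubPair_subR0_val (D : IdealPair R0 R1 R01) (a : D.I0) :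
    ((D.unitSubPair (A := A)).subR0 a).1 = algebraMap R0 R01 a.1 := rfl

lemma unitSubPair_subR1_val (D : IdealPair R0 R1 R01) (a : D.I1) :
    ((D.unitSubPair (A := A)).subR1 a).1 = algebraMap R1 R01 a.1 := rfl

lemma unitSubPair_S01 (D : IdealPair R0 R1 R01) :
    (D.unitSubPair (A := A)).S01 = D.I01 := rfl

/-- `O(-D)` is a line bundle when both ideals are invertible modules (effective Cartier
divisor). -/
lemma isLine_ofIdeals (c : TwoChart A R0 R1 R01) (D : IdealPair R0 R1 R01)
    (h0 : Module.Invertible R0 D.I0) (h1 : Module.Invertible R1 D.I1) :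
    (ofIdeals c D).IsLine :=
  ⟨h0, h1⟩

/-! ### `L(-D) ≅ O(-D) ⊗ L` -/

/-- The overlap module of a vector bundle is flat. -/
lemma flat_N01 {L : QC2 A R0 R1 R01} (hL : L.IsVB) : Module.Flat R01 L.N01 :=
  have := hL.proj0
  Module.Flat.isBaseChange (R := R0) (M := L.N0) (S := R01) L.N01 L.bc0

section raw

variable {R S N N' : Type u} [CommRing R] [CommRing S] [Algebra R S] [AddCommGroup N]
  [AddCommGroup N'] [Module R N] [Module R N'] [Module S N'] [IsScalarTower R S N']
  [Module.Flat R N] [Module.Flat S N']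

/-- Compatibility of `idealTensorEquivSMulTop` with a semilinear map. -/
lemma idealTensorEquivSMulTop_tmap (I : Ideal R) (J : Ideal S) (ι : I →ₗ[R] J)
    (hι : ∀ a : I, (ι a : S) = algebraMap R S a) (f : N →ₗ[R] N') (z : I ⊗[R] N) :
    ((idealTensorEquivSMulTop J (N := N') (tmap (S := S) ι f z) :
        (J • ⊤ : Submodule S N')) : N') =
      f ((idealTensorEquivSMulTop I (N := N) z : (I • ⊤ : Submodule R N)) : N) := by
  induction z with
  | zero => simp
  | tmul a x =>
    rw [tmap_tmul, idealTensorEquivSMulTop_tmul, idealTensorEquivSMulTop_tmul, map_smul, hι,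
      algebraMap_smul]
  | add x y hx hy =>
    simp only [map_add, Submodule.coe_add, hx, hy]

end raw

/-- `O(-D) ⊗ L ≅ L(-D)` for a vector bundle `L`. -/
noncomputable def tensorOfIdealsIso (c : TwoChart A R0 R1 R01) (D : IdealPair R0 R1 R01)
    {L : QC2 A R0 R1 R01} (hL : L.IsVB) :
    QC2.Iso (tensor (ofIdeals c D) L) (downTwist c L D) :=
  have := hL.proj0
  have := hL.proj1
  have := flat_N01 hL
  { e0 := idealTensorEquivSMulTop D.I0 (N := L.N0)
    e1 := idealTensorEquivSMulTop D.I1 (N := L.N1)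
    e01 := (idealTensorEquivSMulTop D.I01 (N := L.N01)).trans
      (LinearEquiv.ofEq _ _ (D.subPair_S01 c L).symm)
    comm0 := fun z => Subtype.ext
      (idealTensorEquivSMulTop_tmap D.I0 D.I01 (D.unitSubPair (A := A)).subR0
        (fun _ => rfl) L.r0 z)
    comm1 := fun z => Subtype.ext
      (idealTensorEquivSMulTop_tmap D.I1 D.I01 (D.unitSubPair (A := A)).subR1
        (fun _ => rfl) L.r1 z) }

/-! ### `O(D)` and its canonical section -/

/-- The line bundle `O(D) := O(-D)^∨` of an effective Cartier divisor. -/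
noncomputable def ofDivisor (c : TwoChart A R0 R1 R01) (D : IdealPair R0 R1 R01)
    (hD : (ofIdeals c D).IsVB) : QC2 A R0 R1 R01 :=
  dual c (ofIdeals c D) hD

lemma isLine_ofDivisor (c : TwoChart A R0 R1 R01) (D : IdealPair R0 R1 R01)
    (h0 : Module.Invertible R0 D.I0) (h1 : Module.Invertible R1 D.I1) :
    (ofDivisor c D (isVB_of_isLine (isLine_ofIdeals c D h0 h1))).IsLine :=
  isLine_dual c (isLine_ofIdeals c D h0 h1)

/-- `O(D) ⊗ O(-D) ≅ O`. -/
noncomputable def ofDivisorTensorIso (c : TwoChart A R0 R1 R01) (D : IdealPair R0 R1 R01)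
    (h0 : Module.Invertible R0 D.I0) (h1 : Module.Invertible R1 D.I1) :
    QC2.Iso (tensor (ofDivisor c D (isVB_of_isLine (isLine_ofIdeals c D h0 h1))) (ofIdeals c D))
      QC2.unit :=
  dualTensorIso c (ofIdeals c D) (isLine_ofIdeals c D h0 h1)

lemma transposeBC_subtype0 (c : TwoChart A R0 R1 R01) (D : IdealPair R0 R1 R01) :
    transposeBC (ofIdeals c D).bc0 (Submodule.subtype D.I0) =
      (D.unitSubPair (A := A)).S01.subtype := by
  refine (ofIdeals c D).bc0.algHom_ext' _ _ ?_
  ext a
  exact (transposeBC_apply (ofIdeals c D).bc0 (Submodule.subtype D.I0) a).trans rfl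

lemma transposeBC_subtype1 (c : TwoChart A R0 R1 R01) (D : IdealPair R0 R1 R01) :
    transposeBC (ofIdeals c D).bc1 (Submodule.subtype D.I1) =
      (D.unitSubPair (A := A)).S01.subtype := by
  refine (ofIdeals c D).bc1.algHom_ext' _ _ ?_
  ext a
  exact (transposeBC_apply (ofIdeals c D).bc1 (Submodule.subtype D.I1) a).trans rfl

/-- The canonical section `1` of `O(D)`: on each chart it is the inclusion `I ↪ R`. -/
noncomputable def oneSection (c : TwoChart A R0 R1 R01) (D : IdealPair R0 R1 R01)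
    (hD : (ofIdeals c D).IsVB) : (ofDivisor c D hD).H0 :=
  ⟨(Submodule.subtype D.I0, Submodule.subtype D.I1), by
    show (ofDivisor c D hD).d (Submodule.subtype D.I0, Submodule.subtype D.I1) = 0
    rw [d_apply, sub_eq_zero]
    exact (transposeBC_subtype0 c D).trans (transposeBC_subtype1 c D).symm⟩

@[simp] lemma oneSection_fst (c : TwoChart A R0 R1 R01) (D : IdealPair R0 R1 R01)
    (hD : (ofIdeals c D).IsVB) : (oneSection c D hD).1.1 = Submodule.subtype D.I0 := rfl

@[simp] lemma oneSection_snd (c : TwoChart A R0 R1 R01) (D : IdealPair R0 R1 R01)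
    (hD : (ofIdeals c D).IsVB) : (oneSection c D hD).1.2 = Submodule.subtype D.I1 := rfl

end Fermat.Agent.Jac.LineOps39
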