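/-
Fermat/Agent/Jac/LineOps39/BCOps.lean  (helper39)

Brick A3 (LineOps) of the S25 programme, part 11: compatibility of the sub-object / quotient /
twist operations with base change along a cube of rings (`JSmooth85Alg.LiftData`).

Ring level (Mathlib only):
* `quotBCEquiv`  : `R' ⊗ (N ⧸ S) ≃ N' ⧸ S'` (no flatness), `subBCEquiv` : `R' ⊗ S ≃ S'` (needs
  injectivity of `R' ⊗ S → R' ⊗ N`), `map_baseChange_smul_top`.
* injectivity criteria: `injective_baseChange_smul_top` (flat `N`, from the ideal),
  `injective_baseChange_of_flat_quotient` (pushout square, `N ⧸ S` flat over the base),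
  `injective_of_isBaseChange_away`.
* `comap_map_eq_map_comap_of_away` : contraction commutes with extension at a rational point.

Cube level:
* `SubPair.IsBC`, `liftDataQuot`, `liftDataSub`.
* `IdealPair.IsBC`, `liftDataRestrictTo` (unconditional), `liftDataDownTwist`,
  `liftDataDownTwistOfFlat`, `liftDataOfIdeals`, `IdealPair.isBC_ofChart0`, `IdealPair.isBC_ofChart1`.
-/
import Fermat.Agent.Jac.LineOps39.IdealSheaf
import Fermat.Agent.Jac.BaseChange75.RingIso

set_option autoImplicit false
set_option linter.unusedSectionVars false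

universe u

open TensorProduct

namespace Fermat.Agent.Jac.LineOps39

section ring

variable {R R' N N' : Type*} [CommRing R] [CommRing R'] [Algebra R R'] [AddCommGroup N]
  [Module R N] [AddCommGroup N'] [Module R' N'] (e : R' ⊗[R] N ≃ₗ[R'] N')

/-- The image in `N'` of the base change of a submodule, as a span. -/
lemma map_baseChange_eq_span (S : Submodule R N) :
    (S.baseChange R').map e.toLinearMap =
      Submodule.span R' ((fun n => e (1 ⊗ₜ[R] n)) '' (S : Set N)) := by
  rw [Submodule.baseChange_eq_span, Submodule.map_span, Submodule.map_coe, Set.image_image]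
  rfl

lemma tmul_mem_map_baseChange {S : Submodule R N} {n : N} (hn : n ∈ S) (b : R') :
    e (b ⊗ₜ[R] n) ∈ (S.baseChange R').map e.toLinearMap :=
  ⟨_, Submodule.tmul_mem_baseChange_of_mem b hn, rfl⟩

lemma exact_baseChange_subtype_mkQ (S : Submodule R N) :
    Function.Exact (S.subtype.baseChange R') (S.mkQ.baseChange R') :=
  lTensor_exact R' (LinearMap.exact_subtype_mkQ S) (Submodule.mkQ_surjective S)

lemma surjective_baseChange_mkQ (S : Submodule R N) :
    Function.Surjective (S.mkQ.baseChange R') :=
  LinearMap.lTensor_surjective R' (Submodule.mkQ_surjective S)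

/-- `(R' ⊗ N) ⧸ (R' ⊗ S) ≃ R' ⊗ (N ⧸ S)`. -/
noncomputable def quotBaseChangeEquiv (S : Submodule R N) :
    ((R' ⊗[R] N) ⧸ S.baseChange R') ≃ₗ[R'] R' ⊗[R] (N ⧸ S) :=
  (exact_baseChange_subtype_mkQ (R' := R') S).linearEquivOfSurjective
    (surjective_baseChange_mkQ S)

@[simp]
lemma quotBaseChangeEquiv_mk (S : Submodule R N) (z : R' ⊗[R] N) :
    quotBaseChangeEquiv (R' := R') S (Submodule.Quotient.mk z) = S.mkQ.baseChange R' z := rfl

/-- Base change of a quotient module: `R' ⊗ (N ⧸ S) ≃ N' ⧸ S'` when `N' ≃ R' ⊗ N` and `S'` is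
the image of `R' ⊗ S`. No flatness is needed. -/
noncomputable def quotBCEquiv (S : Submodule R N) (S' : Submodule R' N')
    (hS : S' = (S.baseChange R').map e.toLinearMap) : R' ⊗[R] (N ⧸ S) ≃ₗ[R'] N' ⧸ S' :=
  (quotBaseChangeEquiv S).symm ≪≫ₗ Submodule.Quotient.equiv (S.baseChange R') S' e hS.symm

@[simp]
lemma quotBCEquiv_tmul_mk (S : Submodule R N) (S' : Submodule R' N')
    (hS : S' = (S.baseChange R').map e.toLinearMap) (b : R') (n : N) :
    quotBCEquiv e S S' hS (b ⊗ₜ[R] S.mkQ n) = S'.mkQ (e (b ⊗ₜ[R] n)) := by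
  have h1 : (quotBaseChangeEquiv (R' := R') S).symm (b ⊗ₜ[R] S.mkQ n) =
      Submodule.Quotient.mk (b ⊗ₜ[R] n) := by
    rw [LinearEquiv.symm_apply_eq, quotBaseChangeEquiv_mk, LinearMap.baseChange_tmul]
  rw [quotBCEquiv, LinearEquiv.trans_apply, h1]
  rfl

/-- Base change of a submodule: `R' ⊗ S ≃ S'` when `N' ≃ R' ⊗ N`, `S'` is the image of
`R' ⊗ S` and `R' ⊗ S → R' ⊗ N` is injective. -/
noncomputable def subBCEquiv (S : Submodule R N) (S' : Submodule R' N')
    (hS : S' = (S.baseChange R').map e.toLinearMap)
    (hinj : Function.Injective (S.subtype.baseChange R')) : R' ⊗[R] S ≃ₗ[R'] S' :=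
  LinearEquiv.ofInjective (e.toLinearMap ∘ₗ S.subtype.baseChange R')
      (e.injective.comp hinj) ≪≫ₗ
    LinearEquiv.ofEq _ _ (by rw [LinearMap.range_comp, hS]; rfl)

@[simp]
lemma subBCEquiv_tmul (S : Submodule R N) (S' : Submodule R' N')
    (hS : S' = (S.baseChange R').map e.toLinearMap)
    (hinj : Function.Injective (S.subtype.baseChange R')) (b : R') (x : S) :
    ((subBCEquiv e S S' hS hinj (b ⊗ₜ[R] x) : S') : N') = e (b ⊗ₜ[R] (x : N)) := rfl

/-- Base change of `I • N`. -/
lemma map_baseChange_smul_top (I : Ideal R) :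
    ((I • (⊤ : Submodule R N)).baseChange R').map e.toLinearMap =
      I.map (algebraMap R R') • (⊤ : Submodule R' N') := by
  apply le_antisymm
  · rw [map_baseChange_eq_span, Submodule.span_le]
    rintro _ ⟨n, hn, rfl⟩
    show e (1 ⊗ₜ[R] n) ∈ _
    refine Submodule.smul_induction_on hn (fun a ha m _ => ?_) (fun x y hx hy => ?_)
    · have : (1 : R') ⊗ₜ[R] (a • m) = algebraMap R R' a • ((1 : R') ⊗ₜ[R] m) := by
        rw [TensorProduct.tmul_smul, algebraMap_smul]
      rw [this, map_smul]
      exact Submodule.smul_mem_smul (Ideal.mem_map_of_mem _ ha) Submodule.mem_top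
    · rw [TensorProduct.tmul_add, map_add]
      exact add_mem hx hy
  · have htop : (⊤ : Submodule R' N') =
        Submodule.span R' ((fun n => e (1 ⊗ₜ[R] n)) '' (Set.univ : Set N)) := by
      have := map_baseChange_eq_span e (⊤ : Submodule R N)
      rw [Submodule.baseChange_top, Submodule.map_top, LinearEquiv.range] at this
      rw [this]; rfl
    rw [htop, Ideal.map, Ideal.span, Submodule.span_smul_span, Submodule.span_le]
    intro x hx
    obtain ⟨_, ⟨a, ha, rfl⟩, _, ⟨n, _, rfl⟩, rfl⟩ := Set.mem_smul.mp hx
    have : algebraMap R R' a • e ((1 : R') ⊗ₜ[R] n) = e ((1 : R') ⊗ₜ[R] (a • n)) := by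
      rw [← map_smul, TensorProduct.tmul_smul, algebraMap_smul]
    show algebraMap R R' a • e ((1 : R') ⊗ₜ[R] n) ∈ _
    rw [this]
    exact tmul_mem_map_baseChange e (Submodule.smul_mem_smul ha Submodule.mem_top) 1

end ring

section loc

/-- Injectivity passes to the localization in a commutative square of linear maps whose
horizontal maps are base changes to a localization away from an element. -/
lemma injective_of_isBaseChange_away {R S : Type*} [CommRing R] [CommRing S] [Algebra R S] (t : R)
    [IsLocalization.Away t S] {M N M' N' : Type*} [AddCommGroup M] [AddCommGroup N]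
    [AddCommGroup M'] [AddCommGroup N'] [Module R M] [Module R N] [Module R M'] [Module S M']
    [IsScalarTower R S M'] [Module R N'] [Module S N'] [IsScalarTower R S N']
    (g : M →ₗ[R] M') (g' : N →ₗ[R] N') (hg : IsBaseChange S g) (hg' : IsBaseChange S g')
    (f : M →ₗ[R] N) (f' : M' →ₗ[S] N') (hcomm : ∀ x, f' (g x) = g' (f x))
    (hf : Function.Injective f) : Function.Injective f' := by
  have i1 : IsLocalizedModule (Submonoid.powers t) g :=
    (isLocalizedModule_iff_isBaseChange (Submonoid.powers t) S g).mpr hg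
  have i2 : IsLocalizedModule (Submonoid.powers t) g' :=
    (isLocalizedModule_iff_isBaseChange (Submonoid.powers t) S g').mpr hg'
  have key : IsLocalizedModule.map (Submonoid.powers t) g g' f = f'.restrictScalars R := by
    apply IsLocalizedModule.linearMap_ext (Submonoid.powers t) g g'
    rw [IsLocalizedModule.map_comp]
    ext x
    exact (hcomm x).symm
  have := IsLocalizedModule.map_injective (Submonoid.powers t) g g' f hf
  rw [key] at this
  exact this

end loc

/-! ### Injectivity criteria -/

/-- If `R' ⊗ I → R'` is injective and `N` is flat, then `R' ⊗ I N → R' ⊗ N` is injective. -/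
lemma injective_baseChange_smul_top {R R' N : Type*} [CommRing R] [CommRing R'] [Algebra R R']
    [AddCommGroup N] [Module R N] [Module.Flat R N] (I : Ideal R)
    (hI : Function.Injective (I.subtype.baseChange R')) :
    Function.Injective ((I • (⊤ : Submodule R N)).subtype.baseChange R') := by
  have hI' : Function.Injective (I.subtype.lTensor R') := hI
  have h1 : Function.Injective ((I.subtype.lTensor R').rTensor N) :=
    Module.Flat.rTensor_preserves_injective_linearMap _ hI'
  have h2 : Function.Injective ((I.subtype.rTensor N).lTensor R') := by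
    have e : (I.subtype.rTensor N).lTensor R' =
        (TensorProduct.assoc R R' R N).toLinearMap ∘ₗ ((I.subtype.lTensor R').rTensor N) ∘ₗ
          (TensorProduct.assoc R R' I N).symm.toLinearMap := by
      ext b a n
      simp
    rw [e]
    exact (TensorProduct.assoc R R' R N).injective.comp
      (h1.comp (TensorProduct.assoc R R' I N).symm.injective)
  -- the composite `I ⊗ N ≃ I • ⊤ → N` is `a ⊗ n ↦ a • n`
  have h3 : (I • (⊤ : Submodule R N)).subtype ∘ₗ (idealTensorEquivSMulTop I (N := N)).toLinearMap =
      (TensorProduct.lid R N).toLinearMap ∘ₗ I.subtype.rTensor N := by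
    ext a n
    simp [idealTensorEquivSMulTop_tmul]
  have h4 : ((I • (⊤ : Submodule R N)).subtype.lTensor R') ∘ₗ
      ((idealTensorEquivSMulTop I (N := N)).toLinearMap.lTensor R') =
      ((TensorProduct.lid R N).toLinearMap.lTensor R') ∘ₗ ((I.subtype.rTensor N).lTensor R') := by
    rw [← LinearMap.lTensor_comp, ← LinearMap.lTensor_comp, h3]
  have h5 : Function.Injective (((I • (⊤ : Submodule R N)).subtype.lTensor R') ∘ₗ
      ((idealTensorEquivSMulTop I (N := N)).toLinearMap.lTensor R')) := by
    rw [h4]
    exact ((TensorProduct.lid R N).lTensor R').injective.comp h2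
  have h6 : Function.Surjective ((idealTensorEquivSMulTop I (N := N)).toLinearMap.lTensor R') :=
    ((idealTensorEquivSMulTop I (N := N)).lTensor R').surjective
  show Function.Injective ((I • (⊤ : Submodule R N)).subtype.lTensor R')
  intro x y hxy
  obtain ⟨x, rfl⟩ := h6 x
  obtain ⟨y, rfl⟩ := h6 y
  rw [h5 hxy]

/-- Relative flatness criterion: if `R' = A' ⊗[A] R` and `N ⧸ S` is flat over the base `A`,
then `R' ⊗[R] S → R' ⊗[R] N` is injective. -/
lemma injective_baseChange_of_flat_quotient {A A' R R' N : Type*} [CommRing A] [CommRing A']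
    [CommRing R] [CommRing R'] [Algebra A A'] [Algebra A R] [Algebra A' R'] [Algebra R R']
    [Algebra A R'] [IsScalarTower A A' R'] [IsScalarTower A R R'] [Algebra.IsPushout A A' R R']
    [AddCommGroup N] [Module A N] [Module R N] [IsScalarTower A R N] (S : Submodule R N)
    [Module.Flat A (N ⧸ S)] : Function.Injective (S.subtype.baseChange R') := by
  let cS := Algebra.IsPushout.cancelBaseChange A A' R R' S
  let cN := Algebra.IsPushout.cancelBaseChange A A' R R' N
  let gA : A' ⊗[A] S →ₗ[A] A' ⊗[A] N := (S.subtype.restrictScalars A).lTensor A'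
  have hgA : Function.Injective gA :=
    LinearMap.lTensor_injective_of_exact_of_flat (S.mkQ.restrictScalars A)
      (Submodule.mkQ_surjective S) (S.subtype.restrictScalars A) (Submodule.subtype_injective S)
      (LinearMap.exact_subtype_mkQ S) A'
  have key : ∀ z : A' ⊗[A] S, S.subtype.baseChange R' (cS.symm z) = cN.symm (gA z) := by
    intro z
    induction z using TensorProduct.induction_on with
    | zero => simp
    | tmul s x =>
      simp only [cS, cN, gA, Algebra.IsPushout.cancelBaseChange_symm_tmul, LinearMap.lTensor_tmul,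
        LinearMap.baseChange_tmul]
      rfl
    | add z w hz hw => simp only [map_add, hz, hw]
  intro x y hxy
  obtain ⟨x, rfl⟩ := cS.symm.surjective x
  obtain ⟨y, rfl⟩ := cS.symm.surjective y
  rw [key, key] at hxy
  rw [hgA (cN.symm.injective hxy)]

/-- Contraction from a localization `S = R[1/s]` commutes with extension of scalars along a map of
such localizations, provided `s` is invertible modulo the contracted ideal. -/
lemma comap_map_eq_map_comap_of_away {R S R' S' : Type*} [CommRing R] [CommRing S] [CommRing R']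
    [CommRing S'] [Algebra R S] [Algebra R' S'] [Algebra R R'] [Algebra S S']
    (hc : (algebraMap R' S').comp (algebraMap R R') = (algebraMap S S').comp (algebraMap R S))
    (s : R) [IsLocalization.Away s S] [IsLocalization.Away (algebraMap R R' s) S']
    (J : Ideal S) (u : R) (hu : u * s - 1 ∈ J.comap (algebraMap R S)) :
    (J.map (algebraMap S S')).comap (algebraMap R' S') =
      (J.comap (algebraMap R S)).map (algebraMap R R') := by
  set I := J.comap (algebraMap R S) with hI
  set K := I.map (algebraMap R R') with hK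
  have hJ : I.map (algebraMap R S) = J := IsLocalization.map_under (Submonoid.powers s) S J
  have hJ' : J.map (algebraMap S S') = K.map (algebraMap R' S') := by
    rw [← hJ, hK, Ideal.map_map, Ideal.map_map, hc]
  rw [hJ']
  apply le_antisymm
  · intro x hx
    rw [Ideal.mem_comap, IsLocalization.algebraMap_mem_map_algebraMap_iff
      (Submonoid.powers (algebraMap R R' s)) S'] at hx
    obtain ⟨_, ⟨N, rfl⟩, hN⟩ := hx
    -- `s'` is a unit modulo `K`
    have hw : algebraMap R R' u * algebraMap R R' s - 1 ∈ K := by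
      have := Ideal.mem_map_of_mem (algebraMap R R') hu
      simpa only [map_sub, map_mul, map_one] using this
    have hpow : (algebraMap R R' u * algebraMap R R' s) ^ N - 1 ∈ K := by
      obtain ⟨q, hq⟩ := sub_dvd_pow_sub_pow (algebraMap R R' u * algebraMap R R' s) 1 N
      rw [one_pow] at hq
      rw [hq]
      exact Ideal.mul_mem_right _ _ hw
    have hx' : x = (algebraMap R R' u) ^ N * ((algebraMap R R' s) ^ N * x) -
        ((algebraMap R R' u * algebraMap R R' s) ^ N - 1) * x := by ring
    rw [hx']
    exact Ideal.sub_mem _ (Ideal.mul_mem_left _ _ hN) (Ideal.mul_mem_right _ _ hpow)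
  · exact Ideal.le_comap_map


section cube

open JSmooth85Alg

variable {A R0 R1 R01 A' R0' R1' R01' : Type u}
  [CommRing A] [CommRing R0] [CommRing R1] [CommRing R01]
  [Algebra A R0] [Algebra A R1] [Algebra A R01] [Algebra R0 R01] [Algebra R1 R01]
  [IsScalarTower A R0 R01] [IsScalarTower A R1 R01]
  [CommRing A'] [CommRing R0'] [CommRing R1'] [CommRing R01']
  [Algebra A' R0'] [Algebra A' R1'] [Algebra A' R01'] [Algebra R0' R01'] [Algebra R1' R01']
  [IsScalarTower A' R0' R01'] [IsScalarTower A' R1' R01']
  [Algebra R0 R0'] [Algebra R1 R1'] [Algebra R01 R01']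

variable {L : QC2 A R0 R1 R01} {L' : QC2 A' R0' R1' R01'}

/-- The sub-pair `P'` of `L'` is the base change of the sub-pair `P` of `L`. -/
structure SubPair.IsBC (h : LiftData L L') (P : SubPair L) (P' : SubPair L') : Prop where
  h0 : P'.S0 = (P.S0.baseChange R0').map h.e0.toLinearMap
  h1 : P'.S1 = (P.S1.baseChange R1').map h.e1.toLinearMap

/-- On the overlap the base-change condition is automatic. -/
lemma SubPair.IsBC.h01 {h : LiftData L L'} {P : SubPair L} {P' : SubPair L'}
    (hP : SubPair.IsBC h P P') : P'.S01 = (P.S01.baseChange R01').map h.e01.toLinearMap := by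
  have e1 : P'.S01 = Submodule.span R01'
      ((fun n => h.e01 (1 ⊗ₜ[R01] L.r0 n)) '' (P.S0 : Set L.N0)) := by
    unfold SubPair.S01
    rw [hP.h0, map_baseChange_eq_span, ← Submodule.map_coe, Submodule.map_span,
      Submodule.span_span_of_tower, Set.image_image]
    congr 1
    apply Set.image_congr
    intro n _
    exact (h.comm0 n).symm
  have e2 : (P.S01.baseChange R01').map h.e01.toLinearMap = Submodule.span R01'
      ((fun n => h.e01 (1 ⊗ₜ[R01] L.r0 n)) '' (P.S0 : Set L.N0)) := by
    unfold SubPair.S01
    rw [Submodule.baseChange_span, Submodule.map_span, Set.image_image, Set.image_image]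
    rfl
  rw [e1, e2]

/-- The quotient by a base-changed sub-pair is the base change of the quotient
(no flatness needed). -/
noncomputable def liftDataQuot (c : TwoChart A R0 R1 R01) (c' : TwoChart A' R0' R1' R01')
    (h : LiftData L L') {P : SubPair L} {P' : SubPair L'} (hP : SubPair.IsBC h P P') :
    LiftData (quot c L P) (quot c' L' P') where
  e0 := quotBCEquiv h.e0 P.S0 P'.S0 hP.h0
  e1 := quotBCEquiv h.e1 P.S1 P'.S1 hP.h1
  e01 := quotBCEquiv h.e01 P.S01 P'.S01 hP.h01
  comm0 x := by
    obtain ⟨n, rfl⟩ := P.S0.mkQ_surjective x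
    show quotBCEquiv h.e01 P.S01 P'.S01 hP.h01 (1 ⊗ₜ[R01] P.S01.mkQ (L.r0 n)) =
      P'.quotR0 (quotBCEquiv h.e0 P.S0 P'.S0 hP.h0 (1 ⊗ₜ[R0] P.S0.mkQ n))
    rw [quotBCEquiv_tmul_mk, quotBCEquiv_tmul_mk, h.comm0]
    rfl
  comm1 x := by
    obtain ⟨n, rfl⟩ := P.S1.mkQ_surjective x
    show quotBCEquiv h.e01 P.S01 P'.S01 hP.h01 (1 ⊗ₜ[R01] P.S01.mkQ (L.r1 n)) =
      P'.quotR1 (quotBCEquiv h.e1 P.S1 P'.S1 hP.h1 (1 ⊗ₜ[R1] P.S1.mkQ n))
    rw [quotBCEquiv_tmul_mk, quotBCEquiv_tmul_mk, h.comm1]
    rfl

/-- The sub-object of a base-changed sub-pair is the base change of the sub-object, provided the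
three maps `R' ⊗ S → R' ⊗ N` are injective. -/
noncomputable def liftDataSub (c : TwoChart A R0 R1 R01) (c' : TwoChart A' R0' R1' R01')
    (h : LiftData L L') {P : SubPair L} {P' : SubPair L'} (hP : SubPair.IsBC h P P')
    (hinj0 : Function.Injective (P.S0.subtype.baseChange R0'))
    (hinj1 : Function.Injective (P.S1.subtype.baseChange R1'))
    (hinj01 : Function.Injective (P.S01.subtype.baseChange R01')) :
    LiftData (sub c L P) (sub c' L' P') where
  e0 := subBCEquiv h.e0 P.S0 P'.S0 hP.h0 hinj0
  e1 := subBCEquiv h.e1 P.S1 P'.S1 hP.h1 hinj1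
  e01 := subBCEquiv h.e01 P.S01 P'.S01 hP.h01 hinj01
  comm0 := fun (x : P.S0) => by
    apply Subtype.ext
    show h.e01 (1 ⊗ₜ[R01] L.r0 (x : L.N0)) = L'.r0 (h.e0 (1 ⊗ₜ[R0] (x : L.N0)))
    exact h.comm0 _
  comm1 := fun (x : P.S1) => by
    apply Subtype.ext
    show h.e01 (1 ⊗ₜ[R01] L.r1 (x : L.N1)) = L'.r1 (h.e1 (1 ⊗ₜ[R1] (x : L.N1)))
    exact h.comm1 _


/-! ### Injectivity on the overlap is automatic -/

/-- If `R0' ⊗ S0 → R0' ⊗ N0` is injective then so is `R01' ⊗ S01 → R01' ⊗ N01`. -/
lemma injective_baseChange_S01_of_S0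
    (hc0 : (algebraMap R0' R01').comp (algebraMap R0 R0') =
      (algebraMap R01 R01').comp (algebraMap R0 R01))
    (c : TwoChart A R0 R1 R01) (c' : TwoChart A' R0' R1' R01') (P : SubPair L)
    (hinj0 : Function.Injective (P.S0.subtype.baseChange R0')) :
    Function.Injective (P.S01.subtype.baseChange R01') := by
  have := c'.away0
  refine injective_of_isBaseChange_away (R := R0') (S := R01') c'.t
    (BaseChange75.sideMap hc0 P.subR0) (BaseChange75.sideMap hc0 L.r0)
    (BaseChange75.sideMap_isBaseChange hc0 P.subR0 (P.isBaseChange_subR0 c))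
    (BaseChange75.sideMap_isBaseChange hc0 L.r0 L.bc0)
    (P.S0.subtype.baseChange R0') (P.S01.subtype.baseChange R01') ?_ hinj0
  intro z
  induction z using TensorProduct.induction_on with
  | zero => simp
  | tmul b x =>
    rw [BaseChange75.sideMap_tmul, LinearMap.baseChange_tmul, LinearMap.baseChange_tmul,
      BaseChange75.sideMap_tmul]
    rfl
  | add z w hz hw => simp only [map_add, hz, hw]

/-- If `R1' ⊗ S1 → R1' ⊗ N1` is injective then so is `R01' ⊗ S01 → R01' ⊗ N01`. -/
lemma injective_baseChange_S01_of_S1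
    (hc1 : (algebraMap R1' R01').comp (algebraMap R1 R1') =
      (algebraMap R01 R01').comp (algebraMap R1 R01))
    (c : TwoChart A R0 R1 R01) (c' : TwoChart A' R0' R1' R01') (P : SubPair L)
    (hinj1 : Function.Injective (P.S1.subtype.baseChange R1')) :
    Function.Injective (P.S01.subtype.baseChange R01') := by
  have := c'.away1
  refine injective_of_isBaseChange_away (R := R1') (S := R01') c'.s
    (BaseChange75.sideMap hc1 P.subR1) (BaseChange75.sideMap hc1 L.r1)
    (BaseChange75.sideMap_isBaseChange hc1 P.subR1 (P.isBaseChange_subR1 c))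
    (BaseChange75.sideMap_isBaseChange hc1 L.r1 L.bc1)
    (P.S1.subtype.baseChange R1') (P.S01.subtype.baseChange R01') ?_ hinj1
  intro z
  induction z using TensorProduct.induction_on with
  | zero => simp
  | tmul b x =>
    rw [BaseChange75.sideMap_tmul, LinearMap.baseChange_tmul, LinearMap.baseChange_tmul,
      BaseChange75.sideMap_tmul]
    rfl
  | add z w hz hw => simp only [map_add, hz, hw]

/-! ### Ideal pairs -/

/-- The ideal pair `D'` is the extension of the ideal pair `D` along the cube. -/
structure IdealPair.IsBC (D : IdealPair R0 R1 R01) (D' : IdealPair R0' R1' R01') : Prop where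
  h0 : D'.I0 = D.I0.map (algebraMap R0 R0')
  h1 : D'.I1 = D.I1.map (algebraMap R1 R1')

/-- Extension of ideal pairs induces base change of the sub-pairs `I_D • L`. -/
lemma IdealPair.IsBC.subPair {D : IdealPair R0 R1 R01} {D' : IdealPair R0' R1' R01'}
    (hD : D.IsBC D') (c : TwoChart A R0 R1 R01) (c' : TwoChart A' R0' R1' R01')
    (h : LiftData L L') : SubPair.IsBC h (D.subPair c L) (D'.subPair c' L') where
  h0 := by
    show (D'.I0 • ⊤ : Submodule R0' L'.N0) = _
    rw [hD.h0]
    exact (map_baseChange_smul_top h.e0 D.I0).symm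
  h1 := by
    show (D'.I1 • ⊤ : Submodule R1' L'.N1) = _
    rw [hD.h1]
    exact (map_baseChange_smul_top h.e1 D.I1).symm

/-- `L|_D` commutes with base change (no flatness needed). -/
noncomputable def liftDataRestrictTo (c : TwoChart A R0 R1 R01) (c' : TwoChart A' R0' R1' R01')
    (h : LiftData L L') {D : IdealPair R0 R1 R01} {D' : IdealPair R0' R1' R01'}
    (hD : D.IsBC D') : LiftData (restrictTo c L D) (restrictTo c' L' D') :=
  liftDataQuot c c' h (hD.subPair c c' h)

/-- `L(-D)` commutes with base change as soon as the maps `R' ⊗ I_D L → R' ⊗ L` are injective on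
the two charts. -/
noncomputable def liftDataDownTwist
    (hc0 : (algebraMap R0' R01').comp (algebraMap R0 R0') =
      (algebraMap R01 R01').comp (algebraMap R0 R01))
    (c : TwoChart A R0 R1 R01) (c' : TwoChart A' R0' R1' R01')
    (h : LiftData L L') {D : IdealPair R0 R1 R01} {D' : IdealPair R0' R1' R01'}
    (hD : D.IsBC D')
    (hinj0 : Function.Injective
      ((D.I0 • (⊤ : Submodule R0 L.N0)).subtype.baseChange R0'))
    (hinj1 : Function.Injective
      ((D.I1 • (⊤ : Submodule R1 L.N1)).subtype.baseChange R1')) :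
    LiftData (downTwist c L D) (downTwist c' L' D') :=
  liftDataSub c c' h (hD.subPair c c' h) hinj0 hinj1
    (injective_baseChange_S01_of_S0 hc0 c c' (D.subPair c L) hinj0)


/-- `L(-D)` commutes with base change for a vector bundle `L`, as soon as `R' ⊗ I → R'` is
injective for the two chart ideals of `D`. -/
noncomputable def liftDataDownTwistOfFlat
    (hc0 : (algebraMap R0' R01').comp (algebraMap R0 R0') =
      (algebraMap R01 R01').comp (algebraMap R0 R01))
    (c : TwoChart A R0 R1 R01) (c' : TwoChart A' R0' R1' R01')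
    (h : LiftData L L') (hL : L.IsVB) {D : IdealPair R0 R1 R01} {D' : IdealPair R0' R1' R01'}
    (hD : D.IsBC D')
    (hinj0 : Function.Injective (D.I0.subtype.baseChange R0'))
    (hinj1 : Function.Injective (D.I1.subtype.baseChange R1')) :
    LiftData (downTwist c L D) (downTwist c' L' D') :=
  have := hL.proj0
  have := hL.proj1
  liftDataDownTwist hc0 c c' h hD (injective_baseChange_smul_top D.I0 hinj0)
    (injective_baseChange_smul_top D.I1 hinj1)

/-- Extension of ideal pairs induces base change of the sub-pairs of the structure sheaf. -/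
lemma IdealPair.IsBC.unitSubPair {D : IdealPair R0 R1 R01} {D' : IdealPair R0' R1' R01'}
    (hD : D.IsBC D')
    (hc0 : (algebraMap R0' R01').comp (algebraMap R0 R0') =
      (algebraMap R01 R01').comp (algebraMap R0 R01))
    (hc1 : (algebraMap R1' R01').comp (algebraMap R1 R1') =
      (algebraMap R01 R01').comp (algebraMap R1 R01)) :
    SubPair.IsBC (BaseChange75.LiftData.unit hc0 hc1)
      (D.unitSubPair (A := A)) (D'.unitSubPair (A := A')) where
  h0 := by
    show (D'.I0 : Submodule R0' R0') = _
    rw [hD.h0, map_baseChange_eq_span, Ideal.map, Ideal.span]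
    congr 1
    apply Set.image_congr
    intro a _
    show algebraMap R0 R0' a = TensorProduct.AlgebraTensorModule.rid R0 R0' R0' (1 ⊗ₜ[R0] a)
    rw [TensorProduct.AlgebraTensorModule.rid_tmul, Algebra.smul_def, mul_one]
  h1 := by
    show (D'.I1 : Submodule R1' R1') = _
    rw [hD.h1, map_baseChange_eq_span, Ideal.map, Ideal.span]
    congr 1
    apply Set.image_congr
    intro a _
    show algebraMap R1 R1' a = TensorProduct.AlgebraTensorModule.rid R1 R1' R1' (1 ⊗ₜ[R1] a)
    rw [TensorProduct.AlgebraTensorModule.rid_tmul, Algebra.smul_def, mul_one]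

/-- The ideal sheaf `O(-D)` commutes with base change as soon as `R' ⊗ I → R'` is injective for
the two chart ideals of `D`. -/
noncomputable def liftDataOfIdeals
    (hc0 : (algebraMap R0' R01').comp (algebraMap R0 R0') =
      (algebraMap R01 R01').comp (algebraMap R0 R01))
    (hc1 : (algebraMap R1' R01').comp (algebraMap R1 R1') =
      (algebraMap R01 R01').comp (algebraMap R1 R01))
    (c : TwoChart A R0 R1 R01) (c' : TwoChart A' R0' R1' R01')
    {D : IdealPair R0 R1 R01} {D' : IdealPair R0' R1' R01'} (hD : D.IsBC D')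
    (hinj0 : Function.Injective (D.I0.subtype.baseChange R0'))
    (hinj1 : Function.Injective (D.I1.subtype.baseChange R1')) :
    LiftData (ofIdeals c D) (ofIdeals c' D') :=
  liftDataSub c c' (BaseChange75.LiftData.unit hc0 hc1) (hD.unitSubPair hc0 hc1) hinj0 hinj1
    (injective_baseChange_S01_of_S0 hc0 c c' (D.unitSubPair (A := A)) hinj0)

/-- The closure of a closed subscheme of chart 0 on which `s` is invertible commutes with base
change. -/
lemma IdealPair.isBC_ofChart0
    (hc0 : (algebraMap R0' R01').comp (algebraMap R0 R0') =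
      (algebraMap R01 R01').comp (algebraMap R0 R01))
    (hc1 : (algebraMap R1' R01').comp (algebraMap R1 R1') =
      (algebraMap R01 R01').comp (algebraMap R1 R01))
    (c : TwoChart A R0 R1 R01) (c' : TwoChart A' R0' R1' R01')
    (hs : algebraMap R1 R1' c.s = c'.s) (I0 : Ideal R0) (u : R1)
    (hu : u * c.s - 1 ∈ (IdealPair.ofChart0 c I0).I1) :
    (IdealPair.ofChart0 c I0).IsBC (IdealPair.ofChart0 c' (I0.map (algebraMap R0 R0'))) where
  h0 := rfl
  h1 := by
    have := c.away1
    have : IsLocalization.Away (algebraMap R1 R1' c.s) R01' := hs ▸ c'.away1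
    show ((I0.map (algebraMap R0 R0')).map (algebraMap R0' R01')).comap (algebraMap R1' R01') = _
    rw [Ideal.map_map, hc0, ← Ideal.map_map]
    exact comap_map_eq_map_comap_of_away hc1 c.s (I0.map (algebraMap R0 R01)) u hu

/-- The closure of a closed subscheme of chart 1 on which `t` is invertible commutes with base
change. -/
lemma IdealPair.isBC_ofChart1
    (hc0 : (algebraMap R0' R01').comp (algebraMap R0 R0') =
      (algebraMap R01 R01').comp (algebraMap R0 R01))
    (hc1 : (algebraMap R1' R01').comp (algebraMap R1 R1') =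
      (algebraMap R01 R01').comp (algebraMap R1 R01))
    (c : TwoChart A R0 R1 R01) (c' : TwoChart A' R0' R1' R01')
    (ht : algebraMap R0 R0' c.t = c'.t) (I1 : Ideal R1) (v : R0)
    (hv : v * c.t - 1 ∈ (IdealPair.ofChart1 c I1).I0) :
    (IdealPair.ofChart1 c I1).IsBC (IdealPair.ofChart1 c' (I1.map (algebraMap R1 R1'))) where
  h1 := rfl
  h0 := by
    have := c.away0
    have : IsLocalization.Away (algebraMap R0 R0' c.t) R01' := ht ▸ c'.away0
    show ((I1.map (algebraMap R1 R1')).map (algebraMap R1' R01')).comap (algebraMap R0' R01') = _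
    rw [Ideal.map_map, hc1, ← Ideal.map_map]
    exact comap_map_eq_map_comap_of_away hc0 c.t (I1.map (algebraMap R1 R01)) v hv

end cube


section pushout

open JSmooth85Alg

variable {A R0 R1 R01 A' R0' R1' R01' : Type u}
  [CommRing A] [CommRing R0] [CommRing R1] [CommRing R01]
  [Algebra A R0] [Algebra A R1] [Algebra A R01] [Algebra R0 R01] [Algebra R1 R01]
  [IsScalarTower A R0 R01] [IsScalarTower A R1 R01]
  [CommRing A'] [CommRing R0'] [CommRing R1'] [CommRing R01']
  [Algebra A' R0'] [Algebra A' R1'] [Algebra A' R01'] [Algebra R0' R01'] [Algebra R1' R01']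
  [IsScalarTower A' R0' R01'] [IsScalarTower A' R1' R01']
  [Algebra R0 R0'] [Algebra R1 R1'] [Algebra R01 R01']
  [Algebra A A']
  [Algebra A R0'] [IsScalarTower A A' R0'] [IsScalarTower A R0 R0'] [Algebra.IsPushout A A' R0 R0']
  [Algebra A R1'] [IsScalarTower A A' R1'] [IsScalarTower A R1 R1'] [Algebra.IsPushout A A' R1 R1']

variable {L : QC2 A R0 R1 R01} {L' : QC2 A' R0' R1' R01'}

/-- `L(-D)` commutes with base change `A → A'` (pushout cube) for a vector bundle `L` and a
relative effective Cartier divisor `D` (the quotients `R_i ⧸ I_i` are flat over `A`). -/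
noncomputable def liftDataDownTwistOfPushout
    (hc0 : (algebraMap R0' R01').comp (algebraMap R0 R0') =
      (algebraMap R01 R01').comp (algebraMap R0 R01))
    (c : TwoChart A R0 R1 R01) (c' : TwoChart A' R0' R1' R01')
    (h : LiftData L L') (hL : L.IsVB) {D : IdealPair R0 R1 R01} {D' : IdealPair R0' R1' R01'}
    (hD : D.IsBC D') (hf0 : Module.Flat A (R0 ⧸ D.I0)) (hf1 : Module.Flat A (R1 ⧸ D.I1)) :
    LiftData (downTwist c L D) (downTwist c' L' D') :=
  liftDataDownTwistOfFlat hc0 c c' h hL hD
    (injective_baseChange_of_flat_quotient (A := A) (A' := A') (R' := R0') D.I0)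
    (injective_baseChange_of_flat_quotient (A := A) (A' := A') (R' := R1') D.I1)

/-- `O(-D)` commutes with base change `A → A'` (pushout cube) for a relative effective Cartier
divisor `D`. -/
noncomputable def liftDataOfIdealsOfPushout
    (hc0 : (algebraMap R0' R01').comp (algebraMap R0 R0') =
      (algebraMap R01 R01').comp (algebraMap R0 R01))
    (hc1 : (algebraMap R1' R01').comp (algebraMap R1 R1') =
      (algebraMap R01 R01').comp (algebraMap R1 R01))
    (c : TwoChart A R0 R1 R01) (c' : TwoChart A' R0' R1' R01')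
    {D : IdealPair R0 R1 R01} {D' : IdealPair R0' R1' R01'}
    (hD : D.IsBC D') (hf0 : Module.Flat A (R0 ⧸ D.I0)) (hf1 : Module.Flat A (R1 ⧸ D.I1)) :
    LiftData (ofIdeals c D) (ofIdeals c' D') :=
  liftDataOfIdeals hc0 hc1 c c' hD
    (injective_baseChange_of_flat_quotient (A := A) (A' := A') (R' := R0') D.I0)
    (injective_baseChange_of_flat_quotient (A := A) (A' := A') (R' := R1') D.I1)

end pushout

end Fermat.Agent.Jac.LineOps39
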