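/-
Fermat/Agent/Jac/LineOps39/OverLine.lean  (helper39)

Brick A3 (LineOps) of the S25 programme, part 6: a two-chart vector bundle on a two-chart ring
which is finite projective over the line is itself finite and projective over the line
(`QC2.FiniteOverLine`, `QC2.ProjOverLine` of `Jac/Core.lean`), so the hypotheses of the
cohomology bricks (A1) hold automatically for all line bundles and all their twists.
-/
import Fermat.Agent.Jac.LineOps39.Basic

set_option autoImplicit false
set_option linter.unusedSectionVars false
set_option linter.style.haveILetI false

universe u

open Polynomial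

namespace Fermat.Agent.Jac.LineOps39

/-- Projectivity is transitive along restriction of scalars. -/
theorem projective_of_projective_of_projective (R S N : Type*) [CommRing R] [CommRing S]
    [Algebra R S] [AddCommGroup N] [Module R N] [Module S N] [IsScalarTower R S N]
    [Module.Projective R S] [hN : Module.Projective S N] : Module.Projective R N := by
  classical
  obtain ⟨s, hs⟩ := hN
  have : Module.Projective R (N →₀ S) :=
    Module.Projective.of_equiv (finsuppLequivDFinsupp (ι := N) (M := S) R).symm
  exact Module.Projective.of_split (s.restrictScalars R)
    ((Finsupp.linearCombination S id).restrictScalars R) (LinearMap.ext hs)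

section aeval

variable {A R N : Type*} [CommRing A] [CommRing R] [Algebra A R] [AddCommGroup N] [Module R N]
  [Module A N] [IsScalarTower A R N] (t : R)

/-- If `R` is finite over `A[X]` (with `X` acting as `t`) and `N` is finite over `R`, then `N` is
finite over `A[X]`. -/
lemma finite_aeval_of_finite (h1 : Module.Finite A[X] (Module.AEval A R t))
    (h2 : Module.Finite R N) : Module.Finite A[X] (Module.AEval A N t) := by
  letI : Algebra A[X] R := (Polynomial.aeval t).toRingHom.toAlgebra
  letI : Module A[X] N := Module.compHom N (Polynomial.aeval (R := A) t).toRingHom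
  haveI : IsScalarTower A[X] R N := ⟨fun p r n => mul_smul (Polynomial.aeval t p) r n⟩
  let eR : R ≃ₗ[A[X]] Module.AEval A R t :=
    { (Module.AEval.of A R t).toAddEquiv with
      map_smul' := fun p r => by
        show Module.AEval.of A R t (Polynomial.aeval t p • r) = p • Module.AEval.of A R t r
        exact Module.AEval.of_aeval_smul t p r }
  let eN : N ≃ₗ[A[X]] Module.AEval A N t :=
    { (Module.AEval.of A N t).toAddEquiv with
      map_smul' := fun p n => by
        show Module.AEval.of A N t (Polynomial.aeval t p • n) = p • Module.AEval.of A N t n
        exact Module.AEval.of_aeval_smul t p n }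
  haveI : Module.Finite A[X] R := Module.Finite.equiv eR.symm
  haveI : Module.Finite A[X] N := Module.Finite.trans R N
  exact Module.Finite.equiv eN

/-- If `R` is projective over `A[X]` (with `X` acting as `t`) and `N` is projective over `R`, then
`N` is projective over `A[X]`. -/
lemma projective_aeval_of_projective (h1 : Module.Projective A[X] (Module.AEval A R t))
    (h2 : Module.Projective R N) : Module.Projective A[X] (Module.AEval A N t) := by
  letI : Algebra A[X] R := (Polynomial.aeval t).toRingHom.toAlgebra
  letI : Module A[X] N := Module.compHom N (Polynomial.aeval (R := A) t).toRingHom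
  haveI : IsScalarTower A[X] R N := ⟨fun p r n => mul_smul (Polynomial.aeval t p) r n⟩
  let eR : R ≃ₗ[A[X]] Module.AEval A R t :=
    { (Module.AEval.of A R t).toAddEquiv with
      map_smul' := fun p r => by
        show Module.AEval.of A R t (Polynomial.aeval t p • r) = p • Module.AEval.of A R t r
        exact Module.AEval.of_aeval_smul t p r }
  let eN : N ≃ₗ[A[X]] Module.AEval A N t :=
    { (Module.AEval.of A N t).toAddEquiv with
      map_smul' := fun p n => by
        show Module.AEval.of A N t (Polynomial.aeval t p • n) = p • Module.AEval.of A N t n
        exact Module.AEval.of_aeval_smul t p n }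
  haveI : Module.Projective A[X] R := Module.Projective.of_equiv eR.symm
  haveI : Module.Projective A[X] N := projective_of_projective_of_projective A[X] R N
  exact Module.Projective.of_equiv eN

end aeval

variable {A R0 R1 R01 : Type u} [CommRing A] [CommRing R0] [CommRing R1] [CommRing R01]
  [Algebra A R0] [Algebra A R1] [Algebra A R01] [Algebra R0 R01] [Algebra R1 R01]
  [IsScalarTower A R0 R01] [IsScalarTower A R1 R01]

/-- A vector bundle on a two-chart ring finite over the line is finite over the line. -/
lemma finiteOverLine_of_isVB (c : TwoChart A R0 R1 R01) (hc : c.FiniteProjOverLine)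
    {L : QC2 A R0 R1 R01} (hL : L.IsVB) : L.FiniteOverLine c :=
  ⟨finite_aeval_of_finite c.t hc.fin0 hL.fin0, finite_aeval_of_finite c.s hc.fin1 hL.fin1⟩

/-- A vector bundle on a two-chart ring projective over the line is projective over the line. -/
lemma projOverLine_of_isVB (c : TwoChart A R0 R1 R01) (hc : c.FiniteProjOverLine)
    {L : QC2 A R0 R1 R01} (hL : L.IsVB) : L.ProjOverLine c :=
  ⟨projective_aeval_of_projective c.t hc.proj0 hL.proj0,
    projective_aeval_of_projective c.s hc.proj1 hL.proj1⟩

/-- Line bundles are finite over the line. -/
lemma finiteOverLine_of_isLine (c : TwoChart A R0 R1 R01) (hc : c.FiniteProjOverLine)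
    {L : QC2 A R0 R1 R01} (hL : L.IsLine) : L.FiniteOverLine c :=
  finiteOverLine_of_isVB c hc (isVB_of_isLine hL)

/-- Line bundles are projective over the line. -/
lemma projOverLine_of_isLine (c : TwoChart A R0 R1 R01) (hc : c.FiniteProjOverLine)
    {L : QC2 A R0 R1 R01} (hL : L.IsLine) : L.ProjOverLine c :=
  projOverLine_of_isVB c hc (isVB_of_isLine hL)

end Fermat.Agent.Jac.LineOps39
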