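/-
Fermat/Agent/Jac/LineOps39/Section.lean  (helper39)

Brick A3 (LineOps) of the S25 programme, part 8: global sections as morphisms `O → L`,
image sub-pair and cokernel of a morphism of two-chart modules.
-/
import Fermat.Agent.Jac.LineOps39.Sub

set_option autoImplicit false
set_option linter.unusedSectionVars false

universe u

open TensorProduct

namespace Fermat.Agent.Jac.LineOps39

variable {A R0 R1 R01 : Type u} [CommRing A] [CommRing R0] [CommRing R1] [CommRing R01]
  [Algebra A R0] [Algebra A R1] [Algebra A R01] [Algebra R0 R01] [Algebra R1 R01]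
  [IsScalarTower A R0 R01] [IsScalarTower A R1 R01]

/-! ### Sections as morphisms from the structure sheaf -/

lemma mem_H0_iff (L : QC2 A R0 R1 R01) (x : L.N0 × L.N1) : x ∈ L.H0 ↔ L.r0 x.1 = L.r1 x.2 := by
  show L.d x = 0 ↔ _
  rw [d_apply, sub_eq_zero]

lemma H0_compat (L : QC2 A R0 R1 R01) (σ : L.H0) : L.r0 σ.1.1 = L.r1 σ.1.2 :=
  (mem_H0_iff L σ.1).mp σ.2

/-- The morphism `O → L`, `1 ↦ σ`, attached to a global section `σ`. -/
def homOfSection (L : QC2 A R0 R1 R01) (σ : L.H0) : QC2.Hom QC2.unit L where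
  f0 := LinearMap.toSpanSingleton R0 L.N0 σ.1.1
  f1 := LinearMap.toSpanSingleton R1 L.N1 σ.1.2
  f01 := LinearMap.toSpanSingleton R01 L.N01 (L.r0 σ.1.1)
  comm0 := fun (a : R0) => by
    show algebraMap R0 R01 a • L.r0 σ.1.1 = L.r0 (a • σ.1.1)
    rw [map_smul, algebraMap_smul]
  comm1 := fun (a : R1) => by
    show algebraMap R1 R01 a • L.r0 σ.1.1 = L.r1 (a • σ.1.2)
    rw [map_smul, algebraMap_smul, H0_compat]

@[simp] lemma homOfSection_f0_apply (L : QC2 A R0 R1 R01) (σ : L.H0) (a : R0) :
    (homOfSection L σ).f0 a = a • σ.1.1 := rfl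

@[simp] lemma homOfSection_f1_apply (L : QC2 A R0 R1 R01) (σ : L.H0) (a : R1) :
    (homOfSection L σ).f1 a = a • σ.1.2 := rfl

@[simp] lemma homOfSection_f01_apply (L : QC2 A R0 R1 R01) (σ : L.H0) (a : R01) :
    (homOfSection L σ).f01 a = a • L.r0 σ.1.1 := rfl

/-- The global section `f(1)` attached to a morphism `f : O → L`. -/
def sectionOfHom (L : QC2 A R0 R1 R01) (f : QC2.Hom QC2.unit L) : L.H0 :=
  ⟨(f.f0 (1 : R0), f.f1 (1 : R1)), by
    rw [mem_H0_iff]
    have h0 := f.comm0 (1 : R0)
    have h1 := f.comm1 (1 : R1)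
    have e0 : (QC2.unit : QC2 A R0 R1 R01).r0 (1 : R0) = (1 : R01) := map_one (algebraMap R0 R01)
    have e1 : (QC2.unit : QC2 A R0 R1 R01).r1 (1 : R1) = (1 : R01) := map_one (algebraMap R1 R01)
    rw [e0] at h0
    rw [e1] at h1
    exact h0.symm.trans h1⟩

lemma sectionOfHom_homOfSection (L : QC2 A R0 R1 R01) (σ : L.H0) :
    sectionOfHom L (homOfSection L σ) = σ := by
  apply Subtype.ext
  apply Prod.ext
  · show (1 : R0) • σ.1.1 = σ.1.1
    rw [one_smul]
  · show (1 : R1) • σ.1.2 = σ.1.2
    rw [one_smul]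

lemma homOfSection_sectionOfHom (L : QC2 A R0 R1 R01) (f : QC2.Hom QC2.unit L) :
    homOfSection L (sectionOfHom L f) = f := by
  refine hom_ext' ?_ ?_
  · ext
    show (1 : R0) • f.f0 (1 : R0) = f.f0 (1 : R0)
    rw [one_smul]
  · ext
    show (1 : R1) • f.f1 (1 : R1) = f.f1 (1 : R1)
    rw [one_smul]

/-- Global sections of `L` are the same as morphisms `O → L`. -/
def sectionEquivHom (L : QC2 A R0 R1 R01) : L.H0 ≃ QC2.Hom QC2.unit L where
  toFun := homOfSection L
  invFun := sectionOfHom L
  left_inv := sectionOfHom_homOfSection L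
  right_inv := homOfSection_sectionOfHom L

/-! ### Image and cokernel of a morphism -/

/-- The range of `f01` is generated by the image of the range of `f0`. -/
lemma span_r0_range_f0 {L M : QC2 A R0 R1 R01} (f : QC2.Hom L M) :
    Submodule.span R01 (M.r0 '' (LinearMap.range f.f0 : Set M.N0)) = LinearMap.range f.f01 := by
  apply le_antisymm
  · rw [Submodule.span_le]
    rintro _ ⟨_, ⟨x, rfl⟩, rfl⟩
    exact ⟨L.r0 x, f.comm0 x⟩
  · rintro _ ⟨y, rfl⟩
    induction y using L.bc0.inductionOn with
    | zero => simp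
    | tmul x =>
      rw [f.comm0]
      exact Submodule.subset_span ⟨f.f0 x, ⟨x, rfl⟩, rfl⟩
    | smul s y hy =>
      rw [map_smul]
      exact Submodule.smul_mem _ _ hy
    | add y₁ y₂ h₁ h₂ =>
      rw [map_add]
      exact add_mem h₁ h₂

lemma span_r1_range_f1 {L M : QC2 A R0 R1 R01} (f : QC2.Hom L M) :
    Submodule.span R01 (M.r1 '' (LinearMap.range f.f1 : Set M.N1)) = LinearMap.range f.f01 := by
  apply le_antisymm
  · rw [Submodule.span_le]
    rintro _ ⟨_, ⟨x, rfl⟩, rfl⟩
    exact ⟨L.r1 x, f.comm1 x⟩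
  · rintro _ ⟨y, rfl⟩
    induction y using L.bc1.inductionOn with
    | zero => simp
    | tmul x =>
      rw [f.comm1]
      exact Submodule.subset_span ⟨f.f1 x, ⟨x, rfl⟩, rfl⟩
    | smul s y hy =>
      rw [map_smul]
      exact Submodule.smul_mem _ _ hy
    | add y₁ y₂ h₁ h₂ =>
      rw [map_add]
      exact add_mem h₁ h₂

/-- The image of a morphism, as a sub-pair of the target. -/
def imagePair {L M : QC2 A R0 R1 R01} (f : QC2.Hom L M) : SubPair M where
  S0 := LinearMap.range f.f0
  S1 := LinearMap.range f.f1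
  compat := (span_r0_range_f0 f).trans (span_r1_range_f1 f).symm

lemma imagePair_S01 {L M : QC2 A R0 R1 R01} (f : QC2.Hom L M) :
    (imagePair f).S01 = LinearMap.range f.f01 := span_r0_range_f0 f

/-- The cokernel of a morphism of two-chart modules. -/
def coker (c : TwoChart A R0 R1 R01) {L M : QC2 A R0 R1 R01} (f : QC2.Hom L M) :
    QC2 A R0 R1 R01 :=
  quot c M (imagePair f)

/-- The projection onto the cokernel. -/
def cokerHom (c : TwoChart A R0 R1 R01) {L M : QC2 A R0 R1 R01} (f : QC2.Hom L M) :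
    QC2.Hom M (coker c f) :=
  quotHom c M (imagePair f)

section cokerExact

variable (c : TwoChart A R0 R1 R01) {L M : QC2 A R0 R1 R01} (f : QC2.Hom L M)

lemma exact_f0_coker : Function.Exact f.f0 (cokerHom c f).f0 := by
  intro y
  show (imagePair f).S0.mkQ y = 0 ↔ _
  rw [Submodule.mkQ_apply, Submodule.Quotient.mk_eq_zero]
  exact Iff.rfl

lemma exact_f1_coker : Function.Exact f.f1 (cokerHom c f).f1 := by
  intro y
  show (imagePair f).S1.mkQ y = 0 ↔ _
  rw [Submodule.mkQ_apply, Submodule.Quotient.mk_eq_zero]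
  exact Iff.rfl

lemma exact_f01_coker : Function.Exact f.f01 (cokerHom c f).f01 := by
  intro y
  show (imagePair f).S01.mkQ y = 0 ↔ _
  rw [Submodule.mkQ_apply, Submodule.Quotient.mk_eq_zero, imagePair_S01]
  exact Iff.rfl

lemma cokerHom_f0_surjective : Function.Surjective (cokerHom c f).f0 :=
  Submodule.mkQ_surjective (imagePair f).S0

lemma cokerHom_f1_surjective : Function.Surjective (cokerHom c f).f1 :=
  Submodule.mkQ_surjective (imagePair f).S1

lemma cokerHom_f01_surjective : Function.Surjective (cokerHom c f).f01 :=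
  Submodule.mkQ_surjective (imagePair f).S01

/-- `C⁰(L) → C⁰(M) → C⁰(coker f)` is exact. -/
lemma exact_homC0_coker : Function.Exact (homC0 f) (homC0 (cokerHom c f)) := by
  intro z
  constructor
  · intro h
    have h1 : (cokerHom c f).f0 z.1 = 0 := congrArg Prod.fst h
    have h2 : (cokerHom c f).f1 z.2 = 0 := congrArg Prod.snd h
    obtain ⟨a, ha⟩ := (exact_f0_coker c f z.1).mp h1
    obtain ⟨b, hb⟩ := (exact_f1_coker c f z.2).mp h2
    exact ⟨(a, b), Prod.ext ha hb⟩
  · rintro ⟨w, rfl⟩
    have h1 : (cokerHom c f).f0 (f.f0 w.1) = 0 := (exact_f0_coker c f _).mpr ⟨w.1, rfl⟩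
    have h2 : (cokerHom c f).f1 (f.f1 w.2) = 0 := (exact_f1_coker c f _).mpr ⟨w.2, rfl⟩
    exact Prod.ext h1 h2

/-- `C¹(L) → C¹(M) → C¹(coker f)` is exact. -/
lemma exact_homC1_coker : Function.Exact (homC1 f) (homC1 (cokerHom c f)) :=
  exact_f01_coker c f

lemma homC0_cokerHom_surjective : Function.Surjective (homC0 (cokerHom c f)) :=
  homC0_quotHom_surjective c M (imagePair f)

lemma homC1_cokerHom_surjective : Function.Surjective (homC1 (cokerHom c f)) :=
  homC1_quotHom_surjective c M (imagePair f)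

/-- If `f` is injective on both charts, it is injective on `C⁰`. -/
lemma homC0_injective_of (h0 : Function.Injective f.f0) (h1 : Function.Injective f.f1) :
    Function.Injective (homC0 f) := by
  intro x y h
  exact Prod.ext (h0 (congrArg Prod.fst h)) (h1 (congrArg Prod.snd h))

include c in
/-- If `f` is injective on chart 0, it is injective on the overlap (localization is exact). -/
lemma f01_injective_of (h0 : Function.Injective f.f0) : Function.Injective f.f01 := by
  have := c.away0
  have hL := isLocalizedModule_r0 c L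
  have hM := isLocalizedModule_r0 c M
  have key : f.f01.restrictScalars R0 =
      IsLocalizedModule.map (Submonoid.powers c.t) L.r0 M.r0 f.f0 := by
    apply IsLocalizedModule.linearMap_ext (Submonoid.powers c.t) L.r0 M.r0
    rw [IsLocalizedModule.map_comp]
    ext x
    exact f.comm0 x
  have hinj := IsLocalizedModule.map_injective (Submonoid.powers c.t) L.r0 M.r0 f.f0 h0
  intro x y hxy
  apply hinj
  rw [← key]
  exact hxy

end cokerExact

end Fermat.Agent.Jac.LineOps39
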