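/-
Fermat/Agent/Jac/LineOps39/BCDual.lean  (helper39)

Brick A3 (LineOps) of the S25 programme, part 12: the dual of a line bundle and the line bundle
`O(D)` of an effective Cartier divisor commute with base change along a cube of rings
(`JSmooth85Alg.LiftData`), at the level of objects.
-/
import Fermat.Agent.Jac.LineOps39.BCOps
import Fermat.Agent.Jac.JGroup85Pic

set_option autoImplicit false
set_option linter.unusedSectionVars false

universe u

open TensorProduct

namespace Fermat.Agent.Jac.LineOps39

open JSmooth85Alg

variable {A R0 R1 R01 A' R0' R1' R01' : Type u}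
  [CommRing A] [CommRing R0] [CommRing R1] [CommRing R01]
  [Algebra A R0] [Algebra A R1] [Algebra A R01] [Algebra R0 R01] [Algebra R1 R01]
  [IsScalarTower A R0 R01] [IsScalarTower A R1 R01]
  [CommRing A'] [CommRing R0'] [CommRing R1'] [CommRing R01']
  [Algebra A' R0'] [Algebra A' R1'] [Algebra A' R01'] [Algebra R0' R01'] [Algebra R1' R01']
  [IsScalarTower A' R0' R01'] [IsScalarTower A' R1' R01']
  [Algebra R0 R0'] [Algebra R1 R1'] [Algebra R01 R01']

variable {L : QC2 A R0 R1 R01} {L' : QC2 A' R0' R1' R01'}

/-- The dual of a line bundle commutes with base change. -/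
noncomputable def liftDataDualOfLine
    (hc0 : (algebraMap R0' R01').comp (algebraMap R0 R0') =
      (algebraMap R01 R01').comp (algebraMap R0 R01))
    (hc1 : (algebraMap R1' R01').comp (algebraMap R1 R1') =
      (algebraMap R01 R01').comp (algebraMap R1 R01))
    (c : TwoChart A R0 R1 R01) (c' : TwoChart A' R0' R1' R01')
    (h : LiftData L L') (hL : L.IsLine) (hL' : L'.IsLine) :
    LiftData (dual c L (isVB_of_isLine hL)) (dual c' L' (isVB_of_isLine hL')) :=
  let M := dual c L (isVB_of_isLine hL)
  let hM : LiftData M (BaseChange75.bcCube A' hc0 hc1 M) := BaseChange75.liftData_bcCube hc0 hc1 M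
  let t : LiftData (tensor L M) (tensor L' (BaseChange75.bcCube A' hc0 hc1 M)) :=
    JGroup85Pic.liftDataTensor h hM
  let u : LiftData (tensor L M) (QC2.unit : QC2 A' R0' R1' R01') :=
    BaseChange75.LiftData.congrIso (JGroup85Pic.liftDataUnit hc0 hc1)
      (isoSymm (tensorDualIso c L hL))
  BaseChange75.LiftData.ofIso hM (isoDualOfTensorIso c' hL' (BaseChange75.LiftData.iso t u))

/-- The line bundle `O(D)` of an effective Cartier divisor commutes with base change, as soon as
the ideal sheaf `O(-D)` does. -/
noncomputable def liftDataOfDivisor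
    (hc0 : (algebraMap R0' R01').comp (algebraMap R0 R0') =
      (algebraMap R01 R01').comp (algebraMap R0 R01))
    (hc1 : (algebraMap R1' R01').comp (algebraMap R1 R1') =
      (algebraMap R01 R01').comp (algebraMap R1 R01))
    (c : TwoChart A R0 R1 R01) (c' : TwoChart A' R0' R1' R01')
    {D : IdealPair R0 R1 R01} {D' : IdealPair R0' R1' R01'}
    (h : LiftData (ofIdeals c D) (ofIdeals c' D'))
    (hD : (ofIdeals c D).IsLine) (hD' : (ofIdeals c' D').IsLine) :
    LiftData (ofDivisor c D (isVB_of_isLine hD)) (ofDivisor c' D' (isVB_of_isLine hD')) :=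
  liftDataDualOfLine hc0 hc1 c c' h hD hD'

end Fermat.Agent.Jac.LineOps39
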