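/-
Fermat/Agent/Jac/LineOps39/PatchInvertible.lean  (helper39)

Brick A3 (LineOps) of the S25 programme, part 10: invertibility of a module is Zariski-local,
and the chart-1 ideal of the closure of an `A`-rational point of chart 0 is invertible.

* `invertible_of_localizationSpan'` / `invertible_of_localization_family` /
  `invertible_of_two_localizations`: `Module.Invertible` descends along a cover by basic opens.
* `ideal_invertible_of_two_localizations`, `ideal_invertible_of_away`,
  `invertible_comap_of_away`: the ideal versions.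
* `IdealPair.invertible_I01`, `IdealPair.invertible_I1`, `IdealPair.invertible_I0`:
  for an ideal pair `D` with `s` invertible modulo `D.I1`, invertibility of `D.I0` gives
  invertibility of `D.I1` (and symmetrically).
* `invertible_ofChart0_I1`, `invertible_ofChart1_I0`, and the line-bundle corollaries
  `isLine_downTwist_ofChart0`, `isLine_ofIdeals_ofChart0`, ... at a rational point.
-/
import Fermat.Agent.Jac.LineOps39.IdealSheaf

set_option autoImplicit false
set_option linter.unusedSectionVars false
set_option linter.style.haveILetI false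

universe u v w

open TensorProduct

namespace Fermat.Agent.Jac.LineOps39

/-! ### `Module.Invertible` is local for a cover by basic opens -/

/-- Invertibility of a module is local for a cover by basic opens
(general localization models, indexed by a spanning set). -/
theorem invertible_of_localizationSpan' {R : Type u} [CommRing R] {M : Type v} [AddCommGroup M]
    [Module R M] (s : Set R) (hs : Ideal.span s = ⊤)
    {Rₚ : ∀ _ : s, Type u} [∀ r : s, CommRing (Rₚ r)] [∀ r : s, Algebra R (Rₚ r)]
    [∀ r : s, IsLocalization.Away r.1 (Rₚ r)]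
    {Mₚ : ∀ _ : s, Type w} [∀ r : s, AddCommGroup (Mₚ r)] [∀ r : s, Module R (Mₚ r)]
    [∀ r : s, Module (Rₚ r) (Mₚ r)] [∀ r : s, IsScalarTower R (Rₚ r) (Mₚ r)]
    (f : ∀ r : s, M →ₗ[R] Mₚ r) [∀ r : s, IsLocalizedModule (Submonoid.powers r.1) (f r)]
    (h : ∀ r : s, Module.Invertible (Rₚ r) (Mₚ r)) : Module.Invertible R M := by
  -- Step 1: finite presentation is local
  have hfp : Module.FinitePresentation R M := by
    refine Module.FinitePresentation.of_localizationSpan' s hs (Rₚ := Rₚ) f (fun r => ?_)
    have := h r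
    exact Module.finitePresentation_of_projective _ _
  constructor
  -- Step 2: bijectivity of the evaluation pairing is local
  refine bijective_of_isLocalized_span s hs
    (fun r => Module.Dual (Rₚ r) (Mₚ r) ⊗[R] Mₚ r)
    (fun r => TensorProduct.map
      (IsLocalizedModule.mapExtendScalars (Submonoid.powers r.1) (f r)
        (Algebra.linearMap R (Rₚ r)) (Rₚ r))
      (f r))
    (fun r => Rₚ r)
    (fun r => Algebra.linearMap R (Rₚ r))
    (contractLeft R M) (fun r => ?_)
  have hr := h r
  let e : Module.Dual (Rₚ r) (Mₚ r) ⊗[Rₚ r] Mₚ r ≃ₗ[Rₚ r] Module.Dual (Rₚ r) (Mₚ r) ⊗[R] Mₚ r :=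
    IsLocalization.moduleTensorEquiv (Submonoid.powers r.1) (Rₚ r) (Module.Dual (Rₚ r) (Mₚ r))
      (Mₚ r)
  let G : Module.Dual (Rₚ r) (Mₚ r) ⊗[R] Mₚ r →ₗ[R] Rₚ r :=
    ((contractLeft (Rₚ r) (Mₚ r)).restrictScalars R).comp (e.symm.toLinearMap.restrictScalars R)
  have hG : Function.Bijective G :=
    (Module.Invertible.bijective (R := Rₚ r) (M := Mₚ r)).comp e.symm.bijective
  suffices hmap : IsLocalizedModule.map (Submonoid.powers r.1)
      (TensorProduct.map
        (IsLocalizedModule.mapExtendScalars (Submonoid.powers r.1) (f r)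
          (Algebra.linearMap R (Rₚ r)) (Rₚ r))
        (f r))
      (Algebra.linearMap R (Rₚ r)) (contractLeft R M) = G by
    rw [hmap]; exact hG
  apply IsLocalizedModule.linearMap_ext (Submonoid.powers r.1)
    (TensorProduct.map
        (IsLocalizedModule.mapExtendScalars (Submonoid.powers r.1) (f r)
          (Algebra.linearMap R (Rₚ r)) (Rₚ r))
        (f r)) (Algebra.linearMap R (Rₚ r))
  rw [IsLocalizedModule.map_comp]
  ext φ m
  show algebraMap R (Rₚ r) (φ m) = (contractLeft (Rₚ r) (Mₚ r))
    ((IsLocalizedModule.mapExtendScalars (Submonoid.powers r.1) (f r)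
      (Algebra.linearMap R (Rₚ r)) (Rₚ r) φ) ⊗ₜ[Rₚ r] (f r m))
  rw [contractLeft_apply, IsLocalizedModule.mapExtendScalars_apply_apply]
  exact (IsLocalizedModule.map_apply (Submonoid.powers r.1) (f r)
    (Algebra.linearMap R (Rₚ r)) φ m).symm

/-- Invertibility of a module is local for a cover by basic opens (indexed version). -/
theorem invertible_of_localization_family {R : Type u} [CommRing R] {M : Type v} [AddCommGroup M]
    [Module R M] {ι : Type*} (r : ι → R) (hs : Ideal.span (Set.range r) = ⊤)
    {Rₚ : ι → Type u} [∀ i, CommRing (Rₚ i)] [∀ i, Algebra R (Rₚ i)]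
    [∀ i, IsLocalization.Away (r i) (Rₚ i)]
    {Mₚ : ι → Type w} [∀ i, AddCommGroup (Mₚ i)] [∀ i, Module R (Mₚ i)]
    [∀ i, Module (Rₚ i) (Mₚ i)] [∀ i, IsScalarTower R (Rₚ i) (Mₚ i)]
    (f : ∀ i, M →ₗ[R] Mₚ i) [∀ i, IsLocalizedModule (Submonoid.powers (r i)) (f i)]
    (h : ∀ i, Module.Invertible (Rₚ i) (Mₚ i)) : Module.Invertible R M := by
  let idx : Set.range r → ι := fun x => x.2.choose
  have hidx : ∀ x : Set.range r, r (idx x) = x.1 := fun x => x.2.choose_spec
  have h1 : ∀ x : Set.range r, IsLocalization.Away x.1 (Rₚ (idx x)) := fun x => by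
    rw [← hidx x]; infer_instance
  have h2 : ∀ x : Set.range r, IsLocalizedModule (Submonoid.powers x.1) (f (idx x)) := fun x => by
    rw [← hidx x]; infer_instance
  exact invertible_of_localizationSpan' (Set.range r) hs (Rₚ := fun x => Rₚ (idx x))
    (Mₚ := fun x => Mₚ (idx x)) (fun x => f (idx x)) (fun x => h (idx x))

/-- Invertibility of a module can be checked on a cover by two basic opens. -/
theorem invertible_of_two_localizations {R : Type u} [CommRing R] {M : Type v} [AddCommGroup M]
    [Module R M] (r₁ r₂ : R) (h : Ideal.span {r₁, r₂} = (⊤ : Ideal R))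
    {R₁ R₂ : Type u} [CommRing R₁] [CommRing R₂] [Algebra R R₁] [Algebra R R₂]
    [IsLocalization.Away r₁ R₁] [IsLocalization.Away r₂ R₂]
    {M₁ M₂ : Type w} [AddCommGroup M₁] [AddCommGroup M₂] [Module R M₁] [Module R M₂]
    [Module R₁ M₁] [Module R₂ M₂] [IsScalarTower R R₁ M₁] [IsScalarTower R R₂ M₂]
    (f₁ : M →ₗ[R] M₁) (f₂ : M →ₗ[R] M₂) [IsLocalizedModule (Submonoid.powers r₁) f₁]
    [IsLocalizedModule (Submonoid.powers r₂) f₂]
    (h₁ : Module.Invertible R₁ M₁) (h₂ : Module.Invertible R₂ M₂) : Module.Invertible R M := by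
  let r : Bool → R := fun b => Bool.rec (motive := fun _ => R) r₂ r₁ b
  let Rₚ : Bool → Type u := fun b => Bool.rec (motive := fun _ => Type u) R₂ R₁ b
  let Mₚ : Bool → Type w := fun b => Bool.rec (motive := fun _ => Type w) M₂ M₁ b
  letI i1 : ∀ b, CommRing (Rₚ b) := fun b => by
    cases b
    · exact (inferInstance : CommRing R₂)
    · exact (inferInstance : CommRing R₁)
  letI i2 : ∀ b, Algebra R (Rₚ b) := fun b => by
    cases b
    · exact (inferInstance : Algebra R R₂)
    · exact (inferInstance : Algebra R R₁)
  haveI i3 : ∀ b, IsLocalization.Away (r b) (Rₚ b) := fun b => by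
    cases b
    · exact (inferInstance : IsLocalization.Away r₂ R₂)
    · exact (inferInstance : IsLocalization.Away r₁ R₁)
  letI i4 : ∀ b, AddCommGroup (Mₚ b) := fun b => by
    cases b
    · exact (inferInstance : AddCommGroup M₂)
    · exact (inferInstance : AddCommGroup M₁)
  letI i5 : ∀ b, Module R (Mₚ b) := fun b => by
    cases b
    · exact (inferInstance : Module R M₂)
    · exact (inferInstance : Module R M₁)
  letI i6 : ∀ b, Module (Rₚ b) (Mₚ b) := fun b => by
    cases b
    · exact (inferInstance : Module R₂ M₂)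
    · exact (inferInstance : Module R₁ M₁)
  haveI i7 : ∀ b, IsScalarTower R (Rₚ b) (Mₚ b) := fun b => by
    cases b
    · exact (inferInstance : IsScalarTower R R₂ M₂)
    · exact (inferInstance : IsScalarTower R R₁ M₁)
  let f : ∀ b, M →ₗ[R] Mₚ b := fun b => by
    cases b
    · exact f₂
    · exact f₁
  haveI i8 : ∀ b, IsLocalizedModule (Submonoid.powers (r b)) (f b) := fun b => by
    cases b
    · exact (inferInstance : IsLocalizedModule (Submonoid.powers r₂) f₂)
    · exact (inferInstance : IsLocalizedModule (Submonoid.powers r₁) f₁)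
  have hs : Ideal.span (Set.range r) = ⊤ := by
    have : Set.range r = {r₁, r₂} := by
      ext x; constructor
      · rintro ⟨b, rfl⟩; cases b <;> simp [r]
      · rintro (rfl | rfl)
        · exact ⟨true, rfl⟩
        · exact ⟨false, rfl⟩
    rw [this, h]
  refine invertible_of_localization_family r hs (Rₚ := Rₚ) (Mₚ := Mₚ) f (fun b => ?_)
  cases b
  · exact h₂
  · exact h₁

/-! ### Ideal versions -/

/-- An ideal is an invertible module as soon as its extensions to the two members of a cover by
basic opens are. -/
theorem ideal_invertible_of_two_localizations {R : Type u} [CommRing R] (I : Ideal R)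
    (r₁ r₂ : R) (h : Ideal.span {r₁, r₂} = (⊤ : Ideal R))
    {R₁ R₂ : Type u} [CommRing R₁] [CommRing R₂] [Algebra R R₁] [Algebra R R₂]
    [IsLocalization.Away r₁ R₁] [IsLocalization.Away r₂ R₂]
    (h₁ : Module.Invertible R₁ (I.map (algebraMap R R₁)))
    (h₂ : Module.Invertible R₂ (I.map (algebraMap R R₂))) : Module.Invertible R I :=
  invertible_of_two_localizations r₁ r₂ h (Algebra.idealMap R₁ I) (Algebra.idealMap R₂ I) h₁ h₂

/-- If `s` is invertible modulo the ideal `I` (witnessed by `t * s - 1 ∈ I`) and the extension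
of `I` to `R[1/s]` is an invertible module, then `I` is an invertible module. -/
theorem ideal_invertible_of_away {R : Type u} [CommRing R] (s : R) {R' : Type u} [CommRing R']
    [Algebra R R'] [IsLocalization.Away s R'] (I : Ideal R)
    (hI' : Module.Invertible R' (I.map (algebraMap R R')))
    (t : R) (ht : t * s - 1 ∈ I) : Module.Invertible R I := by
  set w := t * s - 1 with hw
  have hspan : Ideal.span {s, w} = (⊤ : Ideal R) := by
    rw [Ideal.eq_top_iff_one]
    have h1 : (1 : R) = t * s - w := by rw [hw]; ring
    rw [h1]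
    exact Ideal.sub_mem _ (Ideal.mul_mem_left _ _ (Ideal.subset_span (by simp)))
      (Ideal.subset_span (by simp))
  have e2 : I.map (algebraMap R (Localization.Away w)) = ⊤ := by
    have hunit : IsUnit (algebraMap R (Localization.Away w) w) :=
      IsLocalization.Away.algebraMap_isUnit w
    have hmem : algebraMap R (Localization.Away w) w ∈
        I.map (algebraMap R (Localization.Away w)) := Ideal.mem_map_of_mem _ ht
    exact Ideal.eq_top_of_isUnit_mem _ hmem hunit
  refine ideal_invertible_of_two_localizations I s w hspan (R₁ := R')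
    (R₂ := Localization.Away w) hI' ?_
  rw [e2]
  exact Module.Invertible.congr (Submodule.topEquiv (R := Localization.Away w)
    (M := Localization.Away w)).symm

/-- The contraction to `R` of an invertible ideal `I'` of `R[1/s]` is invertible provided `s` is
invertible modulo the contraction. -/
theorem invertible_comap_of_away {R : Type u} [CommRing R] (s : R) {R' : Type u} [CommRing R']
    [Algebra R R'] [IsLocalization.Away s R'] (I' : Ideal R') (hI' : Module.Invertible R' I')
    (t : R) (ht : t * s - 1 ∈ I'.comap (algebraMap R R')) :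
    Module.Invertible R (I'.comap (algebraMap R R')) := by
  refine ideal_invertible_of_away s (R' := R') _ ?_ t ht
  rw [IsLocalization.map_under (Submonoid.powers s) R' I']
  exact hI'

/-! ### Ideal pairs on a two-chart curve -/

section pair

variable {A R0 R1 R01 : Type u} [CommRing A] [CommRing R0] [CommRing R1] [CommRing R01]
  [Algebra A R0] [Algebra A R1] [Algebra A R01] [Algebra R0 R01] [Algebra R1 R01]
  [IsScalarTower A R0 R01] [IsScalarTower A R1 R01]

/-- The overlap ideal of an ideal pair is invertible when the chart-0 ideal is. -/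
theorem IdealPair.invertible_I01 (c : TwoChart A R0 R1 R01) (D : IdealPair R0 R1 R01)
    (h0 : Module.Invertible R0 D.I0) : Module.Invertible R01 D.I01 := by
  have := c.away0
  show Module.Invertible R01 (D.I0.map (algebraMap R0 R01))
  exact Module.Invertible.of_isLocalization (Submonoid.powers c.t) (Algebra.idealMap R01 D.I0)

/-- The overlap ideal of an ideal pair is invertible when the chart-1 ideal is. -/
theorem IdealPair.invertible_I01' (c : TwoChart A R0 R1 R01) (D : IdealPair R0 R1 R01)
    (h1 : Module.Invertible R1 D.I1) : Module.Invertible R01 D.I01 := by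
  have := c.away1
  rw [D.I01_eq']
  exact Module.Invertible.of_isLocalization (Submonoid.powers c.s) (Algebra.idealMap R01 D.I1)

/-- If the coordinate `s` is invertible modulo the chart-1 ideal of an ideal pair `D`
(i.e. `V(D)` lies in chart 0), invertibility of `D.I0` implies invertibility of `D.I1`. -/
theorem IdealPair.invertible_I1 (c : TwoChart A R0 R1 R01) (D : IdealPair R0 R1 R01)
    (h0 : Module.Invertible R0 D.I0) (u : R1) (hu : u * c.s - 1 ∈ D.I1) :
    Module.Invertible R1 D.I1 := by
  have := c.away1
  refine ideal_invertible_of_away c.s (R' := R01) D.I1 ?_ u hu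
  rw [← D.I01_eq']
  exact D.invertible_I01 c h0

/-- If the coordinate `t` is invertible modulo the chart-0 ideal of an ideal pair `D`
(i.e. `V(D)` lies in chart 1), invertibility of `D.I1` implies invertibility of `D.I0`. -/
theorem IdealPair.invertible_I0 (c : TwoChart A R0 R1 R01) (D : IdealPair R0 R1 R01)
    (h1 : Module.Invertible R1 D.I1) (v : R0) (hv : v * c.t - 1 ∈ D.I0) :
    Module.Invertible R0 D.I0 := by
  have := c.away0
  refine ideal_invertible_of_away c.t (R' := R01) D.I0 ?_ v hv
  exact D.invertible_I01' c h1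

/-- The chart-1 ideal of the closure of an `A`-rational closed subscheme `V(I0)` of chart 0
(`t ≡ a` modulo `I0`) is invertible when `I0` is. -/
theorem invertible_ofChart0_I1 (c : TwoChart A R0 R1 R01) (I0 : Ideal R0)
    (h0 : Module.Invertible R0 I0) (a : A) (ha : c.t - algebraMap A R0 a ∈ I0) :
    Module.Invertible R1 (IdealPair.ofChart0 c I0).I1 :=
  (IdealPair.ofChart0 c I0).invertible_I1 c h0 _ (ofChart0_unit_mod c I0 a ha)

/-- The chart-0 ideal of the closure of an `A`-rational closed subscheme `V(I1)` of chart 1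
(`s ≡ a` modulo `I1`) is invertible when `I1` is. -/
theorem invertible_ofChart1_I0 (c : TwoChart A R0 R1 R01) (I1 : Ideal R1)
    (h1 : Module.Invertible R1 I1) (a : A) (ha : c.s - algebraMap A R1 a ∈ I1) :
    Module.Invertible R0 (IdealPair.ofChart1 c I1).I0 :=
  (IdealPair.ofChart1 c I1).invertible_I0 c h1 _ (ofChart1_unit_mod c I1 a ha)

/-- `L(-P)` is a line bundle for `L` a line bundle and `P` (the closure of) an `A`-rational
closed subscheme of chart 0 cut out by an invertible ideal. -/
theorem isLine_downTwist_ofChart0 (c : TwoChart A R0 R1 R01) {L : QC2 A R0 R1 R01}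
    (hL : L.IsLine) (I0 : Ideal R0) (h0 : Module.Invertible R0 I0) (a : A)
    (ha : c.t - algebraMap A R0 a ∈ I0) :
    (downTwist c L (IdealPair.ofChart0 c I0)).IsLine :=
  isLine_downTwist c hL _ h0 (invertible_ofChart0_I1 c I0 h0 a ha)

/-- Chart-1 version of `isLine_downTwist_ofChart0`. -/
theorem isLine_downTwist_ofChart1 (c : TwoChart A R0 R1 R01) {L : QC2 A R0 R1 R01}
    (hL : L.IsLine) (I1 : Ideal R1) (h1 : Module.Invertible R1 I1) (a : A)
    (ha : c.s - algebraMap A R1 a ∈ I1) :
    (downTwist c L (IdealPair.ofChart1 c I1)).IsLine :=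
  isLine_downTwist c hL _ (invertible_ofChart1_I0 c I1 h1 a ha) h1

/-- `L(-P)` is a vector bundle for `L` a vector bundle and `P` as in
`isLine_downTwist_ofChart0`. -/
theorem isVB_downTwist_ofChart0 (c : TwoChart A R0 R1 R01) {L : QC2 A R0 R1 R01}
    (hL : L.IsVB) (I0 : Ideal R0) (h0 : Module.Invertible R0 I0) (a : A)
    (ha : c.t - algebraMap A R0 a ∈ I0) :
    (downTwist c L (IdealPair.ofChart0 c I0)).IsVB :=
  isVB_downTwist c hL _ h0 (invertible_ofChart0_I1 c I0 h0 a ha)

/-- Chart-1 version of `isVB_downTwist_ofChart0`. -/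
theorem isVB_downTwist_ofChart1 (c : TwoChart A R0 R1 R01) {L : QC2 A R0 R1 R01}
    (hL : L.IsVB) (I1 : Ideal R1) (h1 : Module.Invertible R1 I1) (a : A)
    (ha : c.s - algebraMap A R1 a ∈ I1) :
    (downTwist c L (IdealPair.ofChart1 c I1)).IsVB :=
  isVB_downTwist c hL _ (invertible_ofChart1_I0 c I1 h1 a ha) h1

/-- The ideal sheaf `O(-P)` of an `A`-rational Cartier point of chart 0 is a line bundle. -/
theorem isLine_ofIdeals_ofChart0 (c : TwoChart A R0 R1 R01) (I0 : Ideal R0)
    (h0 : Module.Invertible R0 I0) (a : A) (ha : c.t - algebraMap A R0 a ∈ I0) :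
    (ofIdeals c (IdealPair.ofChart0 c I0)).IsLine :=
  isLine_ofIdeals c _ h0 (invertible_ofChart0_I1 c I0 h0 a ha)

/-- The ideal sheaf `O(-P)` of an `A`-rational Cartier point of chart 1 is a line bundle. -/
theorem isLine_ofIdeals_ofChart1 (c : TwoChart A R0 R1 R01) (I1 : Ideal R1)
    (h1 : Module.Invertible R1 I1) (a : A) (ha : c.s - algebraMap A R1 a ∈ I1) :
    (ofIdeals c (IdealPair.ofChart1 c I1)).IsLine :=
  isLine_ofIdeals c _ (invertible_ofChart1_I0 c I1 h1 a ha) h1

end pair

end Fermat.Agent.Jac.LineOps39
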