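/-
Fermat/Agent/Jac/LineOps39/TwistEquiv.lean  (helper39)

Brick A3 (LineOps) of the S25 programme, part 13: twisting by an effective Cartier divisor is an
auto-equivalence of vector bundles.

* `subIso`, `quotIso` : functoriality of sub-objects / quotients in the ambient object.
* `downTwistIso`, `restrictToIso` : `L ≅ L' → L(-D) ≅ L'(-D)`, `L|_D ≅ L'|_D`.
* `upTwist c D L := O(D) ⊗ L`, `upTwistIso`, `isVB_upTwist`, `isLine_upTwist`.
* `upDownIso : O(D) ⊗ L(-D) ≅ L`, `downUpIso : (O(D) ⊗ L)(-D) ≅ L`.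
* `isoOfDownTwistIso : L(-D) ≅ L'(-D) → L ≅ L'` (twisting is injective on iso classes),
  `exists_downTwist_iso` (and essentially surjective).
-/
import Fermat.Agent.Jac.LineOps39.IdealSheaf

set_option autoImplicit false
set_option linter.unusedSectionVars false

universe u

open TensorProduct

namespace Fermat.Agent.Jac.LineOps39

variable {A R0 R1 R01 : Type u} [CommRing A] [CommRing R0] [CommRing R1] [CommRing R01]
  [Algebra A R0] [Algebra A R1] [Algebra A R01] [Algebra R0 R01] [Algebra R1 R01]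
  [IsScalarTower A R0 R01] [IsScalarTower A R1 R01]

/-! ### Functoriality of sub-objects and quotients -/

section functorial

variable {L L' : QC2 A R0 R1 R01}

/-- If an isomorphism matches two sub-pairs on the charts, it matches them on the overlap. -/
lemma SubPair.map_S01 (e : QC2.Iso L L') (P : SubPair L) (P' : SubPair L')
    (h0 : P.S0.map e.e0.toLinearMap = P'.S0) :
    P.S01.map e.e01.toLinearMap = P'.S01 := by
  unfold SubPair.S01
  rw [Submodule.map_span, ← h0, Submodule.map_coe, Set.image_image, Set.image_image]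
  congr 1
  apply Set.image_congr
  intro x _
  exact e.comm0 x

/-- An isomorphism matching two sub-pairs induces an isomorphism of the sub-objects. -/
noncomputable def subIso (c : TwoChart A R0 R1 R01) (e : QC2.Iso L L') (P : SubPair L)
    (P' : SubPair L') (h0 : P.S0.map e.e0.toLinearMap = P'.S0)
    (h1 : P.S1.map e.e1.toLinearMap = P'.S1) : QC2.Iso (sub c L P) (sub c L' P') where
  e0 := LinearEquiv.ofSubmodules e.e0 P.S0 P'.S0 h0
  e1 := LinearEquiv.ofSubmodules e.e1 P.S1 P'.S1 h1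
  e01 := LinearEquiv.ofSubmodules e.e01 P.S01 P'.S01 (SubPair.map_S01 e P P' h0)
  comm0 := fun (x : P.S0) => Subtype.ext (e.comm0 x)
  comm1 := fun (x : P.S1) => Subtype.ext (e.comm1 x)

/-- An isomorphism matching two sub-pairs induces an isomorphism of the quotients. -/
noncomputable def quotIso (c : TwoChart A R0 R1 R01) (e : QC2.Iso L L') (P : SubPair L)
    (P' : SubPair L') (h0 : P.S0.map e.e0.toLinearMap = P'.S0)
    (h1 : P.S1.map e.e1.toLinearMap = P'.S1) : QC2.Iso (quot c L P) (quot c L' P') where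
  e0 := Submodule.Quotient.equiv P.S0 P'.S0 e.e0 h0
  e1 := Submodule.Quotient.equiv P.S1 P'.S1 e.e1 h1
  e01 := Submodule.Quotient.equiv P.S01 P'.S01 e.e01 (SubPair.map_S01 e P P' h0)
  comm0 := fun x => by
    obtain ⟨n, rfl⟩ := P.S0.mkQ_surjective x
    show P'.S01.mkQ (e.e01 (L.r0 n)) = P'.S01.mkQ (L'.r0 (e.e0 n))
    rw [e.comm0]
  comm1 := fun x => by
    obtain ⟨n, rfl⟩ := P.S1.mkQ_surjective x
    show P'.S01.mkQ (e.e01 (L.r1 n)) = P'.S01.mkQ (L'.r1 (e.e1 n))
    rw [e.comm1]

lemma map_smul_top_of_equiv {R N N' : Type*} [CommRing R] [AddCommGroup N] [AddCommGroup N']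
    [Module R N] [Module R N'] (I : Ideal R) (e : N ≃ₗ[R] N') :
    (I • (⊤ : Submodule R N)).map e.toLinearMap = I • (⊤ : Submodule R N') := by
  rw [Submodule.map_smul'', Submodule.map_top, LinearEquiv.range]

/-- `L ≅ L' → L(-D) ≅ L'(-D)`. -/
noncomputable def downTwistIso (c : TwoChart A R0 R1 R01) (e : QC2.Iso L L')
    (D : IdealPair R0 R1 R01) : QC2.Iso (downTwist c L D) (downTwist c L' D) :=
  subIso c e (D.subPair c L) (D.subPair c L') (map_smul_top_of_equiv D.I0 e.e0)
    (map_smul_top_of_equiv D.I1 e.e1)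

/-- `L ≅ L' → L|_D ≅ L'|_D`. -/
noncomputable def restrictToIso (c : TwoChart A R0 R1 R01) (e : QC2.Iso L L')
    (D : IdealPair R0 R1 R01) : QC2.Iso (restrictTo c L D) (restrictTo c L' D) :=
  quotIso c e (D.subPair c L) (D.subPair c L') (map_smul_top_of_equiv D.I0 e.e0)
    (map_smul_top_of_equiv D.I1 e.e1)

end functorial

/-! ### Twisting up -/

section up

variable (c : TwoChart A R0 R1 R01) (D : IdealPair R0 R1 R01)
  (h0 : Module.Invertible R0 D.I0) (h1 : Module.Invertible R1 D.I1)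

/-- `L(D) := O(D) ⊗ L` for an effective Cartier divisor `D`. -/
noncomputable def upTwist (L : QC2 A R0 R1 R01) : QC2 A R0 R1 R01 :=
  tensor (ofDivisor c D (isVB_of_isLine (isLine_ofIdeals c D h0 h1))) L

lemma isLine_upTwist {L : QC2 A R0 R1 R01} (hL : L.IsLine) : (upTwist c D h0 h1 L).IsLine :=
  isLine_tensor (isLine_ofDivisor c D h0 h1) hL

lemma isVB_upTwist {L : QC2 A R0 R1 R01} (hL : L.IsVB) : (upTwist c D h0 h1 L).IsVB :=
  isVB_tensor (isVB_of_isLine (isLine_ofDivisor c D h0 h1)) hL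

/-- `L ≅ L' → L(D) ≅ L'(D)`. -/
noncomputable def upTwistIso {L L' : QC2 A R0 R1 R01} (e : QC2.Iso L L') :
    QC2.Iso (upTwist c D h0 h1 L) (upTwist c D h0 h1 L') :=
  tensorIso (isoRefl _) e

/-- `O(D) ⊗ L(-D) ≅ L` for a vector bundle `L`. -/
noncomputable def upDownIso {L : QC2 A R0 R1 R01} (hL : L.IsVB) :
    QC2.Iso (upTwist c D h0 h1 (downTwist c L D)) L :=
  isoTrans (tensorIso (isoRefl _) (isoSymm (tensorOfIdealsIso c D hL)))
    (isoTrans (isoSymm (tensorAssoc _ (ofIdeals c D) L))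
      (isoTrans (tensorIso (ofDivisorTensorIso c D h0 h1) (isoRefl L)) (tensorUnitLeft L)))

/-- `(O(D) ⊗ L)(-D) ≅ L` for a vector bundle `L`. -/
noncomputable def downUpIso {L : QC2 A R0 R1 R01} (hL : L.IsVB) :
    QC2.Iso (downTwist c (upTwist c D h0 h1 L) D) L :=
  isoTrans (isoSymm (tensorOfIdealsIso c D (isVB_upTwist c D h0 h1 hL)))
    (isoTrans (isoSymm (tensorAssoc (ofIdeals c D) _ L))
      (isoTrans (tensorIso (isoTrans (tensorComm _ _) (ofDivisorTensorIso c D h0 h1)) (isoRefl L))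
        (tensorUnitLeft L)))

/-- Twisting down by an effective Cartier divisor is injective on isomorphism classes of vector
bundles. -/
noncomputable def isoOfDownTwistIso {L L' : QC2 A R0 R1 R01} (hL : L.IsVB) (hL' : L'.IsVB)
    (e : QC2.Iso (downTwist c L D) (downTwist c L' D)) : QC2.Iso L L' :=
  isoTrans (isoSymm (upDownIso c D h0 h1 hL))
    (isoTrans (upTwistIso c D h0 h1 e) (upDownIso c D h0 h1 hL'))

include h0 h1 in
/-- Twisting down by an effective Cartier divisor is essentially surjective on vector bundles. -/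
lemma exists_downTwist_iso {M : QC2 A R0 R1 R01} (hM : M.IsVB) :
    ∃ L : QC2 A R0 R1 R01, L.IsVB ∧ Nonempty (QC2.Iso (downTwist c L D) M) :=
  ⟨upTwist c D h0 h1 M, isVB_upTwist c D h0 h1 hM, ⟨downUpIso c D h0 h1 hM⟩⟩

include h0 h1 in
/-- Twisting down by an effective Cartier divisor is essentially surjective on line bundles. -/
lemma exists_downTwist_iso_of_isLine {M : QC2 A R0 R1 R01} (hM : M.IsLine) :
    ∃ L : QC2 A R0 R1 R01, L.IsLine ∧ Nonempty (QC2.Iso (downTwist c L D) M) :=
  ⟨upTwist c D h0 h1 M, isLine_upTwist c D h0 h1 hM,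
    ⟨downUpIso c D h0 h1 (isVB_of_isLine hM)⟩⟩

end up

end Fermat.Agent.Jac.LineOps39
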