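/-
Fermat/Agent/Jac/LineOps39/BCTwist.lean  (helper39)

Brick A3 (LineOps) of the S25 programme, part 14: the up-twist `L(D) = O(D) ⊗ L` commutes with
base change along a cube of rings.
-/
import Fermat.Agent.Jac.LineOps39.BCDual
import Fermat.Agent.Jac.LineOps39.TwistEquiv

set_option autoImplicit false
set_option linter.unusedSectionVars false

universe u

open TensorProduct

namespace Fermat.Agent.Jac.LineOps39

open JSmooth85Alg

variable {A R0 R1 R01 A' R0' R1' R01' : Type u}
  [CommRing A] [CommRing R0] [CommRing R1] [CommRing R01]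
  [Algebra A R0] [Algebra A R1] [Algebra A R01] [Algebra R0 R01] [Algebra R1 R01]
  [IsScalarTower A R0 R01] [IsScalarTower A R1 R01]
  [CommRing A'] [CommRing R0'] [CommRing R1'] [CommRing R01']
  [Algebra A' R0'] [Algebra A' R1'] [Algebra A' R01'] [Algebra R0' R01'] [Algebra R1' R01']
  [IsScalarTower A' R0' R01'] [IsScalarTower A' R1' R01']
  [Algebra R0 R0'] [Algebra R1 R1'] [Algebra R01 R01']

variable {L : QC2 A R0 R1 R01} {L' : QC2 A' R0' R1' R01'}

/-- `L(D) = O(D) ⊗ L` commutes with base change as soon as the ideal sheaf `O(-D)` does. -/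
noncomputable def liftDataUpTwist
    (hc0 : (algebraMap R0' R01').comp (algebraMap R0 R0') =
      (algebraMap R01 R01').comp (algebraMap R0 R01))
    (hc1 : (algebraMap R1' R01').comp (algebraMap R1 R1') =
      (algebraMap R01 R01').comp (algebraMap R1 R01))
    (c : TwoChart A R0 R1 R01) (c' : TwoChart A' R0' R1' R01')
    (h : LiftData L L') {D : IdealPair R0 R1 R01} {D' : IdealPair R0' R1' R01'}
    (h0 : Module.Invertible R0 D.I0) (h1 : Module.Invertible R1 D.I1)
    (h0' : Module.Invertible R0' D'.I0) (h1' : Module.Invertible R1' D'.I1)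
    (hO : LiftData (ofIdeals c D) (ofIdeals c' D')) :
    LiftData (upTwist c D h0 h1 L) (upTwist c' D' h0' h1' L') :=
  JGroup85Pic.liftDataTensor
    (liftDataOfDivisor hc0 hc1 c c' hO (isLine_ofIdeals c D h0 h1) (isLine_ofIdeals c' D' h0' h1'))
    h

end Fermat.Agent.Jac.LineOps39
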