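/-
Fermat/Agent/Jac/LineOps39/ModAt.lean  (helper39)

Adapter A3 -> A2: the down-twist `L(-P) → L` at a rational point of chart 0 (or of chart 0 given
by any ideal `m` modulo which `t` is constant) is an elementary modification in the sense of
`Riemann4.Modification.IsModAt` (helper4).
-/
import Fermat.Agent.Jac.LineOps39.Point
import Fermat.Agent.Jac.Riemann4.Modification

set_option autoImplicit false
set_option linter.unusedSectionVars false

universe u

namespace Fermat.Agent.Jac.LineOps39

open Fermat.Agent.Jac.Riemann4.Modification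

variable {K R0 R1 R01 : Type u} [Field K] [CommRing R0] [CommRing R1] [CommRing R01]
  [Algebra K R0] [Algebra K R1] [Algebra K R01] [Algebra R0 R01] [Algebra R1 R01]
  [IsScalarTower K R0 R01] [IsScalarTower K R1 R01]

/-- The down-twist at (the closure of) `V(m)`, `m` an ideal of chart 0 modulo which the coordinate
`t` is congruent to a constant `a : K` (e.g. the maximal ideal of a `K`-rational point), is an
elementary modification along `m`. -/
theorem isModAt_downTwistHom_ofChart0 (c : TwoChart K R0 R1 R01) (L : QC2 K R0 R1 R01)
    (m : Ideal R0) (a : K) (ha : c.t - algebraMap K R0 a ∈ m) :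
    IsModAt m (downTwistHom c L (IdealPair.ofChart0 c m)) where
  inj0 := subHom_f0_injective c L _
  inj1 := subHom_f1_injective c L _
  inj01 := subHom_f01_injective c L _
  range0 := Submodule.range_subtype _
  cart1 := fun x hx => by
    have hbij := restrictTo_ofChart0_bijective_r1 c L m a ha
    have hx' : L.r1 x ∈ ((IdealPair.ofChart0 c m).subPair c L).S01 := by
      obtain ⟨y, hy⟩ := hx
      rw [← hy]
      exact y.2
    have h0 : ((IdealPair.ofChart0 c m).subPair c L).quotR1 (Submodule.Quotient.mk x) = 0 := by
      show (Submodule.Quotient.mk (L.r1 x) : L.N01 ⧸ ((IdealPair.ofChart0 c m).subPair c L).S01) = 0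
      exact (Submodule.Quotient.mk_eq_zero _).mpr hx'
    have h1 : (Submodule.Quotient.mk x : L.N1 ⧸ ((IdealPair.ofChart0 c m).subPair c L).S1) = 0 :=
      hbij.1 (h0.trans (map_zero _).symm)
    have h2 : x ∈ ((IdealPair.ofChart0 c m).subPair c L).S1 :=
      (Submodule.Quotient.mk_eq_zero _).mp h1
    exact ⟨⟨x, h2⟩, rfl⟩

end Fermat.Agent.Jac.LineOps39
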