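/-
Fermat/Agent/Jac/LineOps39/PointStep.lean  (helper39)

JAC brick R2a, piece (P1): the POINT STEP of helper76's `AlgChart76.TranslInputs`.

For a `k`-point `q : B0 →ₐ[k] k` of chart 0 whose maximal ideal `ker q` is an invertible
`B0`-module (e.g. `B0` Dedekind, not a field):
* `ptPair c0 q A` : the ideal pair of the `A`-point induced by `q` (closure in the glued curve);
  its ideals are invertible (`invertible_ptPair_I0/I1`), the residue rings are flat over `A`
  (`flat_quot_ptPair_I0/I1`), and it commutes with base change (`ptPair_isBC`);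
* `liftDataPointQC` : `L ↦ L(-q)` commutes with base change;
* `ptQTr c0 q hinv : QTr k B0 B1 B01` with `T L = pointQC c0 q L` (`ptQTr_T`, by `rfl`);
* `ptQTr_rigid` : `QTr.Rigid P0` for a point `P0` at infinity (`P0 s = 0`);
* `ptQTr_chi` : `QTr.ChiShift (-1)` (needs `c0.FiniteProjOverLine`);
* `translInputsOfTwist` : completes the twist half (`tw`, `tw_T`, `tw_rigid`, `tw_chi`) to a
  `TranslInputs c0 P0 d`;
* `invertible_ker_of_dedekind`.
-/
import Fermat.Agent.Jac.AlgChart76.Transl
import Fermat.Agent.Jac.LineOps39.BCOps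
import Fermat.Agent.Jac.LineOps39.TwistEquiv
import Fermat.Agent.Jac.LineOps39.PatchInvertible
import Fermat.Agent.Jac.ConverseDiv60BC
import Fermat.Agent.Jac.CurveBaseChange98Point
import Fermat.Agent.Jac.ConverseDiv60Props
import Fermat.Agent.Jac.BaseChange75.Tensor

set_option autoImplicit false
set_option linter.unusedSectionVars false
set_option linter.style.haveILetI false

universe u

open TensorProduct

namespace Fermat.Agent.Jac.LineOps39.PointStep

open scoped Fermat.Agent.Jac.BaseChange75
open JSmooth85Alg BaseChange75 LineOps39 AlgChart76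

variable {k : Type u} [Field k] {B0 B1 B01 : Type u} [CommRing B0] [CommRing B1] [CommRing B01]
  [Algebra k B0] [Algebra k B1] [Algebra k B01] [Algebra B0 B01] [Algebra B1 B01]
  [IsScalarTower k B0 B01] [IsScalarTower k B1 B01]
  (c0 : TwoChart k B0 B1 B01)

section Basic

variable (q : B0 →ₐ[k] k) (A : Type u) [CommRing A] [Algebra k A]

/-- The ideal pair of the `A`-point of chart 0 induced by the `k`-point `q`. -/
noncomputable def ptPair : IdealPair (A ⊗[k] B0) (A ⊗[k] B1) (A ⊗[k] B01) :=
  IdealPair.ofChart0 (c0.baseChange A) (ptIdeal q A)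

lemma pointQC_eq (L : QCA k B0 B1 B01 A) :
    pointQC c0 q L = downTwist (c0.baseChange A) L (ptPair c0 q A) := rfl

/-- The coordinate `t` is congruent to the constant `q t` modulo the ideal of the point. -/
lemma t_sub_mem_ptIdeal :
    (c0.baseChange A).t - algebraMap A (A ⊗[k] B0) (algebraMap k A (q c0.t)) ∈ ptIdeal q A := by
  rw [mem_ptIdeal, map_sub, baseChange_t, evalA_tmul, AlgHom.commutes, one_mul]
  exact sub_self _

/-- The coordinate `s` is invertible modulo the chart-1 ideal of the point. -/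
lemma unit_mod_ptPair :
    algebraMap A (A ⊗[k] B1) (algebraMap k A (q c0.t)) * (c0.baseChange A).s - 1 ∈
      (ptPair c0 q A).I1 :=
  ofChart0_unit_mod (c0.baseChange A) (ptIdeal q A) _ (t_sub_mem_ptIdeal c0 q A)

/-- The ideal of the point is an invertible module. -/
lemma invertible_ptIdeal (hinv : Module.Invertible B0 (RingHom.ker q)) :
    Module.Invertible (A ⊗[k] B0) (ptIdeal q A) := by
  rw [ptIdeal_eq_map]
  exact CurveBaseChange98Point.invertible_extIdeal A (RingHom.ker q)

lemma invertible_ptPair_I0 (hinv : Module.Invertible B0 (RingHom.ker q)) :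
    Module.Invertible (A ⊗[k] B0) (ptPair c0 q A).I0 :=
  invertible_ptIdeal q A hinv

lemma invertible_ptPair_I1 (hinv : Module.Invertible B0 (RingHom.ker q)) :
    Module.Invertible (A ⊗[k] B1) (ptPair c0 q A).I1 :=
  invertible_ofChart0_I1 (c0.baseChange A) (ptIdeal q A) (invertible_ptIdeal q A hinv) _
    (t_sub_mem_ptIdeal c0 q A)

/-- The residue ring of the point is `A`. -/
noncomputable def quotPtIdealEquiv : ((A ⊗[k] B0) ⧸ ptIdeal q A) ≃ₐ[A] A :=
  Ideal.quotientKerAlgEquivOfSurjective (evalA_surjective q A)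

lemma flat_quot_ptIdeal : Module.Flat A ((A ⊗[k] B0) ⧸ ptIdeal q A) :=
  Module.Flat.of_linearEquiv (quotPtIdealEquiv q A).toLinearEquiv

lemma flat_quot_ptPair_I0 : Module.Flat A ((A ⊗[k] B0) ⧸ (ptPair c0 q A).I0) :=
  flat_quot_ptIdeal q A

lemma flat_quot_ptPair_I1 : Module.Flat A ((A ⊗[k] B1) ⧸ (ptPair c0 q A).I1) :=
  have := flat_quot_ptPair_I0 c0 q A
  ConverseDiv60BC.flat_quot_I1 (c0.baseChange A) (ptPair c0 q A) _ (unit_mod_ptPair c0 q A)

end Basic


section BC

variable (q : B0 →ₐ[k] k) (A A' : Type u) [CommRing A] [CommRing A'] [Algebra k A] [Algebra k A']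
  [Algebra A A'] [IsScalarTower k A A']

/-- The ideal pair of the point commutes with base change. -/
lemma ptPair_isBC : (ptPair c0 q A).IsBC (ptPair c0 q A') := by
  have h := IdealPair.isBC_ofChart0 (square_comm k A A' B0 B01) (square_comm k A A' B1 B01)
    (c0.baseChange A) (c0.baseChange A') (algebraMap_baseChange_s c0 A A') (ptIdeal q A) _
    (unit_mod_ptPair c0 q A)
  rw [ptIdeal_map_left] at h
  exact h

/-- The down-twist at the point commutes with base change (for vector bundles). -/
noncomputable def liftDataPointQC {L : QCA k B0 B1 B01 A} {L' : QCA k B0 B1 B01 A'}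
    (h : LiftData L L') (hL : L.IsVB) : LiftData (pointQC c0 q L) (pointQC c0 q L') :=
  liftDataDownTwistOfPushout (square_comm k A A' B0 B01) (c0.baseChange A) (c0.baseChange A') h hL
    (ptPair_isBC c0 q A A') (flat_quot_ptPair_I0 c0 q A) (flat_quot_ptPair_I1 c0 q A)

end BC

/-- **The point step** as a `QTr`: `L ↦ L(-q)` for a `k`-point `q` of chart 0 whose maximal ideal
is an invertible module. -/
noncomputable def ptQTr (q : B0 →ₐ[k] k) (hinv : Module.Invertible B0 (RingHom.ker q)) :
    QTr k B0 B1 B01 where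
  T L := pointQC c0 q L
  isLine {A _ _ _} hL :=
    isLine_downTwist (c0.baseChange A) hL (ptPair c0 q A) (invertible_ptPair_I0 c0 q A hinv)
      (invertible_ptPair_I1 c0 q A hinv)
  iso {A _ _ _ _} _ _ := fun ⟨e⟩ => ⟨downTwistIso (c0.baseChange A) e (ptPair c0 q A)⟩
  iso_inv {A _ _ _ _} hL hL' := fun ⟨e⟩ =>
    ⟨isoOfDownTwistIso (c0.baseChange A) (ptPair c0 q A) (invertible_ptPair_I0 c0 q A hinv)
      (invertible_ptPair_I1 c0 q A hinv) (isVB_of_isLine hL) (isVB_of_isLine hL') e⟩
  bc {A A' _ _ _ _ _ _ _ _} hL := fun ⟨h⟩ =>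
    ⟨liftDataPointQC c0 q A A' h (isVB_of_isLine hL)⟩
  ess {A _ _} _ hM :=
    exists_downTwist_iso_of_isLine (c0.baseChange A) (ptPair c0 q A)
      (invertible_ptPair_I0 c0 q A hinv) (invertible_ptPair_I1 c0 q A hinv) hM

@[simp]
lemma ptQTr_T (q : B0 →ₐ[k] k) (hinv : Module.Invertible B0 (RingHom.ker q)) {A : Type u}
    [CommRing A] [Algebra k A] (L : QCA k B0 B1 B01 A) :
    (ptQTr c0 q hinv).T L = pointQC c0 q L := rfl

/-- If the ideal `I` contains an element which becomes a unit in the `R`-algebra `S`, then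
`S ⊗ I N → S ⊗ N` is bijective. -/
lemma bijective_baseChange_smul_top_subtype {R S N : Type*} [CommRing R] [CommRing S]
    [Algebra R S] [AddCommGroup N] [Module R N] (I : Ideal R) (w : R) (hw : w ∈ I)
    (hu : IsUnit (algebraMap R S w)) :
    Function.Bijective ((I • (⊤ : Submodule R N)).subtype.baseChange S) := by
  let μ : N →ₗ[R] (I • (⊤ : Submodule R N) : Submodule R N) :=
    (LinearMap.lsmul R N w).codRestrict _ (fun n => Submodule.smul_mem_smul hw Submodule.mem_top)
  have h1 : (I • (⊤ : Submodule R N)).subtype ∘ₗ μ = w • LinearMap.id := by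
    ext n; rfl
  have h2 : μ ∘ₗ (I • (⊤ : Submodule R N)).subtype = w • LinearMap.id := by
    ext n; rfl
  have h1' : ∀ y, (I • (⊤ : Submodule R N)).subtype.baseChange S (μ.baseChange S y) =
      algebraMap R S w • y := by
    intro y
    rw [← LinearMap.comp_apply, ← LinearMap.baseChange_comp, h1, LinearMap.baseChange_smul,
      LinearMap.baseChange_id, LinearMap.smul_apply, LinearMap.id_apply, algebraMap_smul]
  have h2' : ∀ x, μ.baseChange S ((I • (⊤ : Submodule R N)).subtype.baseChange S x) =
      algebraMap R S w • x := by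
    intro x
    rw [← LinearMap.comp_apply, ← LinearMap.baseChange_comp, h2, LinearMap.baseChange_smul,
      LinearMap.baseChange_id, LinearMap.smul_apply, LinearMap.id_apply, algebraMap_smul]
  obtain ⟨v, hv⟩ := hu
  constructor
  · intro x y hxy
    have := congrArg (μ.baseChange S) hxy
    rw [h2', h2', ← hv] at this
    have h3 := congrArg (fun z => (↑v⁻¹ : S) • z) this
    simpa [smul_smul] using h3
  · intro y
    refine ⟨(↑v⁻¹ : S) • μ.baseChange S y, ?_⟩
    rw [map_smul, h1', ← hv, smul_smul, Units.inv_mul, one_smul]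


/-- **The point step preserves and reflects rigidifiability** at a point `P0` at infinity
(`P0 s = 0`). -/
theorem ptQTr_rigid (P0 : B1 →ₐ[k] k) (hP0 : P0 c0.s = 0) (q : B0 →ₐ[k] k)
    (hinv : Module.Invertible B0 (RingHom.ker q)) : (ptQTr c0 q hinv).Rigid P0 := by
  intro A _ _ L _
  show RigidMod P0 A L.N1 ↔
    RigidMod P0 A ((ptPair c0 q A).I1 • (⊤ : Submodule (A ⊗[k] B1) L.N1) : Submodule _ L.N1)
  unfold RigidMod
  have hu : IsUnit (evalA P0 A
      (algebraMap A (A ⊗[k] B1) (algebraMap k A (q c0.t)) * (c0.baseChange A).s - 1)) := by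
    have : evalA P0 A
        (algebraMap A (A ⊗[k] B1) (algebraMap k A (q c0.t)) * (c0.baseChange A).s - 1) = -1 := by
      rw [map_sub, map_mul, baseChange_s, evalA_tmul, hP0, map_zero, mul_zero, mul_zero, map_one,
        zero_sub]
    rw [this]
    exact isUnit_one.neg
  have hw := unit_mod_ptPair c0 q A
  have hb := @bijective_baseChange_smul_top_subtype (A ⊗[k] B1) A L.N1 _ _ (algEval P0 A) _ _
    (ptPair c0 q A).I1 _ hw hu
  let e := LinearEquiv.ofBijective _ hb
  constructor
  · rintro ⟨ρ⟩
    exact ⟨e.trans ρ⟩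
  · rintro ⟨ρ⟩
    exact ⟨e.symm.trans ρ⟩


/-- **The point step lowers the fibrewise Euler characteristic by one.** -/
theorem ptQTr_chi (hc : c0.FiniteProjOverLine) (q : B0 →ₐ[k] k)
    (hinv : Module.Invertible B0 (RingHom.ker q)) : (ptQTr c0 q hinv).ChiShift (-1) := by
  intro A _ _ L hL p
  have h : LiftData L (L.baseChange p.asIdeal.ResidueField) :=
    baseChange_liftData p.asIdeal.ResidueField L
  have hT : LiftData (pointQC c0 q L) (pointQC c0 q (L.baseChange p.asIdeal.ResidueField)) :=
    liftDataPointQC c0 q A p.asIdeal.ResidueField h (isVB_of_isLine hL)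
  have hLK : (L.baseChange p.asIdeal.ResidueField).IsLine := BaseChange75.LiftData.isLine h hL
  show (pointQC c0 q L).chiField p.asIdeal.ResidueField =
    L.chiField p.asIdeal.ResidueField + -1
  rw [← ChiBC36.chiField_liftData h p.asIdeal.ResidueField,
    ← ChiBC36.chiField_liftData hT p.asIdeal.ResidueField]
  haveI : Module.Invertible (p.asIdeal.ResidueField ⊗[k] B0)
      (ptIdeal q p.asIdeal.ResidueField) := invertible_ptIdeal q _ hinv
  haveI : Module.Finite p.asIdeal.ResidueField
      ((p.asIdeal.ResidueField ⊗[k] B0) ⧸ ptIdeal q p.asIdeal.ResidueField) :=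
    Module.Finite.equiv (quotPtIdealEquiv q p.asIdeal.ResidueField).symm.toLinearEquiv
  have key := ConverseDiv60Props.chiField_downTwist (c0.baseChange p.asIdeal.ResidueField)
    (hc.baseChange _) hLK (ptIdeal q p.asIdeal.ResidueField)
  have hfr : Module.finrank p.asIdeal.ResidueField
      ((p.asIdeal.ResidueField ⊗[k] B0) ⧸ ptIdeal q p.asIdeal.ResidueField) = 1 := by
    rw [(quotPtIdealEquiv q p.asIdeal.ResidueField).toLinearEquiv.finrank_eq,
      Module.finrank_self]
  rw [hfr] at key
  have key' : (pointQC c0 q (L.baseChange p.asIdeal.ResidueField)).chiField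
      p.asIdeal.ResidueField + 1 =
      (L.baseChange p.asIdeal.ResidueField).chiField p.asIdeal.ResidueField := by
    exact_mod_cast key
  linarith


/-- The maximal ideal of a `k`-point of a Dedekind domain which is not a field is an invertible
module. -/
theorem invertible_ker_of_dedekind [IsDedekindDomain B0] (hB : ¬ IsField B0) (q : B0 →ₐ[k] k) :
    Module.Invertible B0 (RingHom.ker q) := by
  have hsurj : Function.Surjective q := fun a => ⟨algebraMap k B0 a, by simp⟩
  have hmax : (RingHom.ker q).IsMaximal := RingHom.ker_isMaximal_of_surjective q hsurj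
  have hm0 : RingHom.ker q ≠ ⊥ := by
    intro h0
    apply hB
    rw [Ring.isField_iff_maximal_bot, ← h0]
    exact hmax
  exact CurveBaseChange98Point.invertible_of_ne_bot (RingHom.ker q) hm0

/-- **The point half of `TranslInputs`**: given the twist half, the point steps complete it. -/
noncomputable def translInputsOfTwist (hc : c0.FiniteProjOverLine) (P0 : B1 →ₐ[k] k)
    (hP0 : P0 c0.s = 0) (d : ℕ)
    (hinv : ∀ q : B0 →ₐ[k] k, Module.Invertible B0 (RingHom.ker q))
    (tw : ℤ → QTr k B0 B1 B01)
    (tw_T : ∀ (m : ℤ) {A : Type u} [CommRing A] [Algebra k A] (L : QCA k B0 B1 B01 A),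
      (tw m).T L = twistQC c0 m L)
    (tw_rigid : ∀ m, (tw m).Rigid P0) (tw_chi : ∀ m, (tw m).ChiShift (m * d)) :
    TranslInputs c0 P0 d where
  tw := tw
  tw_T := tw_T
  tw_rigid := tw_rigid
  tw_chi := tw_chi
  pt q := ptQTr c0 q (hinv q)
  pt_T _ _ _ _ _ := rfl
  pt_rigid q := ptQTr_rigid c0 P0 hP0 q (hinv q)
  pt_chi q := ptQTr_chi c0 hc q (hinv q)

end Fermat.Agent.Jac.LineOps39.PointStep
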